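/-
Programme FFJ (S19), chapter VAL (ValSurj), brick (VS0).  Owner: helper67.

Port of the constant-family part of `JAC/Abel/PointDiag56` (helper56) to a BASE RING `k`
(`[CommRing k]`), against `ClR`/`bcR` of `FFJ/Core/ClR35`: the line diagram `O(-Γ_φ)` of the graph of a
`B`-point `φ` of one of the two charts, for ANY `k`-algebra `B`:
* `ChartHypR k A` (finite type, free over `k`, all fibres Dedekind and not fields);
* `invertible_graphIdealR` (P1), `pointDiag0R`, `pointDiag1R` (P2), `cls_pointDiag0R_eq_cls_pointDiag1R`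
  (P3, overlap);
* `bc_cls_pointDiag0R`, `bc_cls_pointDiag1R` (P4): `bcR ψ [O(-Γ_φ)] = [O(-Γ_{ψ ∘ φ})]`.
The abstract part of `PointDiag56` (`closure0/1`, `divDiag0/1`) is ring-general and imported as is.
-/
import Mathlib
import Fermat.Agent.JAC.Abel.PointDiag56
import Fermat.Agent.FFJ.Val.DivBaseChangeR67

set_option autoImplicit false

open TensorProduct

namespace Fermat.Agent.FFJ.Val.PointDiagR67

open Fermat.Agent.JAC.Core.Defs36 Fermat.Agent.JAC.Div.DivisorDiagram56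
  Fermat.Agent.JAC.Div.BasedInvertible56 Fermat.Agent.JAC.Hilb.SectionDiv46
  Fermat.Agent.JAC.Hilb.IdealDiagBC46 Fermat.Agent.JAC.Abel.PointDiag56

section Const

universe u

open scoped Fermat.Agent.JAC.Core.ConstFamily36
open Fermat.Agent.JAC.Core.ConstFamily36 Fermat.Agent.JAC.Cover.GraphIdeal98
  Fermat.Agent.JAC.Div.CartierFinal56

/-- The hypotheses on one chart ring of the curve data over a BASE RING `k` used for relative
divisors: finite type, free as a `k`-module, all fibres Dedekind domains which are not fields. -/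
structure ChartHypR (k A : Type u) [CommRing k] [CommRing A] [Algebra k A] : Prop where
  finiteType : Algebra.FiniteType k A
  free : Module.Free k A
  dedekind : ∀ (K : Type u) [Field K] [Algebra k K], IsDedekindDomain (K ⊗[k] A)
  not_isField : ∀ (K : Type u) [Field K] [Algebra k K], ¬ IsField (K ⊗[k] A)

/-- **A3.2 for the constant family `B ⊗[k] A`** over a base ring (port of
`CartierFinal56.invertible_of_dedekind_fibres_const`). -/
theorem invertible_of_dedekind_fibres_constR {k : Type u} [CommRing k] {A : Type u} [CommRing A]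
    [Algebra k A] {B : Type u} [CommRing B] [Algebra k B] [Algebra.FiniteType k A] [Module.Free k A]
    (hgeom : ∀ (K : Type u) [Field K] [Algebra k K],
      IsDedekindDomain (K ⊗[k] A) ∧ ¬ IsField (K ⊗[k] A))
    (I : Ideal (B ⊗[k] A)) [Module.Finite B ((B ⊗[k] A) ⧸ I)]
    [Module.Projective B ((B ⊗[k] A) ⧸ I)] :
    Module.Invertible (B ⊗[k] A) I := by
  refine invertible_of_dedekind_fibres (B := B) (R := B ⊗[k] A) I ?_
  intro K _ _
  let _ : Algebra k K := ((algebraMap B K).comp (algebraMap k B)).toAlgebra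
  have : IsScalarTower k B K := IsScalarTower.of_algebraMap_eq (fun _ => rfl)
  obtain ⟨hded, hfield⟩ := hgeom K
  let f : K ⊗[B] (B ⊗[k] A) ≃ₐ[K] K ⊗[k] A := Algebra.TensorProduct.cancelBaseChange k B K K A
  exact ⟨isDedekindDomain_of_ringEquiv f.toRingEquiv,
    fun h => hfield (MulEquiv.isField h f.symm.toRingEquiv.toMulEquiv)⟩

variable {k : Type u} [CommRing k] {A0 A1 A01 : Type u} [CommRing A0] [CommRing A1] [CommRing A01]
  [Algebra k A0] [Algebra k A1] [Algebra k A01] [Algebra A0 A01] [Algebra A1 A01]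
  [IsScalarTower k A0 A01] [IsScalarTower k A1 A01] (t : A0) (s : A1)
  [IsLocalization.Away t A01] [IsLocalization.Away s A01]
  {B : Type u} [CommRing B] [Algebra k B]

omit [IsLocalization.Away t A01] [IsLocalization.Away s A01] in
theorem hts_constR (hts : algebraMap A0 A01 t * algebraMap A1 A01 s = 1) :
    algebraMap (B ⊗[k] A0) (B ⊗[k] A01) ((1 : B) ⊗ₜ[k] t) *
      algebraMap (B ⊗[k] A1) (B ⊗[k] A01) ((1 : B) ⊗ₜ[k] s) = 1 := by
  rw [algebraMap_tensor_tmul, algebraMap_tensor_tmul, Algebra.TensorProduct.tmul_mul_tmul, hts,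
    mul_one, Algebra.TensorProduct.one_def]

/-- **(P1)** The graph ideal of a `B`-point of a chart is an invertible module. -/
theorem invertible_graphIdealR {A : Type u} [CommRing A] [Algebra k A] (h : ChartHypR k A)
    (φ : A →ₐ[k] B) : Module.Invertible (B ⊗[k] A) (graphIdeal φ) := by
  have := h.finiteType
  have := h.free
  exact invertible_of_dedekind_fibres_constR
    (fun K _ _ => ⟨h.dedekind K, h.not_isField K⟩) (graphIdeal φ)

/-- **(P2)** `O(-Γ_φ)` for a `B`-point `φ` of the chart `0`. -/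
noncomputable def pointDiag0R (h0 : ChartHypR k A0)
    (hts : algebraMap A0 A01 t * algebraMap A1 A01 s = 1) (φ : A0 →ₐ[k] B) :
    LineDiag ((1 : B) ⊗ₜ[k] t) ((1 : B) ⊗ₜ[k] s) (B ⊗[k] A01) :=
  haveI := invertible_graphIdealR h0 φ
  divDiag0 (B := B) ((1 : B) ⊗ₜ[k] t) ((1 : B) ⊗ₜ[k] s) (graphIdeal φ) (hts_constR t s hts)

/-- **(P2)** `O(-Γ_φ)` for a `B`-point `φ` of the chart `1`. -/
noncomputable def pointDiag1R (h1 : ChartHypR k A1)
    (hts : algebraMap A0 A01 t * algebraMap A1 A01 s = 1) (φ : A1 →ₐ[k] B) :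
    LineDiag ((1 : B) ⊗ₜ[k] t) ((1 : B) ⊗ₜ[k] s) (B ⊗[k] A01) :=
  haveI := invertible_graphIdealR h1 φ
  divDiag1 (B := B) ((1 : B) ⊗ₜ[k] t) ((1 : B) ⊗ₜ[k] s) (graphIdeal φ) (hts_constR t s hts)

omit [IsLocalization.Away t A01] [IsLocalization.Away s A01] in
theorem comap_graphIdeal_constR {A A' : Type u} [CommRing A] [CommRing A'] [Algebra k A]
    [Algebra k A'] [Algebra A A'] [IsScalarTower k A A'] (χ : A' →ₐ[k] B) :
    graphIdeal (χ.comp (IsScalarTower.toAlgHom k A A')) =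
      (graphIdeal χ).comap (algebraMap (B ⊗[k] A) (B ⊗[k] A')) := by
  rw [← comap_graphIdeal]
  ext x
  rw [Ideal.mem_comap, Ideal.mem_comap]
  have : (Algebra.TensorProduct.map (AlgHom.id k B) (IsScalarTower.toAlgHom k A A')) x =
      algebraMap (B ⊗[k] A) (B ⊗[k] A') x := by
    induction x using TensorProduct.induction_on with
    | zero => simp
    | tmul b a => rfl
    | add x y hx hy => simp only [map_add, hx, hy]
  rw [this]

/-- **(P3)** Overlap: for a `B`-point of `U0 ∩ U1` the two constructions agree. -/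
theorem nonempty_iso_pointDiagR (h0 : ChartHypR k A0) (h1 : ChartHypR k A1)
    (hts : algebraMap A0 A01 t * algebraMap A1 A01 s = 1) (φ01 : A01 →ₐ[k] B) :
    Nonempty (LineDiag.Iso
      (pointDiag0R t s h0 hts (φ01.comp (IsScalarTower.toAlgHom k A0 A01)))
      (pointDiag1R t s h1 hts (φ01.comp (IsScalarTower.toAlgHom k A1 A01)))) := by
  have := invertible_graphIdealR h0 (φ01.comp (IsScalarTower.toAlgHom k A0 A01))
  have := invertible_graphIdealR h1 (φ01.comp (IsScalarTower.toAlgHom k A1 A01))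
  exact nonempty_iso_divDiag0_divDiag1 (B := B) ((1 : B) ⊗ₜ[k] t) ((1 : B) ⊗ₜ[k] s)
    (graphIdeal φ01) _ _ (comap_graphIdeal_constR φ01) (comap_graphIdeal_constR φ01)
    (hts_constR t s hts)

/-! ### Base change -/

section BaseChange

open Fermat.Agent.FFJ.Core.ClR35 Fermat.Agent.FFJ.Val.DivBaseChangeR67
  Fermat.Agent.JAC.Grp.Diag33

variable {B' : Type u} [CommRing B'] [Algebra k B'] (ψ : B →ₐ[k] B')

omit [IsLocalization.Away t A01] in
/-- The closure at infinity commutes with base change. -/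
theorem map_closure1_constR (Z0 : Ideal (B ⊗[k] A0)) (Z0' : Ideal (B' ⊗[k] A0))
    (hZ : Z0.map (bcMapR ψ A0 A0) = Z0')
    [Module.Finite B ((B ⊗[k] A0) ⧸ Z0)] [Module.Finite B' ((B' ⊗[k] A0) ⧸ Z0')]
    (hts : algebraMap A0 A01 t * algebraMap A1 A01 s = 1) :
    (closure1 (R1 := B ⊗[k] A1) (R01 := B ⊗[k] A01) Z0).map (bcMapR ψ A1 A1) =
      closure1 (R1 := B' ⊗[k] A1) (R01 := B' ⊗[k] A01) Z0' := by
  have hinf := closure1_sup_span_eq_top (B := B) (R1 := B ⊗[k] A1) (R01 := B ⊗[k] A01)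
    ((1 : B) ⊗ₜ[k] t) ((1 : B) ⊗ₜ[k] s) Z0 (hts_constR t s hts)
  have hinf' := closure1_sup_span_eq_top (B := B') (R1 := B' ⊗[k] A1) (R01 := B' ⊗[k] A01)
    ((1 : B') ⊗ₜ[k] t) ((1 : B') ⊗ₜ[k] s) Z0' (hts_constR t s hts)
  refine eq_of_map_eq_of_sup_span_eq_top ((1 : B') ⊗ₜ[k] s) (B' ⊗[k] A01)
    (map_bcMap_sup_span_eq_top ψ hinf) hinf' ?_
  rw [← map_bcMap_eq ψ (map_closure1 (R1 := B ⊗[k] A1) (R01 := B ⊗[k] A01)
    ((1 : B) ⊗ₜ[k] s) Z0).symm, hZ, map_closure1 (R1 := B' ⊗[k] A1) (R01 := B' ⊗[k] A01)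
    ((1 : B') ⊗ₜ[k] s) Z0']

omit [IsLocalization.Away s A01] in
/-- The closure in the chart `0` commutes with base change. -/
theorem map_closure0_constR (J1 : Ideal (B ⊗[k] A1)) (J1' : Ideal (B' ⊗[k] A1))
    (hJ : J1.map (bcMapR ψ A1 A1) = J1')
    [Module.Finite B ((B ⊗[k] A1) ⧸ J1)] [Module.Finite B' ((B' ⊗[k] A1) ⧸ J1')]
    (hts : algebraMap A0 A01 t * algebraMap A1 A01 s = 1) :
    (closure0 (R0 := B ⊗[k] A0) (R01 := B ⊗[k] A01) J1).map (bcMapR ψ A0 A0) =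
      closure0 (R0 := B' ⊗[k] A0) (R01 := B' ⊗[k] A01) J1' := by
  have hinf := closure0_sup_span_eq_top (B := B) (R0 := B ⊗[k] A0) (R01 := B ⊗[k] A01)
    ((1 : B) ⊗ₜ[k] t) ((1 : B) ⊗ₜ[k] s) J1 (hts_constR t s hts)
  have hinf' := closure0_sup_span_eq_top (B := B') (R0 := B' ⊗[k] A0) (R01 := B' ⊗[k] A01)
    ((1 : B') ⊗ₜ[k] t) ((1 : B') ⊗ₜ[k] s) J1' (hts_constR t s hts)
  refine eq_of_map_eq_of_sup_span_eq_top ((1 : B') ⊗ₜ[k] t) (B' ⊗[k] A01)
    (map_bcMap_sup_span_eq_top (A1 := A0) (s := t) ψ hinf) hinf' ?_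
  rw [map_bcMap_eq ψ (map_closure0 (R0 := B ⊗[k] A0) (R01 := B ⊗[k] A01)
    ((1 : B) ⊗ₜ[k] t) J1), hJ, map_closure0 (R0 := B' ⊗[k] A0) (R01 := B' ⊗[k] A01)
    ((1 : B') ⊗ₜ[k] t) J1']

/-- **Base change of `O(-D)`, `D` in the chart `0`** (class form, `AlgAtlas36.bc`). -/
theorem bc_cls_divDiag0R (Z0 : Ideal (B ⊗[k] A0)) (Z0' : Ideal (B' ⊗[k] A0))
    (hZ : Z0.map (bcMapR ψ A0 A0) = Z0')
    [Module.Finite B ((B ⊗[k] A0) ⧸ Z0)] [Module.Flat B ((B ⊗[k] A0) ⧸ Z0)]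
    [Module.Invertible (B ⊗[k] A0) Z0]
    [Module.Finite B' ((B' ⊗[k] A0) ⧸ Z0')] [Module.Invertible (B' ⊗[k] A0) Z0']
    (hts : algebraMap A0 A01 t * algebraMap A1 A01 s = 1) :
    bcR ψ (cls (divDiag0 (B := B) ((1 : B) ⊗ₜ[k] t) ((1 : B) ⊗ₜ[k] s) Z0 (hts_constR t s hts))) =
      cls (divDiag0 (B := B') ((1 : B') ⊗ₜ[k] t) ((1 : B') ⊗ₜ[k] s) Z0' (hts_constR t s hts)) := by
  have i1 := invertible_closure1 (B := B) (R1 := B ⊗[k] A1) (R01 := B ⊗[k] A01)
    ((1 : B) ⊗ₜ[k] t) ((1 : B) ⊗ₜ[k] s) Z0 (hts_constR t s hts)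
  have i1' := invertible_closure1 (B := B') (R1 := B' ⊗[k] A1) (R01 := B' ⊗[k] A01)
    ((1 : B') ⊗ₜ[k] t) ((1 : B') ⊗ₜ[k] s) Z0' (hts_constR t s hts)
  have hinf := closure1_sup_span_eq_top (B := B) (R1 := B ⊗[k] A1) (R01 := B ⊗[k] A01)
    ((1 : B) ⊗ₜ[k] t) ((1 : B) ⊗ₜ[k] s) Z0 (hts_constR t s hts)
  have h := (map_closure1 (R1 := B ⊗[k] A1) (R01 := B ⊗[k] A01) ((1 : B) ⊗ₜ[k] s) Z0).symm
  have hflat1 := flat_quotient_infty (t := t) (s := s) Z0 _ h hinf
  obtain ⟨j0, j1, e⟩ := bc_cls_idealDiag (t := t) (s := s) ψ Z0 _ h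
  unfold divDiag0
  rw [e]
  exact cls_eq_iff.mpr ⟨idealDiagCongr hZ (map_closure1_constR t s ψ Z0 Z0' hZ hts) _ _⟩

/-- **Base change of `O(-D)`, `D` in the chart `1`** (class form, `AlgAtlas36.bc`). -/
theorem bc_cls_divDiag1R (J1 : Ideal (B ⊗[k] A1)) (J1' : Ideal (B' ⊗[k] A1))
    (hJ : J1.map (bcMapR ψ A1 A1) = J1')
    [Module.Finite B ((B ⊗[k] A1) ⧸ J1)] [Module.Flat B ((B ⊗[k] A1) ⧸ J1)]
    [Module.Invertible (B ⊗[k] A1) J1]
    [Module.Finite B' ((B' ⊗[k] A1) ⧸ J1')] [Module.Invertible (B' ⊗[k] A1) J1']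
    (hts : algebraMap A0 A01 t * algebraMap A1 A01 s = 1) :
    bcR ψ (cls (divDiag1 (B := B) ((1 : B) ⊗ₜ[k] t) ((1 : B) ⊗ₜ[k] s) J1 (hts_constR t s hts))) =
      cls (divDiag1 (B := B') ((1 : B') ⊗ₜ[k] t) ((1 : B') ⊗ₜ[k] s) J1' (hts_constR t s hts)) := by
  have i0 := invertible_closure0 (B := B) (R0 := B ⊗[k] A0) (R01 := B ⊗[k] A01)
    ((1 : B) ⊗ₜ[k] t) ((1 : B) ⊗ₜ[k] s) J1 (hts_constR t s hts)
  have i0' := invertible_closure0 (B := B') (R0 := B' ⊗[k] A0) (R01 := B' ⊗[k] A01)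
    ((1 : B') ⊗ₜ[k] t) ((1 : B') ⊗ₜ[k] s) J1' (hts_constR t s hts)
  have hinf := closure0_sup_span_eq_top (B := B) (R0 := B ⊗[k] A0) (R01 := B ⊗[k] A01)
    ((1 : B) ⊗ₜ[k] t) ((1 : B) ⊗ₜ[k] s) J1 (hts_constR t s hts)
  have h := map_closure0 (R0 := B ⊗[k] A0) (R01 := B ⊗[k] A01) ((1 : B) ⊗ₜ[k] t) J1
  have hflat0 : Module.Flat B ((B ⊗[k] A0) ⧸ closure0 (R0 := B ⊗[k] A0) (R01 := B ⊗[k] A01) J1) :=
    Fermat.Agent.JAC.Hilb.FlatPure46.flat_quotient_of_sup_span_eq_top (B := B)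
      (R0 := B ⊗[k] A1) (R1 := B ⊗[k] A0) (R01 := B ⊗[k] A01)
      ((1 : B) ⊗ₜ[k] s) ((1 : B) ⊗ₜ[k] t) J1 _ h.symm hinf
  obtain ⟨j0, j1, e⟩ := bc_cls_idealDiag (t := t) (s := s) ψ _ J1 h
  unfold divDiag1
  rw [e]
  exact cls_eq_iff.mpr ⟨idealDiagCongr (map_closure0_constR t s ψ J1 J1' hJ hts) hJ _ _⟩

/-- **(P4)** Base change of `O(-Γ_φ)`, chart `0`. -/
theorem bc_cls_pointDiag0R (h0 : ChartHypR k A0)
    (hts : algebraMap A0 A01 t * algebraMap A1 A01 s = 1) (φ : A0 →ₐ[k] B) :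
    bcR ψ (cls (pointDiag0R t s h0 hts φ)) = cls (pointDiag0R t s h0 hts (ψ.comp φ)) := by
  have := invertible_graphIdealR h0 φ
  have := invertible_graphIdealR h0 (ψ.comp φ)
  exact bc_cls_divDiag0R t s ψ (graphIdeal φ) (graphIdeal (ψ.comp φ)) (map_graphIdeal φ ψ) hts

/-- **(P4)** Base change of `O(-Γ_φ)`, chart `1`. -/
theorem bc_cls_pointDiag1R (h1 : ChartHypR k A1)
    (hts : algebraMap A0 A01 t * algebraMap A1 A01 s = 1) (φ : A1 →ₐ[k] B) :
    bcR ψ (cls (pointDiag1R t s h1 hts φ)) = cls (pointDiag1R t s h1 hts (ψ.comp φ)) := by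
  have := invertible_graphIdealR h1 φ
  have := invertible_graphIdealR h1 (ψ.comp φ)
  exact bc_cls_divDiag1R t s ψ (graphIdeal φ) (graphIdeal (ψ.comp φ)) (map_graphIdeal φ ψ) hts

/-- **(P3)**, class form. -/
theorem cls_pointDiag0_eq_cls_pointDiag1R (h0 : ChartHypR k A0) (h1 : ChartHypR k A1)
    (hts : algebraMap A0 A01 t * algebraMap A1 A01 s = 1) (φ01 : A01 →ₐ[k] B) :
    cls (pointDiag0R t s h0 hts (φ01.comp (IsScalarTower.toAlgHom k A0 A01))) =
      cls (pointDiag1R t s h1 hts (φ01.comp (IsScalarTower.toAlgHom k A1 A01))) :=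
  cls_eq_iff.mpr (nonempty_iso_pointDiagR t s h0 h1 hts φ01)

/-- **The two universal point classes agree on the overlap**: the classes of `O(-Δ)` over `A0`
(universal point of the chart `0`) and over `A1` (universal point of the chart `1`) have the same
base change to `A01`. -/
theorem bc_cls_pointDiag_universalR (h0 : ChartHypR k A0) (h1 : ChartHypR k A1)
    (hts : algebraMap A0 A01 t * algebraMap A1 A01 s = 1) :
    bcR (IsScalarTower.toAlgHom k A0 A01) (cls (pointDiag0R t s h0 hts (AlgHom.id k A0))) =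
      bcR (IsScalarTower.toAlgHom k A1 A01) (cls (pointDiag1R t s h1 hts (AlgHom.id k A1))) := by
  rw [bc_cls_pointDiag0R, bc_cls_pointDiag1R]
  exact cls_pointDiag0_eq_cls_pointDiag1R t s h0 h1 hts (AlgHom.id k A01)

end BaseChange

end Const

end Fermat.Agent.FFJ.Val.PointDiagR67
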