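/-
Programme FFJ (S19), chapter VAL (ValSurj).  Owner: helper67.

The chart hypotheses `PointDiagR67.ChartHypR O A_i` (finite type, free over the base ring, all fibres
Dedekind and not fields) from the coordinate form of `Spec35.CurveHypR`:
* `finiteType_of_coords`, `free_of_coords` (any commutative base ring);
* `not_isField_fibre`: the fibres `K ⊗[k] A` of a chart with coordinates are not fields;
* `chartHypR_of_coords`, and `chartHypR0`, `chartHypR1` for `H : Spec35.CurveHypR O A0 A1 A01 t s`.
-/
import Mathlib
import Fermat.Agent.FFJ.Spec.Spec35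
import Fermat.Agent.FFJ.Val.PointDiagR67
import Fermat.Agent.JAC.Frame.BaseChange65
import Fermat.Agent.JAC.Fibre.CovWire67

set_option autoImplicit false

open TensorProduct Polynomial

namespace Fermat.Agent.FFJ.Val.ChartHypR67

open Fermat.Agent.FFJ.Val.PointDiagR67 Fermat.Agent.JAC.Frame.PolyChart65

universe u

section Coords

variable {k : Type u} [CommRing k] {A : Type u} [CommRing A] [Algebra k A] {t : A} {n : ℕ}
  {b : Fin n → A}

/-- A ring with a finite `k[t]`-spanning family is a finitely generated `k`-algebra. -/
theorem finiteType_of_coords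
    (hb : Function.Surjective (fun p : Fin n → k[X] => ∑ j, aeval t (p j) * b j)) :
    Algebra.FiniteType k A := by
  let _ : Algebra k[X] A := (aeval t : k[X] →ₐ[k] A).toRingHom.toAlgebra
  have : IsScalarTower k k[X] A := IsScalarTower.of_algebraMap_eq fun c => by
    show algebraMap k A c = aeval t (algebraMap k k[X] c)
    rw [Polynomial.algebraMap_eq, aeval_C]
  have hfin : Module.Finite k[X] A := by
    let φ : (Fin n → k[X]) →ₗ[k[X]] A :=
      { toFun := fun p => ∑ j, aeval t (p j) * b j
        map_add' := fun p q => by simp [add_mul, Finset.sum_add_distrib]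
        map_smul' := fun c p => by
          simp only [Pi.smul_apply, smul_eq_mul, map_mul, RingHom.id_apply, Finset.smul_sum]
          refine Finset.sum_congr rfl fun j _ => ?_
          rw [Algebra.smul_def, mul_assoc]; rfl }
    exact Module.Finite.of_surjective φ hb
  have h1 : Algebra.FiniteType k k[X] := inferInstance
  have h2 : Algebra.FiniteType k[X] A := Module.Finite.finiteType A
  exact Algebra.FiniteType.trans h1 h2

/-- A ring with coordinates over `k[t]` is free as a `k`-module. -/
theorem free_of_coords
    (hb : Function.Bijective (fun p : Fin n → k[X] => ∑ j, aeval t (p j) * b j)) :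
    Module.Free k A := by
  have hb' : Function.Bijective (coordMap (B := k) t b) := by
    have : (coordMap (B := k) t b : (Fin n → k[X]) → A) =
        fun p : Fin n → k[X] => ∑ j, aeval t (p j) * b j := by
      funext p
      exact coordMap_apply t b p
    rw [this]
    exact hb
  exact Module.Free.of_equiv (LinearEquiv.ofBijective (coordMap (B := k) t b) hb')

/-- The fibres of a chart with coordinates are not fields. -/
theorem not_isField_fibre
    (hb : Function.Bijective (fun p : Fin n → k[X] => ∑ j, aeval t (p j) * b j))
    (K : Type u) [Field K] [Algebra k K] [IsDomain (K ⊗[k] A)] : ¬ IsField (K ⊗[k] A) :=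
  Fermat.Agent.JAC.Fibre.CovWire67.not_isField_of_coords
    (Fermat.Agent.JAC.Frame.BaseChange65.bijective_baseChange K hb)

/-- **The chart hypotheses from coordinates and Dedekind fibres.** -/
theorem chartHypR_of_coords
    (hb : ∃ (n : ℕ) (b : Fin n → A),
      Function.Bijective (fun p : Fin n → k[X] => ∑ j, aeval t (p j) * b j))
    (hded : ∀ (K : Type u) [Field K] [Algebra k K], IsDedekindDomain (K ⊗[k] A)) :
    ChartHypR k A := by
  obtain ⟨n, b, hb⟩ := hb
  refine ⟨finiteType_of_coords hb.2, free_of_coords hb, hded, fun K _ _ => ?_⟩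
  haveI := hded K
  exact not_isField_fibre hb K

end Coords

section Curve

open Fermat.Agent.FFJ.Spec.Spec35

variable {O : Type} [CommRing O] {A0 A1 A01 : Type} [CommRing A0] [CommRing A1] [CommRing A01]
  [Algebra O A0] [Algebra O A1] [Algebra O A01] [Algebra A0 A01] [Algebra A1 A01]
  [IsScalarTower O A0 A01] [IsScalarTower O A1 A01] {t : A0} {s : A1}
  [IsLocalization.Away t A01] [IsLocalization.Away s A01]

theorem chartHypR0 (H : CurveHypR O A0 A1 A01 t s) : ChartHypR O A0 :=
  chartHypR_of_coords H.free0 H.dedekind0

theorem chartHypR1 (H : CurveHypR O A0 A1 A01 t s) : ChartHypR O A1 :=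
  chartHypR_of_coords H.free1 H.dedekind1

end Curve

end Fermat.Agent.FFJ.Val.ChartHypR67
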