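/-
Programme FFJ (S19), chapter VAL (ValSurj), brick (VS2, abstract half).  Owner: helper67.

In the common setting of `JAC/Fibre/Setting38` (two Dedekind charts `B₀`, `B₁` of a curve with function
field `F` over a field `K`), the group of classes of line diagrams is generated by the classes
`[O(-v)]` of the places `v` of `F / K` (`closure_cls_neg_single_eq_top`); over an ALGEBRAICALLY CLOSED
`K` every place is the place of a `K`-point of one of the two charts, so the group is generated by the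
classes `[O(-[Φ])]`, `Φ : B_i →ₐ[K] K` (`closure_cls_points_eq_top`).
-/
import Mathlib
import Fermat.Agent.JAC.Fibre.DiagOps38
import Fermat.Agent.JAC.Fibre.RatPlaces67
import Fermat.Agent.JAC.Fibre.DegInf67

set_option autoImplicit false
set_option linter.unusedSectionVars false

open AlgebraicCurve IsDedekindDomain Polynomial

namespace Fermat.Agent.FFJ.Val.GenPoints67

open Fermat.Agent.JAC.Fibre.Lat38 Fermat.Agent.JAC.Fibre.Core38 Fermat.Agent.JAC.Fibre.Chart38
  Fermat.Agent.JAC.Fibre.Setting38 Fermat.Agent.JAC.Fibre.DiagOfDiv38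
  Fermat.Agent.JAC.Fibre.DiagOps38 Fermat.Agent.JAC.Fibre.RatPlaces67
  Fermat.Agent.JAC.Fibre.DegInf67
  Fermat.Agent.JAC.Core.Defs36 Fermat.Agent.JAC.Grp.Diag33

universe u

variable {K : Type u} {F : Type u} [Field K] [Field F] [Algebra K F]

variable {B₀ : Type u} [CommRing B₀] [IsDedekindDomain B₀] [Algebra B₀ F] [IsFractionRing B₀ F]
  [Algebra K B₀] [IsScalarTower K B₀ F]
  {B₁ : Type u} [CommRing B₁] [IsDedekindDomain B₁] [Algebra B₁ F] [IsFractionRing B₁ F]
  [Algebra K B₁] [IsScalarTower K B₁ F]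
  {B₀₁ : Type u} [CommRing B₀₁] [IsDedekindDomain B₀₁] [Algebra B₀₁ F] [IsFractionRing B₀₁ F]
  [Algebra K B₀₁] [IsScalarTower K B₀₁ F]
  [Algebra B₀ B₀₁] [Algebra B₁ B₀₁] [IsScalarTower B₀ B₀₁ F] [IsScalarTower B₁ B₀₁ F]
  [IsScalarTower K B₀ B₀₁] [IsScalarTower K B₁ B₀₁]
  {t : B₀} {s : B₁} [IsLocalization.Away t B₀₁] [IsLocalization.Away s B₀₁]

/-- Every class `[O(D)]` lies in any subgroup containing the classes `[O(-v)]` of the places. -/
theorem cls_lineDiagOfDiv_mem (S : IsSetting K F t s B₀₁) (H : Subgroup (LineDiag.Classes t s B₀₁))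
    (hH : ∀ v : Place K F, cls (lineDiagOfDiv S (-Finsupp.single v (1 : ℤ))) ∈ H)
    (D : Divisor K F) : cls (lineDiagOfDiv S D) ∈ H := by
  classical
  induction D using Finsupp.induction_linear with
  | zero =>
    rw [cls_lineDiagOfDiv_zero]
    exact H.one_mem
  | add D D' hD hD' =>
    rw [← cls_mul_lineDiagOfDiv]
    exact H.mul_mem hD hD'
  | single v n =>
    have h1 : cls (lineDiagOfDiv S (Finsupp.single v (1 : ℤ))) ∈ H := by
      have := H.inv_mem (hH v)
      rwa [← cls_lineDiagOfDiv_neg, neg_neg] at this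
    have h2 : (Finsupp.single v n : Divisor K F) = n • Finsupp.single v (1 : ℤ) := by
      rw [Finsupp.smul_single, smul_eq_mul, mul_one]
    have h3 : cls (lineDiagOfDiv S (Finsupp.single v n)) =
        (cls (lineDiagOfDiv S (Finsupp.single v (1 : ℤ)))) ^ n := by
      rw [← clsOfDiv_apply, ← clsOfDiv_apply, h2, ofAdd_zsmul, map_zpow]
    rw [h3]
    exact H.zpow_mem h1 n

/-- **The classes of line diagrams are generated by the classes `[O(-v)]` of the places.** -/
theorem closure_cls_neg_single_eq_top (S : IsSetting K F t s B₀₁) :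
    Subgroup.closure (Set.range fun v : Place K F =>
      cls (lineDiagOfDiv S (-Finsupp.single v (1 : ℤ)))) = ⊤ := by
  rw [eq_top_iff]
  intro ξ _
  obtain ⟨D, rfl⟩ := clsOfDiv_surjective S ξ
  exact cls_lineDiagOfDiv_mem S
    (Subgroup.closure (Set.range fun v : Place K F =>
      cls (lineDiagOfDiv S (-Finsupp.single v (1 : ℤ)))))
    (fun v => Subgroup.subset_closure ⟨v, rfl⟩) (Multiplicative.toAdd D)

/-- Over an algebraically closed field every place is the place of a `K`-point of one of the two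
charts. -/
theorem exists_placeOfAlgHom_eq_or [IsAlgClosed K] [Algebra.FiniteType K B₀]
    [Algebra.FiniteType K B₁] (S : IsSetting K F t s B₀₁) (hB0 : ¬ IsField B₀)
    (hB1 : ¬ IsField B₁) (v : Place K F) :
    (∃ Φ : B₀ →ₐ[K] K, placeOfAlgHom F hB0 Φ = v) ∨
      ∃ Φ : B₁ →ₐ[K] K, placeOfAlgHom F hB1 Φ = v := by
  have Tp := twoChartPre (K := K) (F := F) (B₀₁ := B₀₁) t s S.hts S.hint₀ S.hint₁
  have hdeg : v.deg = 1 := Fermat.Agent.JAC.Fibre.DegInf67.TwoChartPre.deg_eq_one Tp v
  have hv : v ∈ chartSet (K := K) (F := F) B₀ ∪ chartSet (K := K) (F := F) B₁ := by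
    rw [Tp.cover]
    trivial
  rcases hv with hv | hv
  · exact Or.inl (exists_placeOfAlgHom_eq hB0 v hv hdeg)
  · exact Or.inr (exists_placeOfAlgHom_eq hB1 v hv hdeg)

/-- **Over an algebraically closed field the classes of line diagrams are generated by the classes
`[O(-[Φ])]` of the `K`-points `Φ` of the two charts.** -/
theorem closure_cls_points_eq_top [IsAlgClosed K] [Algebra.FiniteType K B₀]
    [Algebra.FiniteType K B₁] (S : IsSetting K F t s B₀₁) (hB0 : ¬ IsField B₀)
    (hB1 : ¬ IsField B₁) :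
    Subgroup.closure
      ((Set.range fun Φ : B₀ →ₐ[K] K =>
          cls (lineDiagOfDiv S (-Finsupp.single (placeOfAlgHom F hB0 Φ) (1 : ℤ)))) ∪
        Set.range fun Φ : B₁ →ₐ[K] K =>
          cls (lineDiagOfDiv S (-Finsupp.single (placeOfAlgHom F hB1 Φ) (1 : ℤ)))) = ⊤ := by
  rw [eq_top_iff, ← closure_cls_neg_single_eq_top S, Subgroup.closure_le]
  rintro _ ⟨v, rfl⟩
  apply Subgroup.subset_closure
  rcases exists_placeOfAlgHom_eq_or S hB0 hB1 v with ⟨Φ, rfl⟩ | ⟨Φ, rfl⟩
  · exact Or.inl ⟨Φ, rfl⟩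
  · exact Or.inr ⟨Φ, rfl⟩

end Fermat.Agent.FFJ.Val.GenPoints67
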