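/-
Programme FFJ (S19), chapter VAL (ValSurj), bricks (VS1) + (VS2, constant family).  Owner: helper67.

Port of the constant-extension part of `JAC/Abel/PointDict56` (helper56) to a BASE RING `k`, for an
ARBITRARY model `F` of the function field of the fibre `K ⊗[k] A_i` (instances + `S : IsSetting ..` are
hypotheses, so that no particular port of `Fibre/ConstExt37` is needed):
* `cls_pointDiag0R_eq`, `cls_pointDiag1R_eq`: `[O(-Γ_φ)] = [O(-[v_φ])]` for a `K`-point `φ` of a chart;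
* `exists_graphMap_eqR`: `K`-points of `K ⊗[k] A` are graph maps;
* `closure_cls_pointDiagR_eq_top`: for `K` ALGEBRAICALLY CLOSED the group `ClR k A0 A1 A01 t s K` is
  generated by the classes `[O(-Γ_φ)]`, `φ : A_i →ₐ[k] K`.
-/
import Mathlib
import Fermat.Agent.JAC.Abel.PointDict56
import Fermat.Agent.FFJ.Val.PointDiagR67
import Fermat.Agent.FFJ.Val.GenPoints67

set_option autoImplicit false
set_option linter.unusedSectionVars false

open AlgebraicCurve IsDedekindDomain Polynomial TensorProduct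

namespace Fermat.Agent.FFJ.Val.PointDictR67

open Fermat.Agent.JAC.Fibre.Lat38 Fermat.Agent.JAC.Fibre.Chart38 Fermat.Agent.JAC.Fibre.Setting38
  Fermat.Agent.JAC.Fibre.DiagOfDiv38 Fermat.Agent.JAC.Fibre.DiagExists38
  Fermat.Agent.JAC.Fibre.RatPlaces67
  Fermat.Agent.JAC.Core.Defs36 Fermat.Agent.JAC.Grp.Diag33
  Fermat.Agent.JAC.Hilb.SectionDiv46
  Fermat.Agent.JAC.Abel.PointDiag56 Fermat.Agent.JAC.Abel.PointDict56
  Fermat.Agent.JAC.Cover.GraphIdeal98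
  Fermat.Agent.FFJ.Core.ClR35 Fermat.Agent.FFJ.Val.PointDiagR67 Fermat.Agent.FFJ.Val.GenPoints67

open scoped Fermat.Agent.JAC.Core.ConstFamily36

universe u

variable {k : Type u} [CommRing k] {A0 A1 A01 : Type u} [CommRing A0] [CommRing A1] [CommRing A01]
  [Algebra k A0] [Algebra k A1] [Algebra k A01] [Algebra A0 A01] [Algebra A1 A01]
  [IsScalarTower k A0 A01] [IsScalarTower k A1 A01] (t : A0) (s : A1)
  [IsLocalization.Away t A01] [IsLocalization.Away s A01]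
  (K : Type u) [Field K] [Algebra k K]
  [IsDedekindDomain (K ⊗[k] A0)] [IsDedekindDomain (K ⊗[k] A1)] [IsDedekindDomain (K ⊗[k] A01)]
  {F : Type u} [Field F] [Algebra K F]
  [Algebra (K ⊗[k] A0) F] [IsFractionRing (K ⊗[k] A0) F] [IsScalarTower K (K ⊗[k] A0) F]
  [Algebra (K ⊗[k] A1) F] [IsFractionRing (K ⊗[k] A1) F] [IsScalarTower K (K ⊗[k] A1) F]
  [Algebra (K ⊗[k] A01) F] [IsFractionRing (K ⊗[k] A01) F] [IsScalarTower K (K ⊗[k] A01) F]
  [IsScalarTower (K ⊗[k] A0) (K ⊗[k] A01) F] [IsScalarTower (K ⊗[k] A1) (K ⊗[k] A01) F]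
  (h0 : ChartHypR k A0) (h1 : ChartHypR k A1)
  (hts : algebraMap A0 A01 t * algebraMap A1 A01 s = 1)
  (S : IsSetting K F ((1 : K) ⊗ₜ[k] t) ((1 : K) ⊗ₜ[k] s) (K ⊗[k] A01))

/-- **Dictionary for a `K`-point of the chart `0`**: `[O(-Γ_φ)] = [O(-[v_φ])]`. -/
theorem cls_pointDiag0R_eq (hB0 : ¬ IsField (K ⊗[k] A0)) (φ : A0 →ₐ[k] K) :
    cls (pointDiag0R t s h0 hts φ) =
      cls (lineDiagOfDiv S (-Finsupp.single (placeOfAlgHom F hB0 (graphMap φ)) (1 : ℤ))) := by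
  have i0' := invertible_graphIdealR h0 φ
  have i0 : Module.Invertible (K ⊗[k] A0)
      ↥(RingHom.ker ((graphMap φ : K ⊗[k] A0 →ₐ[K] K) : K ⊗[k] A0 →+* K)) := i0'
  have i1 : Module.Invertible (K ⊗[k] A1)
      ↥(closure1 (R1 := K ⊗[k] A1) (R01 := K ⊗[k] A01)
        (RingHom.ker ((graphMap φ : K ⊗[k] A0 →ₐ[K] K) : K ⊗[k] A0 →+* K))) :=
    invertible_closure1 (B := K) (R1 := K ⊗[k] A1) (R01 := K ⊗[k] A01)
      ((1 : K) ⊗ₜ[k] t) ((1 : K) ⊗ₜ[k] s) (graphIdeal φ) (hts_constR t s hts)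
  have h := (map_closure1 (R1 := K ⊗[k] A1) (R01 := K ⊗[k] A01) ((1 : K) ⊗ₜ[k] s)
    (RingHom.ker ((graphMap φ : K ⊗[k] A0 →ₐ[K] K) : K ⊗[k] A0 →+* K))).symm
  have e := chartPointIso0 S hB0 (graphMap φ) h
  exact cls_eq_iff.mpr ⟨e⟩

/-- **Dictionary for a `K`-point of the chart `1`**: `[O(-Γ_φ)] = [O(-[v_φ])]`. -/
theorem cls_pointDiag1R_eq (hB1 : ¬ IsField (K ⊗[k] A1)) (φ : A1 →ₐ[k] K) :
    cls (pointDiag1R t s h1 hts φ) =
      cls (lineDiagOfDiv S (-Finsupp.single (placeOfAlgHom F hB1 (graphMap φ)) (1 : ℤ))) := by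
  have i1' := invertible_graphIdealR h1 φ
  have i1 : Module.Invertible (K ⊗[k] A1)
      ↥(RingHom.ker ((graphMap φ : K ⊗[k] A1 →ₐ[K] K) : K ⊗[k] A1 →+* K)) := i1'
  have i0 : Module.Invertible (K ⊗[k] A0)
      ↥(closure0 (R0 := K ⊗[k] A0) (R01 := K ⊗[k] A01)
        (RingHom.ker ((graphMap φ : K ⊗[k] A1 →ₐ[K] K) : K ⊗[k] A1 →+* K))) :=
    invertible_closure0 (B := K) (R0 := K ⊗[k] A0) (R01 := K ⊗[k] A01)
      ((1 : K) ⊗ₜ[k] t) ((1 : K) ⊗ₜ[k] s) (graphIdeal φ) (hts_constR t s hts)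
  have h := map_closure0 (R0 := K ⊗[k] A0) (R01 := K ⊗[k] A01) ((1 : K) ⊗ₜ[k] t)
    (RingHom.ker ((graphMap φ : K ⊗[k] A1 →ₐ[K] K) : K ⊗[k] A1 →+* K))
  have e := chartPointIso1 S hB1 (graphMap φ) h
  exact cls_eq_iff.mpr ⟨e⟩

/-- Every `K`-point of `K ⊗[k] A` is the graph map of a `k`-algebra map `A → K`. -/
theorem exists_graphMap_eqR {A : Type u} [CommRing A] [Algebra k A] (Φ : K ⊗[k] A →ₐ[K] K) :
    ∃ φ : A →ₐ[k] K, graphMap φ = Φ := by
  refine ⟨(Φ.restrictScalars k).comp Algebra.TensorProduct.includeRight, ?_⟩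
  apply Algebra.TensorProduct.ext'
  intro c a
  rw [graphMap_tmul]
  have : c ⊗ₜ[k] a = c • ((1 : K) ⊗ₜ[k] a) := by
    rw [TensorProduct.smul_tmul', smul_eq_mul, mul_one]
  rw [this, map_smul, smul_eq_mul]
  rfl

include S in
/-- **(VS2)** Over an algebraically closed field `K` the group of classes `ClR k A0 A1 A01 t s K` is
generated by the classes `[O(-Γ_φ)]` of the `K`-points `φ` of the two charts. -/
theorem closure_cls_pointDiagR_eq_top [IsAlgClosed K] :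
    Subgroup.closure
      ((Set.range fun φ : A0 →ₐ[k] K =>
          (cls (pointDiag0R t s h0 hts φ) : ClR k A0 A1 A01 t s K)) ∪
        Set.range fun φ : A1 →ₐ[k] K =>
          (cls (pointDiag1R t s h1 hts φ) : ClR k A0 A1 A01 t s K)) = ⊤ := by
  have hB0 : ¬ IsField (K ⊗[k] A0) := h0.not_isField K
  have hB1 : ¬ IsField (K ⊗[k] A1) := h1.not_isField K
  have hf0 : Algebra.FiniteType K (K ⊗[k] A0) := by
    have := h0.finiteType
    infer_instance
  have hf1 : Algebra.FiniteType K (K ⊗[k] A1) := by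
    have := h1.finiteType
    infer_instance
  rw [eq_top_iff, ← closure_cls_points_eq_top S hB0 hB1, Subgroup.closure_le]
  rintro _ (⟨Φ, rfl⟩ | ⟨Φ, rfl⟩)
  · obtain ⟨φ, rfl⟩ := exists_graphMap_eqR K Φ
    apply Subgroup.subset_closure
    exact Or.inl ⟨φ, cls_pointDiag0R_eq t s K h0 hts S hB0 φ⟩
  · obtain ⟨φ, rfl⟩ := exists_graphMap_eqR K Φ
    apply Subgroup.subset_closure
    exact Or.inr ⟨φ, cls_pointDiag1R_eq t s K h1 hts S hB1 φ⟩

end Fermat.Agent.FFJ.Val.PointDictR67
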