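/-
Programme FFJ (S19), chapters VAL / PIC-D.  Owner: helper67.

Comparison of the two point classes: `SpecD35.ptClassR hts q = [O(q)]` (helper35/helper46, `odClass` of
the graph ideal) is the INVERSE of `cls (PointDiagR67.pointDiag0R t s h0 hts q) = [O(-Γ_q)]`
(`ptClassR_eq_inv`), hence over a field `K` it is the class `[O([v_q])]` of the divisor of the place of
`q` in the language of `JAC/Fibre` (`ptClassR_eq_cls_lineDiagOfDiv`; input (i) of FIB-R, report 1630).
-/
import Mathlib
import Fermat.Agent.FFJ.Pic.PtClassR46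
import Fermat.Agent.FFJ.Val.PointDictR67
import Fermat.Agent.FFJ.Val.ChartHypR67

set_option autoImplicit false
set_option linter.unusedSectionVars false

open AlgebraicCurve IsDedekindDomain Polynomial TensorProduct

namespace Fermat.Agent.FFJ.Val.PtClassCompare67

open Fermat.Agent.JAC.Core.Defs36 Fermat.Agent.JAC.Grp.Diag33
  Fermat.Agent.JAC.Fibre.DiagOfDiv38 Fermat.Agent.JAC.Fibre.DiagOps38
  Fermat.Agent.JAC.Fibre.RatPlaces67
  Fermat.Agent.FFJ.Core.ClR35 Fermat.Agent.FFJ.Pic.ChartDefR35 Fermat.Agent.FFJ.Pic.SpecD35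
  Fermat.Agent.FFJ.Pic.PtClassR46
  Fermat.Agent.FFJ.Val.PointDiagR67 Fermat.Agent.FFJ.Val.PointDictR67
  Fermat.Agent.FFJ.Val.ChartHypR67

open scoped Fermat.Agent.JAC.Core.ConstFamily36

universe u

variable {k : Type u} [CommRing k] {A0 A1 A01 : Type u} [CommRing A0] [CommRing A1] [CommRing A01]
  [Algebra k A0] [Algebra k A1] [Algebra k A01] [Algebra A0 A01] [Algebra A1 A01]
  [IsScalarTower k A0 A01] [IsScalarTower k A1 A01] {t : A0} {s : A1}
  [IsLocalization.Away t A01] [IsLocalization.Away s A01]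

/-- The chart hypotheses of `PointDiagR67` for the chart `0`, from `ChartDefR35.CurveHypR`. -/
theorem chartHypR0' (H : CurveHypR k A0 A1 A01 t s) : ChartHypR k A0 :=
  chartHypR_of_coords H.coords0 H.dedekind0

/-- The chart hypotheses of `PointDiagR67` for the chart `1`, from `ChartDefR35.CurveHypR`. -/
theorem chartHypR1' (H : CurveHypR k A0 A1 A01 t s) : ChartHypR k A1 :=
  chartHypR_of_coords H.coords1 H.dedekind1

variable {B : Type u} [CommRing B] [Algebra k B]

/-- **`[O(q)] = [O(-Γ_q)]⁻¹`**: the point class of `SpecD35` is the inverse of the class of the point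
diagram of `PointDiagR67`. -/
theorem ptClassR_eq_inv (H : CurveHypR k A0 A1 A01 t s) (h0 : ChartHypR k A0) (q : A0 →ₐ[k] B) :
    ptClassR (A1 := A1) (A01 := A01) (t := t) (s := s) H.hts q =
      (cls (pointDiag0R t s h0 H.hts q))⁻¹ := by
  rw [ptClassR_eq H q, cls_inv]
  have hg := graphIdeal_eq (k := k) (A0 := A0) (B := B) q
  unfold pointDiag0R Fermat.Agent.JAC.Abel.PointDiag56.divDiag0 OD
  congr 2

/-! ### Over a field: divisor language -/

section Field

open Fermat.Agent.JAC.Cover.GraphIdeal98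

variable (K : Type u) [Field K] [Algebra k K]
  [IsDedekindDomain (K ⊗[k] A0)] [IsDedekindDomain (K ⊗[k] A1)] [IsDedekindDomain (K ⊗[k] A01)]
  {F : Type u} [Field F] [Algebra K F]
  [Algebra (K ⊗[k] A0) F] [IsFractionRing (K ⊗[k] A0) F] [IsScalarTower K (K ⊗[k] A0) F]
  [Algebra (K ⊗[k] A1) F] [IsFractionRing (K ⊗[k] A1) F] [IsScalarTower K (K ⊗[k] A1) F]
  [Algebra (K ⊗[k] A01) F] [IsFractionRing (K ⊗[k] A01) F] [IsScalarTower K (K ⊗[k] A01) F]
  [IsScalarTower (K ⊗[k] A0) (K ⊗[k] A01) F] [IsScalarTower (K ⊗[k] A1) (K ⊗[k] A01) F]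

/-- **`[O(q)] = [O([v_q])]`** for a `K`-point `q` of the chart `0`, `K` a field over the base ring,
`F` any model of the function field of the fibre over `K`. -/
theorem ptClassR_eq_cls_lineDiagOfDiv (H : CurveHypR k A0 A1 A01 t s)
    (S : IsSetting K F ((1 : K) ⊗ₜ[k] t) ((1 : K) ⊗ₜ[k] s) (K ⊗[k] A01))
    (hB0 : ¬ IsField (K ⊗[k] A0)) (q : A0 →ₐ[k] K) :
    ptClassR (A1 := A1) (A01 := A01) (t := t) (s := s) H.hts q =
      cls (lineDiagOfDiv S (Finsupp.single (placeOfAlgHom F hB0 (graphMap q)) (1 : ℤ))) := by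
  rw [ptClassR_eq_inv H (chartHypR0' H) q,
    cls_pointDiag0R_eq t s K (chartHypR0' H) H.hts S hB0 q, cls_lineDiagOfDiv_neg, inv_inv]

/-- The fibres of the chart `0` are not fields. -/
theorem not_isField_fibre0 (H : CurveHypR k A0 A1 A01 t s) : ¬ IsField (K ⊗[k] A0) :=
  (chartHypR0' H).not_isField K

/-- The fibres of the chart `1` are not fields. -/
theorem not_isField_fibre1 (H : CurveHypR k A0 A1 A01 t s) : ¬ IsField (K ⊗[k] A1) :=
  (chartHypR1' H).not_isField K

end Field

end Fermat.Agent.FFJ.Val.PtClassCompare67
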