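/-
Programme FFJ (S19), chapter VAL.  Owner: helper1.

Brick (V1), the FIBRE ADAPTER over a base ring: port of `JAC/Fibre/ConstExt37` and of the constant
extension section of `JAC/Fibre/DegAdd38` from a base FIELD to a base RING `k`.

For CURVE data `(A0 → A01 ← A1; t, s)` over a commutative ring `k` and a FIELD `K` over `k` with
`K ⊗[k] A_i` Dedekind, the rings `B₀ := K ⊗[k] A0`, `B₁ := K ⊗[k] A1`, `B₀₁ := K ⊗[k] A01` with
`F := FFR k A01 K = Frac (K ⊗[k] A01)` satisfy all hypotheses of the common setting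
`Fibre/Setting38`, `Fibre/DiagOfDiv38` (`isSettingR`, `exists_twoChartR`).  Hence the degree of
classes `ClR k A0 A1 A01 t s K` is additive (`degClass_mul_R`, `degClass_one_R`, `degClass_inv_R`).
-/
import Fermat.Agent.JAC.Core.ConstFamily36
import Fermat.Agent.JAC.Frame.CurveInput65
import Fermat.Agent.JAC.Fibre.SettingFrame38
import Fermat.Agent.JAC.Fibre.ConstExt37
import Fermat.Agent.JAC.Fibre.DegAdd38
import Fermat.Agent.FFJ.Core.ClR35

set_option autoImplicit false
set_option linter.unusedSectionVars false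
set_option linter.style.haveILetI false

open scoped TensorProduct
open scoped Fermat.Agent.JAC.Core.ConstFamily36
open Polynomial

namespace Fermat.Agent.FFJ.Val.FibreR1

open Fermat.Agent.JAC.Fibre.Core38 Fermat.Agent.JAC.Fibre.Chart38
  Fermat.Agent.JAC.Fibre.Setting38 Fermat.Agent.JAC.Fibre.SettingFrame38

universe u

variable {k : Type u} [CommRing k] {A0 A1 A01 : Type u} [CommRing A0] [CommRing A1] [CommRing A01]
  [Algebra k A0] [Algebra k A1] [Algebra k A01] [Algebra A0 A01] [Algebra A1 A01]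
  [IsScalarTower k A0 A01] [IsScalarTower k A1 A01] (t : A0) (s : A1)
  [IsLocalization.Away t A01] [IsLocalization.Away s A01]
  (K : Type u) [Field K] [Algebra k K]

variable (k A01) in
/-- The function field of the fibre of the curve over `K`. -/
abbrev FFR : Type u := FractionRing (K ⊗[k] A01)

section Towers

variable (A : Type u) [CommRing A] [Algebra k A] [Algebra A A01] [IsScalarTower k A A01]

/-- `K → K ⊗[k] A → FF` is the structure map of `FF` (the algebra structure
`Algebra (K ⊗[k] A) FF` is Mathlib's, through `K ⊗[k] A → K ⊗[k] A01`). -/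
instance isScalarTower_K_FFR : IsScalarTower K (K ⊗[k] A) (FFR k A01 K) :=
  IsScalarTower.of_algebraMap_eq fun c => by
    rw [IsScalarTower.algebraMap_apply (K ⊗[k] A) (K ⊗[k] A01) (FFR k A01 K),
      ← IsScalarTower.algebraMap_apply K (K ⊗[k] A) (K ⊗[k] A01),
      ← IsScalarTower.algebraMap_apply K (K ⊗[k] A01) (FFR k A01 K)]

/-- the chart ring `K ⊗[k] A` has fraction field `FF` as soon as `A01 = A[1/a]`. -/
theorem isFractionRing_chart [IsDomain (K ⊗[k] A)] [IsDomain (K ⊗[k] A01)] (a : A)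
    [IsLocalization.Away a A01] : IsFractionRing (K ⊗[k] A) (FFR k A01 K) :=
  Fermat.Agent.JAC.Fibre.ConstExt37.isFractionRing_of_away (S := K ⊗[k] A01) ((1 : K) ⊗ₜ[k] a)

end Towers

section Main

variable [IsDedekindDomain (K ⊗[k] A0)] [IsDedekindDomain (K ⊗[k] A1)]
  [IsDedekindDomain (K ⊗[k] A01)]

include t in
/-- `Frac (K ⊗[k] A0) = FF`. -/
theorem isFractionRing₀ : IsFractionRing (K ⊗[k] A0) (FFR k A01 K) :=
  isFractionRing_chart K A0 t

include s in
/-- `Frac (K ⊗[k] A1) = FF`. -/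
theorem isFractionRing₁ : IsFractionRing (K ⊗[k] A1) (FFR k A01 K) :=
  isFractionRing_chart K A1 s

omit [IsLocalization.Away t A01] [IsLocalization.Away s A01] [IsDedekindDomain (K ⊗[k] A0)]
  [IsDedekindDomain (K ⊗[k] A1)] [IsDedekindDomain (K ⊗[k] A01)] in
/-- `ts = 1` over `K`. -/
theorem hts_tensor (hts : algebraMap A0 A01 t * algebraMap A1 A01 s = 1) :
    algebraMap (K ⊗[k] A0) (K ⊗[k] A01) ((1 : K) ⊗ₜ[k] t) *
      algebraMap (K ⊗[k] A1) (K ⊗[k] A01) ((1 : K) ⊗ₜ[k] s) = 1 := by
  rw [Fermat.Agent.JAC.Core.ConstFamily36.algebraMap_tensor_tmul, Fermat.Agent.JAC.Core.ConstFamily36.algebraMap_tensor_tmul,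
    Algebra.TensorProduct.tmul_mul_tmul, one_mul, hts]
  rfl

omit [IsLocalization.Away t A01] [IsLocalization.Away s A01] [IsDedekindDomain (K ⊗[k] A0)]
  [IsDedekindDomain (K ⊗[k] A1)] [IsDedekindDomain (K ⊗[k] A01)] in
/-- `ts = 1` in the function field. -/
theorem hts_FFR (hts : algebraMap A0 A01 t * algebraMap A1 A01 s = 1) :
    algebraMap (K ⊗[k] A0) (FFR k A01 K) ((1 : K) ⊗ₜ[k] t) *
      algebraMap (K ⊗[k] A1) (FFR k A01 K) ((1 : K) ⊗ₜ[k] s) = 1 := by
  rw [IsScalarTower.algebraMap_apply (K ⊗[k] A0) (K ⊗[k] A01) (FFR k A01 K),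
    IsScalarTower.algebraMap_apply (K ⊗[k] A1) (K ⊗[k] A01) (FFR k A01 K), ← map_mul,
    hts_tensor t s K hts, map_one]

section Coordinates

variable {A : Type u} [CommRing A] [Algebra k A] {a : A} {n : ℕ} {b : Fin n → A}

/-- coordinates of `K ⊗[k] A` over `K[X]` from coordinates of `A` over `k[X]` -/
theorem bijective_coords
    (hb : Function.Bijective (fun p : Fin n → k[X] => ∑ j, aeval a (p j) * b j)) :
    Function.Bijective (fun p : Fin n → K[X] =>
      ∑ j, aeval ((1 : K) ⊗ₜ[k] a) (p j) * ((1 : K) ⊗ₜ[k] b j)) :=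
  Fermat.Agent.JAC.Frame.BaseChange65.bijective_baseChange K hb

/-- `K ⊗[k] A` is integral over `K[1 ⊗ a]`. -/
theorem isIntegral_aeval
    (hb : Function.Bijective (fun p : Fin n → k[X] => ∑ j, aeval a (p j) * b j)) :
    (aeval ((1 : K) ⊗ₜ[k] a) : K[X] →ₐ[K] K ⊗[k] A).toRingHom.IsIntegral :=
  isIntegral_of_spanning (K := K) _ _ (bijective_coords K hb).2

/-- `K ⊗[k] A` is a finitely generated `K`-algebra. -/
theorem finiteType_tensor
    (hb : Function.Bijective (fun p : Fin n → k[X] => ∑ j, aeval a (p j) * b j)) :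
    Algebra.FiniteType K (K ⊗[k] A) :=
  finiteType_of_spanning (K := K) _ _ (bijective_coords K hb).2

end Coordinates

variable (hts : algebraMap A0 A01 t * algebraMap A1 A01 s = 1)
  {n0 n1 : ℕ} {a0 : Fin n0 → A0} {a1 : Fin n1 → A1}
  (ha0 : Function.Bijective (fun p : Fin n0 → k[X] => ∑ j, aeval t (p j) * a0 j))
  (ha1 : Function.Bijective (fun p : Fin n1 → k[X] => ∑ j, aeval s (p j) * a1 j))

include hts in
/-- The overlap of the two charts of the fibre is the chart of `K ⊗[k] A01`. -/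
theorem chartSet_inter_eq :
    haveI := isFractionRing₀ (k := k) (A01 := A01) t K
    haveI := isFractionRing₁ (k := k) (A01 := A01) s K
    chartSet (K := K) (F := FFR k A01 K) (K ⊗[k] A0) ∩
        chartSet (K := K) (F := FFR k A01 K) (K ⊗[k] A1) =
      chartSet (K := K) (F := FFR k A01 K) (K ⊗[k] A01) := by
  haveI := isFractionRing₀ (k := k) (A01 := A01) t K
  haveI := isFractionRing₁ (k := k) (A01 := A01) s K
  exact Fermat.Agent.JAC.Fibre.Setting38.chartSet_inter_eq (K := K) (B₀₁ := K ⊗[k] A01) ((1 : K) ⊗ₜ[k] t)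
    ((1 : K) ⊗ₜ[k] s) (hts_FFR t s K hts)

include hts ha0 ha1 in
/-- **The fibre of the curve over `K` satisfies the two-chart interface** of the place-language
fibre theory, and `H¹(O(m·∞)) = 0` for `m ≫ 0`. -/
theorem exists_twoChart :
    haveI := isFractionRing₀ (k := k) (A01 := A01) t K
    haveI := isFractionRing₁ (k := k) (A01 := A01) s K
    ∃ T : TwoChart (chartSet (K := K) (F := FFR k A01 K) (K ⊗[k] A0))
        (chartSet (K := K) (F := FFR k A01 K) (K ⊗[k] A1)),
      ∃ m₀ : ℕ, ∀ m : ℕ, m₀ ≤ m →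
        h1n (chartSet (K := K) (F := FFR k A01 K) (K ⊗[k] A0))
          (chartSet (K := K) (F := FFR k A01 K) (K ⊗[k] A1))
          (m • divInfty T.toPre (algebraMap (K ⊗[k] A0) (FFR k A01 K) ((1 : K) ⊗ₜ[k] t))
            (left_ne_zero_of_mul_eq_one (hts_FFR t s K hts))) = 0 := by
  haveI := isFractionRing₀ (k := k) (A01 := A01) t K
  haveI := isFractionRing₁ (k := k) (A01 := A01) s K
  exact twoChart_of_bases (K := K) (F := FFR k A01 K) (B₀₁ := K ⊗[k] A01) ((1 : K) ⊗ₜ[k] t)
    ((1 : K) ⊗ₜ[k] s) (hts_tensor t s K hts) _ (bijective_coords K ha0) _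
    (bijective_coords K ha1)

end Main



/-! ### The common setting and additivity of the degree -/

section Degree

open Fermat.Agent.JAC.Fibre.DiagOfDiv38 Fermat.Agent.JAC.Fibre.DegAdd38
  Fermat.Agent.JAC.Core.Defs36 Fermat.Agent.JAC.Grp.Diag33 Fermat.Agent.JAC.Core.Degree36
  Fermat.Agent.FFJ.Core.ClR35

variable [IsDedekindDomain (K ⊗[k] A0)] [IsDedekindDomain (K ⊗[k] A1)]
  [IsDedekindDomain (K ⊗[k] A01)]
  (hts : algebraMap A0 A01 t * algebraMap A1 A01 s = 1)
  {n0 n1 : ℕ} {a0 : Fin n0 → A0} {a1 : Fin n1 → A1}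
  (ha0 : Function.Bijective (fun p : Fin n0 → k[X] => ∑ j, aeval t (p j) * a0 j))
  (ha1 : Function.Bijective (fun p : Fin n1 → k[X] => ∑ j, aeval s (p j) * a1 j))

include hts ha0 ha1 in
/-- The fibre over `K` of CURVE data over a base ring is an instance of the common setting. -/
theorem isSettingR :
    haveI := isFractionRing₀ (k := k) (A01 := A01) t K
    haveI := isFractionRing₁ (k := k) (A01 := A01) s K
    IsSetting K (FFR k A01 K) ((1 : K) ⊗ₜ[k] t) ((1 : K) ⊗ₜ[k] s) (K ⊗[k] A01) :=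
  haveI := isFractionRing₀ (k := k) (A01 := A01) t K
  haveI := isFractionRing₁ (k := k) (A01 := A01) s K
  ⟨inferInstance, inferInstance, hts_FFR t s K hts, isIntegral_aeval K ha0, isIntegral_aeval K ha1⟩

include hts ha0 ha1 in
/-- The degree of classes over a fibre is additive (base RING `k`, any field `K` over `k`). -/
theorem degClass_mul_R (x y : ClR k A0 A1 A01 t s K) :
    degClass K (x * y) = degClass K x + degClass K y := by
  haveI := isFractionRing₀ (k := k) (A01 := A01) t K
  haveI := isFractionRing₁ (k := k) (A01 := A01) s K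
  obtain ⟨T, -⟩ := exists_twoChart t s K hts ha0 ha1
  exact degClass_mul (isSettingR t s K hts ha0 ha1) T x y

include hts ha0 ha1 in
theorem degClass_one_R : degClass K (1 : ClR k A0 A1 A01 t s K) = 0 := by
  haveI := isFractionRing₀ (k := k) (A01 := A01) t K
  haveI := isFractionRing₁ (k := k) (A01 := A01) s K
  obtain ⟨T, -⟩ := exists_twoChart t s K hts ha0 ha1
  exact degClass_one (isSettingR t s K hts ha0 ha1) T

include hts ha0 ha1 in
theorem degClass_inv_R (x : ClR k A0 A1 A01 t s K) : degClass K x⁻¹ = -degClass K x := by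
  haveI := isFractionRing₀ (k := k) (A01 := A01) t K
  haveI := isFractionRing₁ (k := k) (A01 := A01) s K
  obtain ⟨T, -⟩ := exists_twoChart t s K hts ha0 ha1
  exact degClass_inv (isSettingR t s K hts ha0 ha1) T x

end Degree

end Fermat.Agent.FFJ.Val.FibreR1
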