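/-
Programme FFJ (S19), chapter VAL.  Owner: helper1.

Brick (V2): under `CurveHypR`, the degree of classes over a field is additive, hence `PicZeroR e B`
is a SUBGROUP of `ClR O A0 A1 A01 t s B` for every `O`-algebra `B`.  In particular the hypotheses
`DegZeroMul` / `PicZeroMul` of chapter ORDER (`Order/Order77`) hold.
-/
import Fermat.Agent.FFJ.Spec.Spec35
import Fermat.Agent.FFJ.Val.FibreR1
import Fermat.Agent.FFJ.Order.Order77

set_option autoImplicit false
set_option linter.style.haveILetI false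

noncomputable section

namespace Fermat.Agent.FFJ.Val.PicZeroGrp1

open scoped TensorProduct
open scoped Fermat.Agent.JAC.Core.ConstFamily36
open Fermat.Agent.JAC.Core.Defs36 Fermat.Agent.JAC.Grp.Diag33 Fermat.Agent.FFJ.Core.ClR35
  Fermat.Agent.FFJ.Core.ClRBc35 Fermat.Agent.FFJ.Spec.Spec35 Fermat.Agent.JAC.Core.Degree36
  Fermat.Agent.FFJ.Val.FibreR1

variable {O : Type} [CommRing O] {A0 A1 A01 : Type} [CommRing A0] [CommRing A1] [CommRing A01]
  [Algebra O A0] [Algebra O A1] [Algebra O A01] [Algebra A0 A01] [Algebra A1 A01]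
  [IsScalarTower O A0 A01] [IsScalarTower O A1 A01] {t : A0} {s : A1}
  [IsLocalization.Away t A01] [IsLocalization.Away s A01]

/-- additivity of the degree over any field `K` over `O`. -/
theorem degClass_mul (H : CurveHypR O A0 A1 A01 t s) (K : Type) [Field K] [Algebra O K]
    (x y : ClR O A0 A1 A01 t s K) : degClass K (x * y) = degClass K x + degClass K y := by
  obtain ⟨n0, a0, ha0⟩ := H.free0
  obtain ⟨n1, a1, ha1⟩ := H.free1
  haveI := H.dedekind0 K
  haveI := H.dedekind1 K
  haveI := H.dedekind01 K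
  exact degClass_mul_R t s K H.ts ha0 ha1 x y

theorem degClass_one (H : CurveHypR O A0 A1 A01 t s) (K : Type) [Field K] [Algebra O K] :
    degClass K (1 : ClR O A0 A1 A01 t s K) = 0 := by
  obtain ⟨n0, a0, ha0⟩ := H.free0
  obtain ⟨n1, a1, ha1⟩ := H.free1
  haveI := H.dedekind0 K
  haveI := H.dedekind1 K
  haveI := H.dedekind01 K
  exact degClass_one_R t s K H.ts ha0 ha1

theorem degClass_inv (H : CurveHypR O A0 A1 A01 t s) (K : Type) [Field K] [Algebra O K]
    (x : ClR O A0 A1 A01 t s K) : degClass K x⁻¹ = -degClass K x := by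
  obtain ⟨n0, a0, ha0⟩ := H.free0
  obtain ⟨n1, a1, ha1⟩ := H.free1
  haveI := H.dedekind0 K
  haveI := H.dedekind1 K
  haveI := H.dedekind01 K
  exact degClass_inv_R t s K H.ts ha0 ha1 x

/-- **`DegZeroMul` of chapter ORDER.** -/
theorem degZeroMul (H : CurveHypR O A0 A1 A01 t s) :
    Fermat.Agent.FFJ.Order.Order77.DegZeroMul O A0 A1 A01 t s := by
  intro K _ _ _ x y hx hy
  rw [degClass_mul H K x y, hx, hy, add_zero]

variable (e : A01 →ₐ[O] O)

/-- **`PicZeroMul` of chapter ORDER.** -/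
theorem picZeroMul (H : CurveHypR O A0 A1 A01 t s) :
    Fermat.Agent.FFJ.Order.Order77.PicZeroMul O A0 A1 A01 t s e :=
  Fermat.Agent.FFJ.Order.Order77.picZeroMul_of_deg e (degZeroMul H)

theorem one_mem (H : CurveHypR O A0 A1 A01 t s) (B : Type) [CommRing B] [Algebra O B] :
    (1 : ClR O A0 A1 A01 t s B) ∈ PicZeroR e B := by
  refine ⟨?_, fun K _ _ _ ψ => ?_⟩
  · letI := Fermat.Agent.JAC.Core.ConstFamily36.rigAlgebra B e
    exact Subgroup.one_mem _
  · rw [map_one]
    exact degClass_one H K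

theorem mul_mem (H : CurveHypR O A0 A1 A01 t s) (B : Type) [CommRing B] [Algebra O B]
    {x y : ClR O A0 A1 A01 t s B} (hx : x ∈ PicZeroR e B) (hy : y ∈ PicZeroR e B) :
    x * y ∈ PicZeroR e B :=
  picZeroMul e H B x y hx hy

theorem inv_mem (H : CurveHypR O A0 A1 A01 t s) (B : Type) [CommRing B] [Algebra O B]
    {x : ClR O A0 A1 A01 t s B} (hx : x ∈ PicZeroR e B) : x⁻¹ ∈ PicZeroR e B := by
  refine ⟨?_, fun K _ _ _ ψ => ?_⟩
  · letI := Fermat.Agent.JAC.Core.ConstFamily36.rigAlgebra B e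
    exact Subgroup.inv_mem _ hx.1
  · rw [map_inv, degClass_inv H K, hx.2 K ψ, neg_zero]

/-- **`PicZeroR e B` as a subgroup.** -/
def picZeroRSubgroup (H : CurveHypR O A0 A1 A01 t s) (B : Type) [CommRing B] [Algebra O B] :
    Subgroup (ClR O A0 A1 A01 t s B) where
  carrier := PicZeroR e B
  mul_mem' := mul_mem e H B
  one_mem' := one_mem e H B
  inv_mem' := inv_mem e H B

@[simp] theorem mem_picZeroRSubgroup (H : CurveHypR O A0 A1 A01 t s) (B : Type) [CommRing B]
    [Algebra O B] (x : ClR O A0 A1 A01 t s B) :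
    x ∈ picZeroRSubgroup e H B ↔ x ∈ PicZeroR e B := Iff.rfl

end Fermat.Agent.FFJ.Val.PicZeroGrp1
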