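/-
Programme FFJ (S19), chapter VAL.  Owner: helper1.

Mathlib-only brick (V5): *primitive elements* of projective modules over a valuation ring.

* `exists_dvd_all`: a finite nonempty family of elements of a valuation ring has a member dividing
  all the others;
* `exists_primitive`: a nonzero element `x` of a projective module `P` over a valuation ring `V` is
  `c • τ` with `c ≠ 0` and `τ ∉ 𝔪_V • P`;
* `projective_of_free_of_projective`: restriction of scalars of a projective module along a free
  ring extension is projective.
-/
import Mathlib

set_option autoImplicit false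

namespace Fermat.Agent.FFJ.Val.Primitive1

open IsLocalRing

/-- In a valuation ring, a finite nonempty family has a member dividing all the others. -/
theorem exists_dvd_all {V : Type*} [CommRing V] [IsDomain V] [ValuationRing V] {ι : Type*}
    (s : Finset ι) (hs : s.Nonempty) (f : ι → V) : ∃ i ∈ s, ∀ j ∈ s, f i ∣ f j := by
  classical
  induction hs using Finset.Nonempty.cons_induction with
  | singleton a => exact ⟨a, Finset.mem_singleton_self a, fun j hj => by
      rw [Finset.mem_singleton] at hj; rw [hj]⟩
  | cons a s ha hs ih =>
    obtain ⟨i, hi, hij⟩ := ih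
    rcases ValuationRing.dvd_total (f a) (f i) with h | h
    · refine ⟨a, Finset.mem_cons_self a s, fun j hj => ?_⟩
      rcases Finset.mem_cons.mp hj with rfl | hj
      · exact dvd_rfl
      · exact h.trans (hij j hj)
    · refine ⟨i, Finset.mem_cons.mpr (Or.inr hi), fun j hj => ?_⟩
      rcases Finset.mem_cons.mp hj with rfl | hj
      · exact h
      · exact hij j hj

/-- **Primitive elements.**  A nonzero element of a projective module over a valuation ring is a
nonzero scalar multiple of an element outside `𝔪 • P`. -/
theorem exists_primitive {V : Type*} [CommRing V] [IsDomain V] [ValuationRing V]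
    {P : Type*} [AddCommGroup P] [Module V P] [Module.Projective V P] (x : P) (hx : x ≠ 0) :
    ∃ (c : V) (τ : P), c ≠ 0 ∧ x = c • τ ∧ τ ∉ (maximalIdeal V) • (⊤ : Submodule V P) := by
  classical
  obtain ⟨g, hg⟩ := (Module.projective_def' (R := V) (P := P)).mp inferInstance
  have hgx : ∀ p : P, Finsupp.linearCombination V id (g p) = p := fun p => by
    have := congrArg (fun f => f p) hg
    simpa using this
  set y : P →₀ V := g x with hy
  have hy0 : y ≠ 0 := by
    intro h
    apply hx
    rw [← hgx x, ← hy, h, map_zero]
  have hsupp : y.support.Nonempty := Finsupp.support_nonempty_iff.mpr hy0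
  obtain ⟨i0, hi0, hdvd⟩ := exists_dvd_all y.support hsupp (fun i => y i)
  set c : V := y i0 with hc
  have hc0 : c ≠ 0 := Finsupp.mem_support_iff.mp hi0
  have hdvd' : ∀ j, c ∣ y j := by
    intro j
    by_cases hj : j ∈ y.support
    · exact hdvd j hj
    · rw [Finsupp.notMem_support_iff.mp hj]
      exact dvd_zero c
  -- the coefficientwise quotient
  let q : V → V := fun a => if h : c ∣ a then Classical.choose h else 0
  have hq : ∀ a, c ∣ a → c * q a = a := by
    intro a h
    simp only [q, dif_pos h]
    exact (Classical.choose_spec h).symm
  have hq0 : q 0 = 0 := by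
    have := hq 0 (dvd_zero c)
    exact (mul_eq_zero.mp this).resolve_left hc0
  have hqc : q c = 1 := by
    have := hq c dvd_rfl
    exact mul_left_cancel₀ hc0 (this.trans (mul_one c).symm)
  set z : P →₀ V := y.mapRange q hq0 with hz
  have hcz : c • z = y := by
    ext j
    rw [Finsupp.smul_apply, hz, Finsupp.mapRange_apply, smul_eq_mul, hq _ (hdvd' j)]
  refine ⟨c, Finsupp.linearCombination V id z, hc0, ?_, ?_⟩
  · rw [← map_smul, hcz, hy, hgx]
  · intro hmem
    set τ : P := Finsupp.linearCombination V id z with hτ
    -- `g τ = z`
    have h1 : g τ = z := by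
      have h2 : c • g τ = c • z := by
        rw [← map_smul, hτ, ← map_smul, hcz, hy, hgx]
      exact smul_right_injective (P →₀ V) hc0 h2
    -- the coordinate `i0` of an element of `𝔪 • ⊤` lies in `𝔪`
    have h3 : (Finsupp.lapply i0 : (P →₀ V) →ₗ[V] V) (g τ) ∈ maximalIdeal V := by
      have h4 : g τ ∈ (maximalIdeal V) • (⊤ : Submodule V (P →₀ V)) := by
        have := Submodule.mem_map_of_mem (f := g) hmem
        rw [Submodule.map_smul''] at this
        exact Submodule.smul_mono le_rfl le_top this
      have h5 := Submodule.mem_map_of_mem (f := (Finsupp.lapply i0 : (P →₀ V) →ₗ[V] V)) h4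
      rw [Submodule.map_smul''] at h5
      have h6 : (maximalIdeal V) • (Submodule.map (Finsupp.lapply i0 : (P →₀ V) →ₗ[V] V) ⊤) ≤
          maximalIdeal V := by
        refine (Submodule.smul_mono le_rfl le_top).trans ?_
        rw [smul_eq_mul, Ideal.mul_top]
      exact h6 h5
    rw [h1, Finsupp.lapply_apply, hz, Finsupp.mapRange_apply, ← hc, hqc] at h3
    exact (maximalIdeal.isMaximal V).ne_top ((Ideal.eq_top_iff_one _).mpr h3)

/-- Restriction of scalars of a projective module along a free ring extension is projective. -/
theorem projective_of_free_of_projective (V R P : Type*) [CommRing V] [CommRing R] [Algebra V R]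
    [AddCommGroup P] [Module R P] [Module V P] [IsScalarTower V R P] [Module.Free V R]
    [Module.Projective R P] : Module.Projective V P := by
  obtain ⟨g, hg⟩ := (Module.projective_def' (R := R) (P := P)).mp inferInstance
  refine Module.Projective.of_split (R := V) (M := P →₀ R) (g.restrictScalars V)
    ((Finsupp.linearCombination R id).restrictScalars V) ?_
  ext p
  have := congrArg (fun f => f p) hg
  simpa using this

end Fermat.Agent.FFJ.Val.Primitive1
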