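/-
FFJ / VAL brick (V7) `RankOne` (helper87; assignment #1393 by helper1).

A valuation subring `V` of a field `Ω` that is algebraic over (the fraction field of) a discrete
valuation ring `O ⊆ V` has rank at most one: every nonzero `v ∈ V` divides a power of every
non-unit `μ ∈ V`.

The proof is completely elementary and in fact works for an arbitrary local domain `V` receiving
an injective ring homomorphism from `O` (`exists_dvd_pow_of_eval₂_eq_zero`):

* (i)  a nonzero `v` killed by a nonzero polynomial divides the image of a nonzero constant of `O`,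
       hence a power of the uniformizer `ϖ`;
* (ii) a non-unit `μ` killed by a polynomial having a coefficient prime to the uniformizer has a
       power divisible by `ϖ` (look at the first coefficient which is a unit).

Mathlib only.
-/
import Mathlib

namespace Fermat.Agent.FFJ.Val.RankOne87

open Polynomial IsLocalRing

section core

variable {O V : Type*} [CommRing O] [CommRing V]

/-- (i) In a domain `V`, a nonzero element killed by a nonzero polynomial with coefficients in `O`
divides the image of a nonzero constant of `O`. -/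
theorem exists_ne_zero_dvd_map_of_eval₂_eq_zero [IsDomain V] (φ : O →+* V) (x : V) (hx : x ≠ 0)
    (p : O[X]) (hp : p ≠ 0) (h0 : eval₂ φ x p = 0) : ∃ c : O, c ≠ 0 ∧ x ∣ φ c := by
  induction' hn : p.natDegree using Nat.strong_induction_on with n ih generalizing p
  by_cases hc : p.coeff 0 = 0
  · have hpX : p = divX p * X := by
      have := divX_mul_X_add p
      rw [hc, C_0, add_zero] at this
      exact this.symm
    have hq : divX p ≠ 0 := by
      intro h
      apply hp
      rw [hpX, h, zero_mul]
    have h1 : eval₂ φ x (divX p) = 0 := by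
      rw [hpX, eval₂_mul, eval₂_X] at h0
      exact (mul_eq_zero.mp h0).resolve_right hx
    have hpos : 0 < n := by
      rw [← hn]
      by_contra hle
      have h0' : p.natDegree = 0 := by omega
      have := eq_C_of_natDegree_eq_zero h0'
      rw [hc, C_0] at this
      exact hp this
    have hdeg : (divX p).natDegree < n := by
      rw [natDegree_divX_eq_natDegree_tsub_one, hn]
      omega
    exact ih _ hdeg (divX p) hq h1 rfl
  · refine ⟨p.coeff 0, hc, ?_⟩
    have h2 : eval₂ φ x (divX p * X + C (p.coeff 0)) = 0 := by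
      rw [divX_mul_X_add]
      exact h0
    rw [eval₂_add, eval₂_mul, eval₂_X, eval₂_C] at h2
    exact ⟨-(eval₂ φ x (divX p)), by linear_combination h2⟩

variable [IsDomain O] [IsDiscreteValuationRing O]

/-- In a discrete valuation ring, an element not divisible by a uniformizer is a unit. -/
theorem isUnit_of_not_dvd {π : O} (hπ : Irreducible π) {c : O} (hc : ¬ π ∣ c) : IsUnit c := by
  have : c ∉ maximalIdeal O := by
    rw [hπ.maximalIdeal_eq, Ideal.mem_span_singleton]
    exact hc
  exact IsLocalRing.notMem_maximalIdeal.mp this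

/-- (ii) In a local ring `V`, if `μ` is a non-unit and `p` is a polynomial over the discrete
valuation ring `O` whose first coefficient prime to the uniformizer `π` has index `j`, then
`φ π ∣ p(μ) * μ ^ k` implies `φ π ∣ μ ^ (j + k)`. -/
theorem map_dvd_pow_of_dvd_eval₂_mul_pow [IsLocalRing V] (φ : O →+* V) {π : O}
    (hπ : Irreducible π) (μ : V) (hμ : μ ∈ maximalIdeal V) :
    ∀ (j k : ℕ) (p : O[X]), (∀ i < j, π ∣ p.coeff i) → ¬ π ∣ p.coeff j →
      φ π ∣ eval₂ φ μ p * μ ^ k → φ π ∣ μ ^ (j + k) := by
  intro j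
  induction j with
  | zero =>
    intro k p _ hj h
    have hu : IsUnit (φ (p.coeff 0)) := (isUnit_of_not_dvd hπ hj).map φ
    have hE : eval₂ φ μ (divX p) * μ ∈ maximalIdeal V := Ideal.mul_mem_left _ _ hμ
    have hdec : eval₂ φ μ p = eval₂ φ μ (divX p) * μ + φ (p.coeff 0) := by
      conv_lhs => rw [← divX_mul_X_add p]
      rw [eval₂_add, eval₂_mul, eval₂_X, eval₂_C]
    have hunit : IsUnit (eval₂ φ μ p) := by
      by_contra hnu
      have hmem : eval₂ φ μ p ∈ maximalIdeal V := (IsLocalRing.mem_maximalIdeal _).mpr hnu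
      have : φ (p.coeff 0) ∈ maximalIdeal V := by
        have h3 : φ (p.coeff 0) = eval₂ φ μ p - eval₂ φ μ (divX p) * μ := by
          rw [hdec]; ring
        rw [h3]
        exact Ideal.sub_mem _ hmem hE
      exact (IsLocalRing.notMem_maximalIdeal.mpr hu) this
    rw [zero_add]
    exact (hunit.dvd_mul_left).mp h
  | succ j ih =>
    intro k p hlt hj h
    have hc0 : π ∣ p.coeff 0 := hlt 0 (Nat.succ_pos j)
    have hdec : eval₂ φ μ p * μ ^ k
        = eval₂ φ μ (divX p) * μ ^ (k + 1) + φ (p.coeff 0) * μ ^ k := by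
      conv_lhs => rw [← divX_mul_X_add p]
      rw [eval₂_add, eval₂_mul, eval₂_X, eval₂_C]
      ring
    have hd2 : φ π ∣ φ (p.coeff 0) * μ ^ k := Dvd.dvd.mul_right (map_dvd φ hc0) _
    rw [hdec] at h
    have hd1 : φ π ∣ eval₂ φ μ (divX p) * μ ^ (k + 1) := (dvd_add_left hd2).mp h
    have := ih (k + 1) (divX p)
      (fun i hi => by rw [coeff_divX]; exact hlt (i + 1) (by omega))
      (by rw [coeff_divX]; exact hj) hd1
    have he : j + 1 + k = j + (k + 1) := by omega
    rw [he]
    exact this

/-- An element of `V` killed by a nonzero polynomial over the discrete valuation ring `O` is killed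
by a polynomial having a coefficient prime to the uniformizer. -/
theorem exists_eval₂_eq_zero_not_dvd_coeff [IsDomain V] (φ : O →+* V)
    (hφ : Function.Injective φ) {π : O} (hπ : Irreducible π) (x : V) (p : O[X]) (hp : p ≠ 0)
    (h0 : eval₂ φ x p = 0) : ∃ q : O[X], eval₂ φ x q = 0 ∧ ∃ i, ¬ π ∣ q.coeff i := by
  have hlc : p.leadingCoeff ≠ 0 := leadingCoeff_ne_zero.mpr hp
  obtain ⟨n, hn⟩ := IsDiscreteValuationRing.associated_pow_irreducible hlc hπ
  have hdvd : p.leadingCoeff ∣ π ^ n := hn.dvd
  clear hn hlc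
  induction n generalizing p with
  | zero =>
    rw [pow_zero] at hdvd
    have hu : IsUnit p.leadingCoeff := isUnit_of_dvd_one hdvd
    refine ⟨p, h0, p.natDegree, fun hd => ?_⟩
    exact hπ.not_isUnit (isUnit_of_dvd_unit hd hu)
  | succ n ih =>
    by_cases h : ∀ i, π ∣ p.coeff i
    · obtain ⟨q, rfl⟩ := (C_dvd_iff_dvd_coeff π p).mpr h
      have hq : q ≠ 0 := by
        rintro rfl
        exact hp (mul_zero _)
      have hπV : φ π ≠ 0 := by
        intro h'
        exact hπ.ne_zero (hφ (by rw [h', map_zero]))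
      have hq0 : eval₂ φ x q = 0 := by
        rw [eval₂_mul, eval₂_C] at h0
        exact (mul_eq_zero.mp h0).resolve_left hπV
      have hlcq : q.leadingCoeff ∣ π ^ n := by
        rw [leadingCoeff_mul, leadingCoeff_C, pow_succ'] at hdvd
        exact (mul_dvd_mul_iff_left hπ.ne_zero).mp hdvd
      exact ih q hq hq0 hlcq
    · exact ⟨p, h0, not_forall.mp h⟩

/-- **Rank one, core form.** Let `O` be a discrete valuation ring, `V` a local domain and
`φ : O →+* V` injective. If `v ≠ 0` and the non-unit `μ` are both algebraic over `O` (killed by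
nonzero polynomials), then `v` divides a power of `μ`. -/
theorem exists_dvd_pow_of_eval₂_eq_zero [IsDomain V] [IsLocalRing V] (φ : O →+* V)
    (hφ : Function.Injective φ) (v μ : V) (hv : v ≠ 0) (hμ : μ ∈ maximalIdeal V)
    (hvalg : ∃ p : O[X], p ≠ 0 ∧ eval₂ φ v p = 0)
    (hμalg : ∃ p : O[X], p ≠ 0 ∧ eval₂ φ μ p = 0) : ∃ n : ℕ, v ∣ μ ^ n := by
  classical
  obtain ⟨π, hπ⟩ := IsDiscreteValuationRing.exists_irreducible O
  obtain ⟨p, hp, hp0⟩ := hvalg
  obtain ⟨c, hc, hvc⟩ := exists_ne_zero_dvd_map_of_eval₂_eq_zero φ v hv p hp hp0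
  obtain ⟨m, hm⟩ := IsDiscreteValuationRing.associated_pow_irreducible hc hπ
  have h1 : v ∣ φ π ^ m := by
    have : Associated (φ c) (φ π ^ m) := by
      rw [← map_pow]
      exact hm.map φ
    exact hvc.trans this.dvd
  obtain ⟨q, hq, hq0⟩ := hμalg
  obtain ⟨q', hq', hex⟩ := exists_eval₂_eq_zero_not_dvd_coeff φ hφ hπ μ q hq hq0
  have hj : ¬ π ∣ q'.coeff (Nat.find hex) := Nat.find_spec hex
  have hlt : ∀ i < Nat.find hex, π ∣ q'.coeff i := fun i hi' => not_not.mp (Nat.find_min hex hi')
  have h2 : φ π ∣ μ ^ (Nat.find hex + 0) :=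
    map_dvd_pow_of_dvd_eval₂_mul_pow φ hπ μ hμ (Nat.find hex) 0 q' hlt hj (by rw [hq']; simp)
  refine ⟨(Nat.find hex + 0) * m, ?_⟩
  rw [pow_mul]
  exact h1.trans (pow_dvd_pow_of_dvd h2 m)

end core

section main

variable {O Ω : Type*} [CommRing O] [Field Ω] [Algebra O Ω]

/-- The structure map `O → V` of a valuation subring containing the image of `O`. -/
def toValuationSubring (V : ValuationSubring Ω) (hOV : ∀ a : O, algebraMap O Ω a ∈ V) : O →+* V :=
  (algebraMap O Ω).codRestrict V.toSubring hOV

theorem coe_toValuationSubring (V : ValuationSubring Ω) (hOV : ∀ a : O, algebraMap O Ω a ∈ V)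
    (a : O) : ((toValuationSubring V hOV a : V) : Ω) = algebraMap O Ω a := rfl

theorem coe_eval₂_toValuationSubring (V : ValuationSubring Ω)
    (hOV : ∀ a : O, algebraMap O Ω a ∈ V) (x : V) (p : O[X]) :
    ((eval₂ (toValuationSubring V hOV) x p : V) : Ω) = aeval (x : Ω) p := by
  have h := hom_eval₂ p (toValuationSubring V hOV) V.subtype x
  have hcomp : (V.subtype : V →+* Ω).comp (toValuationSubring V hOV) = algebraMap O Ω := by
    ext a
    rfl
  rw [hcomp] at h
  rw [aeval_def]
  exact h

theorem exists_eval₂_eq_zero_of_isAlgebraic (V : ValuationSubring Ω)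
    (hOV : ∀ a : O, algebraMap O Ω a ∈ V) (x : V) (hx : IsAlgebraic O (x : Ω)) :
    ∃ p : O[X], p ≠ 0 ∧ eval₂ (toValuationSubring V hOV) x p = 0 := by
  obtain ⟨p, hp, hp0⟩ := hx
  refine ⟨p, hp, Subtype.ext ?_⟩
  rw [coe_eval₂_toValuationSubring, hp0]
  rfl

/-- **(V7) RankOne.** A valuation subring `V ⊇ O` of a field `Ω` algebraic over the discrete
valuation ring `O` has rank at most one: every nonzero `v ∈ V` divides a power of every
non-unit `μ` of `V`. -/
theorem exists_dvd_pow_of_isAlgebraic {O Ω : Type*} [CommRing O] [IsDomain O]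
    [IsDiscreteValuationRing O] [Field Ω] [Algebra O Ω] [Algebra.IsAlgebraic O Ω]
    (hinj : Function.Injective (algebraMap O Ω)) (V : ValuationSubring Ω)
    (hOV : ∀ a : O, algebraMap O Ω a ∈ V) (v μ : V) (hv : v ≠ 0)
    (hμ : μ ∈ IsLocalRing.maximalIdeal V) : ∃ n : ℕ, v ∣ μ ^ n := by
  have hφ : Function.Injective (toValuationSubring V hOV) := by
    intro a b hab
    apply hinj
    have := congrArg (fun z : V => (z : Ω)) hab
    simpa [coe_toValuationSubring] using this
  exact exists_dvd_pow_of_eval₂_eq_zero (toValuationSubring V hOV) hφ v μ hv hμ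
    (exists_eval₂_eq_zero_of_isAlgebraic V hOV v (Algebra.IsAlgebraic.isAlgebraic _))
    (exists_eval₂_eq_zero_of_isAlgebraic V hOV μ (Algebra.IsAlgebraic.isAlgebraic _))

end main

end Fermat.Agent.FFJ.Val.RankOne87
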