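/-
Programme FFJ (S19), chapter VAL.  Owner: helper1.

Brick (V3): on a fibre (the common setting of `JAC/Fibre/DiagOfDiv38`: two Dedekind charts with
fraction field `F` over an ARBITRARY field `K`), a line diagram of degree zero with a nonzero global
section is generated by that section on both charts.
-/
import Mathlib
import Fermat.Prelude.Def_AlgebraicCurve_Repartitions
import Fermat.Agent.JAC.Fibre.DiagPrin38

set_option autoImplicit false
set_option linter.unusedSectionVars false

open AlgebraicCurve IsDedekindDomain WithZero Polynomial nonZeroDivisors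

namespace Fermat.Agent.FFJ.Val.SectionGen1

open Fermat.Agent.JAC.Fibre.Lat38 Fermat.Agent.JAC.Fibre.Core38 Fermat.Agent.JAC.Fibre.Chart38
  Fermat.Agent.JAC.Fibre.Setting38 Fermat.Agent.JAC.Fibre.DiagOfDiv38
  Fermat.Agent.JAC.Fibre.DiagChi38 Fermat.Agent.JAC.Fibre.DiagExists38
  Fermat.Agent.JAC.Fibre.DiagOps38 Fermat.Agent.JAC.Fibre.DiagPrin38
  Fermat.Agent.JAC.Core.Defs36 Fermat.Agent.JAC.Grp.Diag33 Fermat.Agent.JAC.Core.Degree36

universe u

variable {K : Type u} {F : Type u} [Field K] [Field F] [Algebra K F]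
  {B₀ : Type u} [CommRing B₀] [IsDedekindDomain B₀] [Algebra B₀ F] [IsFractionRing B₀ F]
  [Algebra K B₀] [IsScalarTower K B₀ F]
  {B₁ : Type u} [CommRing B₁] [IsDedekindDomain B₁] [Algebra B₁ F] [IsFractionRing B₁ F]
  [Algebra K B₁] [IsScalarTower K B₁ F]
  {B₀₁ : Type u} [CommRing B₀₁] [IsDedekindDomain B₀₁] [Algebra B₀₁ F] [IsFractionRing B₀₁ F]
  [Algebra K B₀₁] [IsScalarTower K B₀₁ F]
  [Algebra B₀ B₀₁] [Algebra B₁ B₀₁] [IsScalarTower B₀ B₀₁ F] [IsScalarTower B₁ B₀₁ F]
  [IsScalarTower K B₀ B₀₁] [IsScalarTower K B₁ B₀₁]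
  {t : B₀} {s : B₁} [IsLocalization.Away t B₀₁] [IsLocalization.Away s B₀₁]

/-- An effective divisor of degree zero vanishes (all places have positive degree). -/
theorem eq_zero_of_nonneg_of_degree_eq_zero
    (hfin : ∀ P : Place K F, Module.Finite K P.ResidueField) (E : Divisor K F)
    (hE : ∀ v, 0 ≤ E v) (hdeg : Divisor.degree E = 0) : E = 0 := by
  classical
  have hpos : ∀ v : Place K F, 0 < (v.deg : ℤ) := by
    intro v
    have := hfin v
    have : 0 < Module.finrank K v.ResidueField := Module.finrank_pos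
    exact_mod_cast this
  have hsum : Divisor.degree E = ∑ v ∈ E.support, E v * (v.deg : ℤ) := by
    unfold Divisor.degree
    rw [Finsupp.liftAddHom_apply, Finsupp.sum]
    rfl
  rw [hsum] at hdeg
  have h0 := (Finset.sum_eq_zero_iff_of_nonneg
    (fun v _ => mul_nonneg (hE v) (hpos v).le)).mp hdeg
  ext v
  by_cases hv : v ∈ E.support
  · have := h0 v hv
    rcases mul_eq_zero.mp this with h | h
    · rw [h]; rfl
    · exact absurd h (hpos v).ne'
  · rw [Finsupp.notMem_support_iff.mp hv]; rfl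

/-- On `O(D)` with `D = -div f`, the lattice on a chart is generated by `f`. -/
theorem exists_smul_eq_of_neg_ord {B : Type u} [CommRing B] [IsDedekindDomain B] [Algebra B F]
    [IsFractionRing B F] [Algebra K B] [IsScalarTower K B F] {D : Divisor K F} {f : F}
    (hf : f ≠ 0) (hD : ∀ v : Place K F, D v = -v.ord f) (g : F) (hg : g ∈ latMod B D) :
    ∃ b : B, g = algebraMap B F b * f := by
  have h1 : g / f ∈ lat (chartSet (K := K) (F := F) B) 0 := by
    rw [mem_lat_iff_ord]
    intro v hv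
    rcases eq_or_ne g 0 with hg0 | hg0
    · left; rw [hg0, zero_div]
    right
    have h2 := (mem_lat_iff_ord.mp (mem_latMod_iff.mp hg) v hv).resolve_left hg0
    rw [div_eq_mul_inv, v.ord_mul hg0 (inv_ne_zero hf), v.ord_inv, Finsupp.zero_apply]
    rw [hD v] at h2
    omega
  obtain ⟨b, hb⟩ := mem_lat_chartSet_zero_iff.mp h1
  exact ⟨b, by rw [hb, div_mul_cancel₀ g hf]⟩

/-- **Degree zero and a nonzero section**: the section generates on both charts. -/
theorem span_eq_top_of_degClass_eq_zero (S : IsSetting K F t s B₀₁)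
    (T : TwoChart (chartSet (K := K) (F := F) B₀) (chartSet (K := K) (F := F) B₁))
    (N : LineDiag t s B₀₁) (hdeg : degClass K (cls N) = 0) (x : N.M0) (y : N.M1)
    (hxy : N.rho0 x = N.rho1 y) (hne : x ≠ 0 ∨ y ≠ 0) :
    Submodule.span B₀ {x} = ⊤ ∧ Submodule.span B₁ {y} = ⊤ := by
  classical
  obtain ⟨D, ⟨ε⟩⟩ := exists_iso_lineDiagOfDiv S N
  have hdegD : Divisor.degree D = 0 := by
    rw [← degClass_cls_lineDiagOfDiv S T D, ← cls_eq_iff.mpr ⟨ε⟩]
    exact hdeg
  -- the section as a function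
  let x' : ↥(latMod B₀ D) := ε.e0 x
  let y' : ↥(latMod B₁ D) := ε.e1 y
  have hxy' : (x' : F) = (y' : F) := by
    have h0 := congrArg (Subtype.val : ↥(latMod B₀₁ D) → F) (ε.comm0 x)
    have h1 := congrArg (Subtype.val : ↥(latMod B₀₁ D) → F) (ε.comm1 y)
    rw [hxy] at h0
    exact h0.symm.trans h1
  obtain ⟨f, hf⟩ : ∃ f : F, f = (x' : F) := ⟨_, rfl⟩
  have hf1 : f = (y' : F) := hf.trans hxy'
  have hfm0 : f ∈ latMod B₀ D := by rw [hf]; exact x'.2
  have hfm1 : f ∈ latMod B₁ D := by rw [hf1]; exact y'.2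
  have hf0 : f ≠ 0 := by
    rcases hne with h | h
    · intro h0
      apply h
      apply ε.e0.injective
      rw [map_zero]
      exact Subtype.ext (hf.symm.trans h0)
    · intro h0
      apply h
      apply ε.e1.injective
      rw [map_zero]
      exact Subtype.ext (hf1.symm.trans h0)
  -- `E = D + div f` is effective of degree zero
  let divf : Divisor K F := Finsupp.ofSupportFinite (fun v => v.ord f)
    (T.finite_ord_ne_zero f hf0)
  have hdivf_apply : ∀ v, divf v = v.ord f := fun v => rfl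
  have hEv : ∀ v : Place K F, (D + divf) v = D v + v.ord f := fun v => by
    rw [Finsupp.add_apply, hdivf_apply]
  have hEnonneg : ∀ v, 0 ≤ (D + divf) v := by
    intro v
    have hv : v ∈ chartSet (K := K) (F := F) B₀ ∪ chartSet (K := K) (F := F) B₁ := by
      rw [T.cover]; trivial
    rw [hEv]
    rcases hv with hv | hv
    · have := (mem_lat_iff_ord.mp (mem_latMod_iff.mp hfm0) v hv).resolve_left hf0
      omega
    · have := (mem_lat_iff_ord.mp (mem_latMod_iff.mp hfm1) v hv).resolve_left hf0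
      omega
  have hdegE : Divisor.degree (D + divf) = 0 := by
    rw [← degClass_cls_lineDiagOfDiv S T (D + divf), cls_eq_iff.mpr ⟨isoOfMul S hf0 hEv⟩,
      degClass_cls_lineDiagOfDiv S T D, hdegD]
  have hE0 := eq_zero_of_nonneg_of_degree_eq_zero T.finite_residue (D + divf) hEnonneg hdegE
  have hD : ∀ v : Place K F, D v = -v.ord f := by
    intro v
    have := hEv v
    rw [hE0, Finsupp.zero_apply] at this
    omega
  constructor
  · rw [eq_top_iff]
    intro m _
    let m' : ↥(latMod B₀ D) := ε.e0 m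
    obtain ⟨b, hb⟩ := exists_smul_eq_of_neg_ord (K := K) (B := B₀) hf0 hD (m' : F) m'.2
    rw [Submodule.mem_span_singleton]
    refine ⟨b, ε.e0.injective ?_⟩
    rw [map_smul]
    apply Subtype.ext
    show (b • x' : ↥(latMod B₀ D)).1 = (m' : F)
    rw [hb, hf, Submodule.coe_smul, Algebra.smul_def]
  · rw [eq_top_iff]
    intro m _
    let m' : ↥(latMod B₁ D) := ε.e1 m
    obtain ⟨b, hb⟩ := exists_smul_eq_of_neg_ord (K := K) (B := B₁) hf0 hD (m' : F) m'.2
    rw [Submodule.mem_span_singleton]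
    refine ⟨b, ε.e1.injective ?_⟩
    rw [map_smul]
    apply Subtype.ext
    show (b • y' : ↥(latMod B₁ D)).1 = (m' : F)
    rw [hb, hf1, Submodule.coe_smul, Algebra.smul_def]

end Fermat.Agent.FFJ.Val.SectionGen1
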