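/-
Programme FFJ (S19), chapter VAL.  Owner: helper1.

Brick (V4): a line diagram with a nowhere vanishing global section is trivial.
General two-chart family `(R0 → R01 ← R1; t, s)`.
-/
import Mathlib
import Fermat.Agent.JAC.Core.Defs36
import Fermat.Agent.JAC.Grp.Diag33

set_option autoImplicit false

universe u

namespace Fermat.Agent.FFJ.Val.TrivOfGen1

open Fermat.Agent.JAC.Core.Defs36 Fermat.Agent.JAC.Grp.Diag33

variable {R0 R1 R01 : Type u} [CommRing R0] [CommRing R1] [CommRing R01]
  [Algebra R0 R01] [Algebra R1 R01] {t : R0} {s : R1}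
  [IsLocalization.Away t R01] [IsLocalization.Away s R01]

omit [IsLocalization.Away s R01] in
/-- If `x` generates `M0` then `rho0 x` generates `M01`. -/
theorem span_rho0_eq_top (N : LineDiag t s R01) (x : N.M0)
    (hx : Submodule.span R0 {x} = ⊤) : Submodule.span R01 {N.rho0 x} = ⊤ := by
  rw [eq_top_iff]
  intro m _
  obtain ⟨⟨x', ⟨_, n, rfl⟩⟩, hm⟩ := IsLocalizedModule.surj (Submonoid.powers t) N.rho0 m
  change (t ^ n : R0) • m = N.rho0 x' at hm
  have hx' : x' ∈ Submodule.span R0 {x} := by rw [hx]; exact Submodule.mem_top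
  obtain ⟨r, rfl⟩ := Submodule.mem_span_singleton.mp hx'
  have hu : IsUnit (algebraMap R0 R01 (t ^ n)) := by
    rw [map_pow]
    exact (IsLocalization.Away.algebraMap_isUnit (S := R01) t).pow n
  obtain ⟨u, hu'⟩ := hu
  rw [Submodule.mem_span_singleton]
  refine ⟨(↑u⁻¹ : R01) * algebraMap R0 R01 r, ?_⟩
  have h1 : (u : R01) • m = algebraMap R0 R01 r • N.rho0 x := by
    rw [hu', algebraMap_smul, hm, map_smul, algebraMap_smul]
  rw [mul_smul, ← h1, ← mul_smul, Units.inv_mul, one_smul]

/-- **A line diagram with a nowhere vanishing section is trivial.** -/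
theorem cls_eq_one_of_span_eq_top (N : LineDiag t s R01) (x : N.M0) (y : N.M1)
    (hxy : N.rho0 x = N.rho1 y) (hx : Submodule.span R0 {x} = ⊤)
    (hy : Submodule.span R1 {y} = ⊤) : cls N = 1 := by
  have h01 := span_rho0_eq_top N x hx
  have surj : ∀ {R M : Type u} [CommRing R] [AddCommGroup M] [Module R M] (z : M),
      Submodule.span R {z} = ⊤ → Function.Surjective (LinearMap.toSpanSingleton R M z) := by
    intro R M _ _ _ z hz m
    have : m ∈ Submodule.span R {z} := by rw [hz]; exact Submodule.mem_top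
    obtain ⟨r, rfl⟩ := Submodule.mem_span_singleton.mp this
    exact ⟨r, rfl⟩
  have b0 := Module.Invertible.bijective_of_surjective (surj x hx)
  have b1 := Module.Invertible.bijective_of_surjective (surj y hy)
  have b01 := Module.Invertible.bijective_of_surjective (surj (N.rho0 x) h01)
  rw [cls_one, eq_comm, cls_eq_iff]
  refine ⟨⟨LinearEquiv.ofBijective _ b0, LinearEquiv.ofBijective _ b1,
    LinearEquiv.ofBijective _ b01, fun (r : R0) => ?_, fun (r : R1) => ?_⟩⟩
  · show algebraMap R0 R01 r • N.rho0 x = N.rho0 (r • x)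
    rw [map_smul, algebraMap_smul]
  · show algebraMap R1 R01 r • N.rho0 x = N.rho1 (r • y)
    rw [map_smul, algebraMap_smul, hxy]

end Fermat.Agent.FFJ.Val.TrivOfGen1
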