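/-
Programme FFJ (S19), chapter VAL.  Owner: helper1.

General lemmas on the fibred base change `Core.Cart36.IsBaseChangeHom θ` (`θ : P →ₛₗ[φ] P'`):
* `exists_linearEquiv_tensor` : `P' ≅ R' ⊗[R] P` (for the algebra structure `φ.toAlgebra`);
* `injective_of_flat`         : `θ` is injective if `φ` is injective and `P` is flat;
* `mem_ker_smul_top`          : if `φ` is surjective, `θ x = 0` implies `x ∈ ker φ • ⊤`;
* `exists_smul_eq_of_span`    : if `θ τ` generates `P'` and `φ` is surjective, every `x` is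
  `r • τ` modulo `ker φ • ⊤`.
-/
import Mathlib
import Fermat.Agent.JAC.Core.Cart36
import Fermat.Agent.JAC.Grp.Cart33

set_option autoImplicit false
set_option linter.style.haveILetI false

open TensorProduct

universe u

namespace Fermat.Agent.FFJ.Val.BcLemmas1

open Fermat.Agent.JAC.Core.Cart36 Fermat.Agent.JAC.Grp.Cart33

variable {R R' : Type u} [CommRing R] [CommRing R'] {φ : R →+* R'}
  {P P' : Type u} [AddCommGroup P] [Module R P] [AddCommGroup P'] [Module R' P']

/-- A fibred base change is (isomorphic to) the tensor product. -/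
theorem exists_linearEquiv_tensor {θ : P →ₛₗ[φ] P'} (h : IsBaseChangeHom θ) :
    letI := φ.toAlgebra
    ∃ e : R' ⊗[R] P ≃ₗ[R'] P', ∀ x : P, e ((1 : R') ⊗ₜ[R] x) = θ x := by
  letI := φ.toAlgebra
  have h' : IsBaseChangeHom (toSemilinear R' (TensorProduct.mk R R' P 1)) :=
    isBaseChangeHom_mk R R' P
  obtain ⟨e, he⟩ := IsBaseChangeHom.exists_linearEquiv (φ := φ) h' h
  exact ⟨e, fun x => he x⟩

/-- A base change of a flat module along an injective ring map is injective. -/
theorem injective_of_flat {θ : P →ₛₗ[φ] P'} (h : IsBaseChangeHom θ)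
    (hφ : Function.Injective φ) [Module.Flat R P] : Function.Injective θ := by
  letI := φ.toAlgebra
  obtain ⟨e, he⟩ := exists_linearEquiv_tensor h
  have h1 : Function.Injective ((Algebra.linearMap R R').rTensor P) :=
    Module.Flat.rTensor_preserves_injective_linearMap (M := P) (Algebra.linearMap R R') hφ
  intro x y hxy
  rw [← he x, ← he y] at hxy
  have h2 := e.injective hxy
  have h3 : (Algebra.linearMap R R').rTensor P ((1 : R) ⊗ₜ[R] x) =
      (Algebra.linearMap R R').rTensor P ((1 : R) ⊗ₜ[R] y) := by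
    rw [LinearMap.rTensor_tmul, LinearMap.rTensor_tmul, Algebra.linearMap_apply, map_one]
    exact h2
  have h4 := h1 h3
  have h5 := congrArg (TensorProduct.lid R P) h4
  simpa using h5

/-- If `φ` is surjective, the kernel of a base change along `φ` is `ker φ • ⊤`. -/
theorem mem_ker_smul_top {θ : P →ₛₗ[φ] P'} (h : IsBaseChangeHom θ)
    (hφ : Function.Surjective φ) {x : P} (hx : θ x = 0) :
    x ∈ (RingHom.ker φ) • (⊤ : Submodule R P) := by
  let e : R ⧸ RingHom.ker φ ≃+* R' := RingHom.quotientKerEquivOfSurjective hφ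
  letI : Module R' (P ⧸ (RingHom.ker φ) • (⊤ : Submodule R P)) :=
    Module.compHom _ (e.symm : R' →+* R ⧸ RingHom.ker φ)
  let g : P →ₛₗ[φ] (P ⧸ (RingHom.ker φ) • (⊤ : Submodule R P)) :=
    { toFun := fun p => Submodule.Quotient.mk p
      map_add' := fun _ _ => rfl
      map_smul' := fun r p => by
        show Submodule.Quotient.mk (r • p) =
          (e.symm (φ r)) • (Submodule.Quotient.mk p : P ⧸ (RingHom.ker φ) • (⊤ : Submodule R P))
        have : e.symm (φ r) = Ideal.Quotient.mk (RingHom.ker φ) r := by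
          rw [RingEquiv.symm_apply_eq]
          rfl
        rw [this]
        rfl }
  obtain ⟨g', hg', -⟩ := h _ g
  have h0 : g x = 0 := by rw [← hg' x, hx, map_zero]
  exact (Submodule.Quotient.mk_eq_zero _).mp h0

/-- If `θ τ` generates `P'` and `φ` is surjective, then `τ` generates `P` modulo `ker φ • ⊤`. -/
theorem exists_smul_sub_mem {θ : P →ₛₗ[φ] P'} (h : IsBaseChangeHom θ)
    (hφ : Function.Surjective φ) (τ : P) (hτ : Submodule.span R' {θ τ} = ⊤) (x : P) :
    ∃ r : R, x - r • τ ∈ (RingHom.ker φ) • (⊤ : Submodule R P) := by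
  have hx : θ x ∈ Submodule.span R' {θ τ} := by rw [hτ]; exact Submodule.mem_top
  obtain ⟨r', hr'⟩ := Submodule.mem_span_singleton.mp hx
  obtain ⟨r, rfl⟩ := hφ r'
  refine ⟨r, mem_ker_smul_top h hφ ?_⟩
  rw [map_sub, θ.map_smulₛₗ, hr', sub_self]

end Fermat.Agent.FFJ.Val.BcLemmas1
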