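/-
Programme FFJ (S19), chapter VAL.  Owner: helper1.

Mathlib-only brick (V6): a Nakayama argument over a valuation ring of rank one.

`V` a valuation ring, `R` a `V`-algebra, `Q` a finitely generated `R`-module killed by `v ∈ V` and
with `Q = 𝔪_V Q`.  If every `μ ∈ 𝔪_V` has a power divisible by `v`, then `Q = 0`.
-/
import Mathlib

set_option autoImplicit false

namespace Fermat.Agent.FFJ.Val.NakRank1

open IsLocalRing

/-- Every element of the extension of `𝔪_V` to a `V`-algebra `R` is a multiple of ONE element of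
`𝔪_V` (`V` a valuation ring). -/
theorem exists_eq_mul_of_mem_map {V R : Type*} [CommRing V] [IsDomain V] [ValuationRing V]
    [CommRing R] [Algebra V R] {a : R}
    (ha : a ∈ Ideal.map (algebraMap V R) (maximalIdeal V)) :
    ∃ μ ∈ maximalIdeal V, ∃ r : R, a = algebraMap V R μ * r := by
  unfold Ideal.map at ha
  induction ha using Submodule.span_induction with
  | mem x hx =>
    obtain ⟨μ, hμ, rfl⟩ := hx
    exact ⟨μ, hμ, 1, (mul_one _).symm⟩
  | zero => exact ⟨0, Ideal.zero_mem _, 0, by simp⟩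
  | add x y _ _ hx hy =>
    obtain ⟨μ, hμ, r, rfl⟩ := hx
    obtain ⟨ν, hν, r', rfl⟩ := hy
    rcases ValuationRing.dvd_total μ ν with ⟨w, rfl⟩ | ⟨w, rfl⟩
    · exact ⟨μ, hμ, r + algebraMap V R w * r', by rw [map_mul]; ring⟩
    · exact ⟨ν, hν, algebraMap V R w * r + r', by rw [map_mul]; ring⟩
  | smul c x _ hx =>
    obtain ⟨μ, hμ, r, rfl⟩ := hx
    exact ⟨μ, hμ, c * r, by rw [smul_eq_mul]; ring⟩

/-- **Nakayama in rank one.** -/
theorem subsingleton_of_rankOne {V R Q : Type*} [CommRing V] [IsDomain V] [ValuationRing V]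
    [CommRing R] [Algebra V R] [AddCommGroup Q] [Module R Q] [Module.Finite R Q]
    (v : V) (hv : ∀ q : Q, algebraMap V R v • q = 0)
    (hrk : ∀ μ ∈ maximalIdeal V, ∃ n : ℕ, v ∣ μ ^ n)
    (hQ : (⊤ : Submodule R Q) ≤ (Ideal.map (algebraMap V R) (maximalIdeal V)) • ⊤) :
    Subsingleton Q := by
  obtain ⟨r, hr, hrq⟩ := Submodule.exists_sub_one_mem_and_smul_eq_zero_of_fg_of_le_smul
    (Ideal.map (algebraMap V R) (maximalIdeal V)) (⊤ : Submodule R Q) Module.Finite.fg_top hQ
  have ha : 1 - r ∈ Ideal.map (algebraMap V R) (maximalIdeal V) := by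
    have := Ideal.neg_mem_iff _ |>.mpr hr
    rwa [neg_sub] at this
  obtain ⟨μ, hμ, r', hμr⟩ := exists_eq_mul_of_mem_map ha
  obtain ⟨n, w, hw⟩ := hrk μ hμ
  -- every `q` satisfies `q = a • q` with `a = 1 - r`
  have h1 : ∀ q : Q, (1 - r) • q = q := by
    intro q
    rw [sub_smul, one_smul, hrq q Submodule.mem_top, sub_zero]
  have h2 : ∀ (m : ℕ) (q : Q), (1 - r) ^ m • q = q := by
    intro m
    induction m with
    | zero => intro q; rw [pow_zero, one_smul]
    | succ m ih => intro q; rw [pow_succ, mul_smul, h1, ih]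
  refine ⟨fun q q' => ?_⟩
  have h3 : ∀ q : Q, q = 0 := by
    intro q
    rw [← h2 n q, hμr, mul_pow, ← map_pow, hw, map_mul, mul_assoc, mul_smul, hv]
  rw [h3 q, h3 q']

end Fermat.Agent.FFJ.Val.NakRank1
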