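/-
Programme FFJ (S19), chapter VAL.  Owner: helper1.

Chart-level lemmas for a valuation subring `V ⊆ Ω` over a base ring `O` and an `O`-algebra `A`
(a chart ring of the curve): the ring maps
  `φΩ : V ⊗[O] A → Ω ⊗[O] A`   (generic fibre)   and   `φκ : V ⊗[O] A → κ(V) ⊗[O] A`   (special fibre)
and the main chart lemma `span_eq_top_of_fibres`: an element `τ` of a finitely generated flat module `M`
over `V ⊗[O] A` which generates the base changes of `M` to the generic AND the special fibre generates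
`M`, provided `V` has rank one in the sense `hrk`.
-/
import Mathlib
import Fermat.Agent.FFJ.Val.BcLemmas1
import Fermat.Agent.FFJ.Val.NakRank1
import Fermat.Agent.JAC.Hilb.NoZeroInfBricks46

set_option autoImplicit false
set_option linter.style.haveILetI false
set_option linter.unusedSectionVars false

open TensorProduct IsLocalRing

universe u

noncomputable section

namespace Fermat.Agent.FFJ.Val.ValFamily1

open Fermat.Agent.JAC.Core.Cart36 Fermat.Agent.JAC.Grp.Cart33 Fermat.Agent.FFJ.Val.BcLemmas1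

variable (O : Type u) [CommRing O] {Ω : Type u} [Field Ω] [Algebra O Ω] (V : ValuationSubring Ω)
  [Algebra O V] [IsScalarTower O V Ω] (A : Type u) [CommRing A] [Algebra O A]

/-- The inclusion `V → Ω` as an `O`-algebra map. -/
abbrev ιV : V →ₐ[O] Ω := IsScalarTower.toAlgHom O V Ω

/-- The residue map `V → κ(V)` as an `O`-algebra map. -/
abbrev ρV : V →ₐ[O] ResidueField V := IsScalarTower.toAlgHom O V (ResidueField V)

/-- `V ⊗[O] A → Ω ⊗[O] A`. -/
abbrev φΩ : V ⊗[O] A →+* Ω ⊗[O] A :=
  (Algebra.TensorProduct.map (ιV O V) (AlgHom.id O A)).toRingHom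

/-- `V ⊗[O] A → κ(V) ⊗[O] A`. -/
abbrev φκ : V ⊗[O] A →+* ResidueField V ⊗[O] A :=
  (Algebra.TensorProduct.map (ρV O V) (AlgHom.id O A)).toRingHom

theorem φΩ_tmul (v : V) (a : A) : φΩ O V A (v ⊗ₜ a) = (v : Ω) ⊗ₜ a := rfl

theorem φΩ_algebraMap (v : V) :
    φΩ O V A (algebraMap V (V ⊗[O] A) v) = algebraMap Ω (Ω ⊗[O] A) (v : Ω) := by
  rw [Algebra.TensorProduct.algebraMap_apply, Algebra.TensorProduct.algebraMap_apply]
  rfl

theorem φΩ_injective [Module.Flat O A] : Function.Injective (φΩ O V A) := by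
  have h1 := Module.Flat.rTensor_preserves_injective_linearMap (M := A) (ιV O V).toLinearMap (by
    intro x y hxy
    exact Subtype.ext hxy)
  intro x y hxy
  exact h1 hxy

theorem φκ_surjective : Function.Surjective (φκ O V A) := by
  have h : Function.Surjective (ρV O V) := IsLocalRing.residue_surjective
  exact Algebra.TensorProduct.map_surjective (ρV O V) (AlgHom.id O A) h Function.surjective_id

theorem ker_ρV : RingHom.ker (ρV O V) = maximalIdeal V := by
  ext x
  rw [RingHom.mem_ker]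
  exact IsLocalRing.residue_eq_zero_iff x

theorem ker_φκ :
    RingHom.ker (φκ O V A) = Ideal.map (algebraMap V (V ⊗[O] A)) (maximalIdeal V) := by
  have h : Function.Surjective (ρV O V) := IsLocalRing.residue_surjective
  have h1 := Algebra.TensorProduct.rTensor_ker (R := O) (S := O) (C := A) (ρV O V) h
  rw [ker_ρV] at h1
  exact h1

/-- `(v ⊗ 1)` is a unit of `Ω ⊗[O] A` for `v ≠ 0`. -/
theorem isUnit_algebraMap {v : V} (hv : v ≠ 0) : IsUnit (algebraMap Ω (Ω ⊗[O] A) (v : Ω)) := by
  have : (v : Ω) ≠ 0 := fun h => hv (Subtype.ext h)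
  exact (IsUnit.mk0 _ this).map _

/-- **Denominators**: every element of `Ω ⊗[O] A` becomes integral after multiplication by a
nonzero element of `V`. -/
theorem exists_denominator (r' : Ω ⊗[O] A) :
    ∃ v : V, v ≠ 0 ∧ ∃ r : V ⊗[O] A, φΩ O V A r = algebraMap Ω (Ω ⊗[O] A) (v : Ω) * r' := by
  induction r' using TensorProduct.induction_on with
  | zero => exact ⟨1, one_ne_zero, 0, by simp⟩
  | tmul w a =>
    rcases V.mem_or_inv_mem w with hw | hw
    · refine ⟨1, one_ne_zero, (⟨w, hw⟩ : V) ⊗ₜ a, ?_⟩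
      rw [φΩ_tmul, OneMemClass.coe_one, map_one, one_mul]
    · by_cases hw0 : w = 0
      · refine ⟨1, one_ne_zero, 0, ?_⟩
        rw [hw0, zero_tmul, mul_zero, map_zero]
      · refine ⟨⟨w⁻¹, hw⟩, fun h => inv_ne_zero hw0 (congrArg Subtype.val h), (1 : V) ⊗ₜ a, ?_⟩
        rw [φΩ_tmul, Algebra.TensorProduct.algebraMap_apply, Algebra.TensorProduct.tmul_mul_tmul,
          one_mul, OneMemClass.coe_one]
        simp [inv_mul_cancel₀ hw0]
  | add x y hx hy =>
    obtain ⟨v, hv, r, hr⟩ := hx
    obtain ⟨v', hv', r'', hr'⟩ := hy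
    refine ⟨v * v', mul_ne_zero hv hv',
      algebraMap V (V ⊗[O] A) v' * r + algebraMap V (V ⊗[O] A) v * r'', ?_⟩
    rw [map_add, map_mul, map_mul, hr, hr', φΩ_algebraMap, φΩ_algebraMap, MulMemClass.coe_mul,
      map_mul]
    ring

section Modules

variable {O V A}
variable {M : Type u} [AddCommGroup M] [Module (V ⊗[O] A) M]

/-- **Denominators for modules.** -/
theorem exists_denominator_module {M' : Type u} [AddCommGroup M'] [Module (Ω ⊗[O] A) M']
    {θ : M →ₛₗ[φΩ O V A] M'} (h : IsBaseChangeHom θ) (z : M') :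
    ∃ v : V, v ≠ 0 ∧ ∃ x : M, θ x = algebraMap Ω (Ω ⊗[O] A) (v : Ω) • z := by
  have hz : z ∈ Submodule.span (Ω ⊗[O] A) (Set.range θ) := by
    rw [Fermat.Agent.JAC.Hilb.NoZeroInfBricks46.span_range_eq_top_of_isBaseChangeHom h]
    exact Submodule.mem_top
  induction hz using Submodule.span_induction with
  | mem z hz =>
    obtain ⟨x, rfl⟩ := hz
    exact ⟨1, one_ne_zero, x, by rw [OneMemClass.coe_one, map_one, one_smul]⟩
  | zero => exact ⟨1, one_ne_zero, 0, by rw [map_zero, smul_zero]⟩
  | add z z' _ _ hz hz' =>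
    obtain ⟨v, hv, x, hx⟩ := hz
    obtain ⟨v', hv', x', hx'⟩ := hz'
    refine ⟨v * v', mul_ne_zero hv hv',
      algebraMap V (V ⊗[O] A) v' • x + algebraMap V (V ⊗[O] A) v • x', ?_⟩
    rw [map_add, θ.map_smulₛₗ, θ.map_smulₛₗ, hx, hx', φΩ_algebraMap, φΩ_algebraMap,
      MulMemClass.coe_mul, map_mul, smul_add, ← mul_smul, ← mul_smul, mul_comm]
  | smul r' z _ hz =>
    obtain ⟨v, hv, x, hx⟩ := hz
    obtain ⟨v', hv', r, hr⟩ := exists_denominator O V A r'
    refine ⟨v' * v, mul_ne_zero hv' hv, r • x, ?_⟩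
    rw [θ.map_smulₛₗ, hx, hr, MulMemClass.coe_mul, map_mul, ← mul_smul, ← mul_smul]
    congr 1
    ring

variable [Module V M] [IsScalarTower V (V ⊗[O] A) M]

/-- Passing from the extended ideal to the ideal of `V`. -/
theorem mem_smul_top_of_mem_map_smul_top (I : Ideal V) {x : M}
    (hx : x ∈ (Ideal.map (algebraMap V (V ⊗[O] A)) I) • (⊤ : Submodule (V ⊗[O] A) M)) :
    x ∈ I • (⊤ : Submodule V M) := by
  have key : ∀ r ∈ Ideal.map (algebraMap V (V ⊗[O] A)) I, ∀ m : M,
      r • m ∈ I • (⊤ : Submodule V M) := by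
    intro r hr
    unfold Ideal.map at hr
    induction hr using Submodule.span_induction with
    | mem r hr =>
      intro m
      obtain ⟨μ, hμ, rfl⟩ := hr
      rw [algebraMap_smul]
      exact Submodule.smul_mem_smul hμ Submodule.mem_top
    | zero => intro m; rw [zero_smul]; exact Submodule.zero_mem _
    | add r r' _ _ h h' => intro m; rw [add_smul]; exact Submodule.add_mem _ (h m) (h' m)
    | smul c r _ h =>
      intro m
      rw [smul_eq_mul, mul_comm, mul_smul]
      exact h (c • m)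
  refine Submodule.smul_induction_on hx (fun r hr m _ => key r hr m) ?_
  intro x y hx hy
  exact Submodule.add_mem _ hx hy

end Modules


section ChartLemma

variable {O V A}

/-- **Chart lemma.**  An element of a finitely generated flat module over `V ⊗[O] A` which generates
on the generic fibre and on the special fibre generates, if `V` has rank one. -/
theorem span_eq_top_of_fibres [Module.Flat O A]
    {M MΩ Mκ : Type u} [AddCommGroup M] [Module (V ⊗[O] A) M] [Module.Finite (V ⊗[O] A) M]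
    [Module.Flat (V ⊗[O] A) M]
    [AddCommGroup MΩ] [Module (Ω ⊗[O] A) MΩ] [AddCommGroup Mκ]
    [Module (ResidueField V ⊗[O] A) Mκ]
    {θΩ : M →ₛₗ[φΩ O V A] MΩ} (hΩ : IsBaseChangeHom θΩ)
    {θκ : M →ₛₗ[φκ O V A] Mκ} (hκ : IsBaseChangeHom θκ)
    (hrk : ∀ v : V, v ≠ 0 → ∀ μ ∈ maximalIdeal V, ∃ n : ℕ, v ∣ μ ^ n)
    (τ : M) (hτΩ : Submodule.span (Ω ⊗[O] A) {θΩ τ} = ⊤)
    (hτκ : Submodule.span (ResidueField V ⊗[O] A) {θκ τ} = ⊤) :
    Submodule.span (V ⊗[O] A) {τ} = ⊤ := by
  classical
  have hinj : Function.Injective θΩ := injective_of_flat hΩ (φΩ_injective O V A)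
  -- a denominator for every element
  have hden : ∀ x : M, ∃ v : V, v ≠ 0 ∧
      algebraMap V (V ⊗[O] A) v • x ∈ Submodule.span (V ⊗[O] A) {τ} := by
    intro x
    have hx : θΩ x ∈ Submodule.span (Ω ⊗[O] A) {θΩ τ} := by rw [hτΩ]; exact Submodule.mem_top
    obtain ⟨r', hr'⟩ := Submodule.mem_span_singleton.mp hx
    obtain ⟨v, hv, r, hr⟩ := exists_denominator O V A r'
    refine ⟨v, hv, ?_⟩
    have : algebraMap V (V ⊗[O] A) v • x = r • τ := by
      apply hinj
      rw [θΩ.map_smulₛₗ, θΩ.map_smulₛₗ, φΩ_algebraMap, hr, ← hr', mul_smul]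
    rw [this]
    exact Submodule.smul_mem _ _ (Submodule.mem_span_singleton_self τ)
  -- a uniform denominator
  obtain ⟨S, hS⟩ := (Module.Finite.fg_top : (⊤ : Submodule (V ⊗[O] A) M).FG)
  choose vf hvf0 hvf using hden
  have hv0 : (∏ x ∈ S, vf x) ≠ 0 := Finset.prod_ne_zero_iff.mpr (fun x _ => hvf0 x)
  have hvS : ∀ x : M, algebraMap V (V ⊗[O] A) (∏ x ∈ S, vf x) • x ∈
      Submodule.span (V ⊗[O] A) {τ} := by
    intro x
    have hx : x ∈ Submodule.span (V ⊗[O] A) (S : Set M) := by rw [hS]; exact Submodule.mem_top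
    induction hx using Submodule.span_induction with
    | mem x hx =>
      rw [← Finset.mul_prod_erase S vf hx, map_mul, mul_comm, mul_smul]
      exact Submodule.smul_mem _ _ (hvf x)
    | zero => rw [smul_zero]; exact Submodule.zero_mem _
    | add x y _ _ hx hy => rw [smul_add]; exact Submodule.add_mem _ hx hy
    | smul c x _ hx => rw [smul_comm]; exact Submodule.smul_mem _ _ hx
  -- the quotient vanishes
  have hQ : Subsingleton (M ⧸ Submodule.span (V ⊗[O] A) {τ}) := by
    refine Fermat.Agent.FFJ.Val.NakRank1.subsingleton_of_rankOne (V := V) (R := V ⊗[O] A)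
      (∏ x ∈ S, vf x) ?_ (hrk _ hv0) ?_
    · intro q
      obtain ⟨x, rfl⟩ := Submodule.Quotient.mk_surjective _ q
      rw [← Submodule.Quotient.mk_smul, Submodule.Quotient.mk_eq_zero]
      exact hvS x
    · intro q _
      obtain ⟨x, rfl⟩ := Submodule.Quotient.mk_surjective _ q
      obtain ⟨r, hr⟩ := exists_smul_sub_mem hκ (φκ_surjective O V A) τ hτκ x
      rw [ker_φκ] at hr
      have h1 : (Submodule.Quotient.mk x : M ⧸ Submodule.span (V ⊗[O] A) {τ}) =
          Submodule.Quotient.mk (x - r • τ) := by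
        rw [Submodule.Quotient.mk_sub, Submodule.Quotient.mk_smul,
          (Submodule.Quotient.mk_eq_zero _).mpr (Submodule.mem_span_singleton_self τ),
          smul_zero, sub_zero]
      rw [h1]
      have h2 := Submodule.mem_map_of_mem (f := (Submodule.span (V ⊗[O] A) {τ}).mkQ) hr
      rw [Submodule.map_smul''] at h2
      exact Submodule.smul_mono le_rfl le_top h2
  exact Submodule.Quotient.subsingleton_iff.mp hQ

end ChartLemma

end Fermat.Agent.FFJ.Val.ValFamily1

end
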