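/-
Programme FFJ (S19), chapter VAL.  Owner: helper1.

**ValInj** (`Spec35.ValInj`): a rigid class of degree zero over a valuation subring `V ⊆ Ω` of rank one
is determined by its generic fibre.

Proof: reduce to `ξ' = 1` (group structure, `PicZeroGrp1`).  Let `N` be a line diagram over `V` with
trivial generic fibre.  A generator of the generic fibre gives, after clearing denominators, a section
`(σ0, σ1)` of `N`; writing it `c • (τ0, τ1)` with `(τ0, τ1)` primitive (`Primitive1`), the section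
`(τ0, τ1)` does not vanish on the special fibre; as the special fibre has degree zero it is generated
by it (`SectionGen1`), and so is the generic fibre; the chart lemma `ValFamily1.span_eq_top_of_fibres`
(Nakayama in rank one) then shows that `τ0`, `τ1` generate `N`, which is therefore trivial
(`TrivOfGen1`).
-/
import Fermat.Agent.FFJ.Spec.Spec35
import Fermat.Agent.FFJ.Core.DegFamilyR65
import Fermat.Agent.FFJ.Val.FibreR1
import Fermat.Agent.FFJ.Val.PicZeroGrp1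
import Fermat.Agent.FFJ.Val.SectionGen1
import Fermat.Agent.FFJ.Val.TrivOfGen1
import Fermat.Agent.FFJ.Val.Primitive1
import Fermat.Agent.FFJ.Val.ValFamily1
import Fermat.Agent.FFJ.Val.RankOne87
import Fermat.Agent.JAC.Frame.PolyChart65

set_option autoImplicit false
set_option linter.style.haveILetI false
set_option linter.unusedSectionVars false

noncomputable section

namespace Fermat.Agent.FFJ.Val.ValInj1

open scoped TensorProduct
open scoped Fermat.Agent.JAC.Core.ConstFamily36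
open IsLocalRing
open Fermat.Agent.JAC.Core.Defs36 Fermat.Agent.JAC.Core.Cart36 Fermat.Agent.JAC.Grp.Diag33
  Fermat.Agent.JAC.Grp.Cart33 Fermat.Agent.JAC.Core.ConstFamily36
  Fermat.Agent.JAC.Core.Degree36 Fermat.Agent.FFJ.Core.ClR35 Fermat.Agent.FFJ.Core.ClRBc35
  Fermat.Agent.FFJ.Spec.Spec35 Fermat.Agent.FFJ.Val.BcLemmas1 Fermat.Agent.FFJ.Val.ValFamily1

/-! ### Preliminaries -/

/-- Coordinates over `k[X]` give freeness over `k`. -/
theorem free_of_coords {k A : Type*} [CommRing k] [CommRing A] [Algebra k A] (a : A) {n : ℕ}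
    (b : Fin n → A)
    (hb : Function.Bijective
      (fun p : Fin n → Polynomial k => ∑ j, Polynomial.aeval a (p j) * b j)) :
    Module.Free k A := by
  have hb' : Function.Bijective (Fermat.Agent.JAC.Frame.PolyChart65.coordMap (B := k) a b) := by
    convert hb using 1
    funext p
    exact Fermat.Agent.JAC.Frame.PolyChart65.coordMap_apply a b p
  exact Module.Free.of_equiv (LinearEquiv.ofBijective _ hb')

variable {O : Type} [CommRing O] {A0 A1 A01 : Type} [CommRing A0] [CommRing A1] [CommRing A01]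
  [Algebra O A0] [Algebra O A1] [Algebra O A01] [Algebra A0 A01] [Algebra A1 A01]
  [IsScalarTower O A0 A01] [IsScalarTower O A1 A01] {t : A0} {s : A1}
  [IsLocalization.Away t A01] [IsLocalization.Away s A01]

theorem free0 (H : CurveHypR O A0 A1 A01 t s) : Module.Free O A0 := by
  obtain ⟨n, a, ha⟩ := H.free0
  exact free_of_coords t a ha

theorem free1 (H : CurveHypR O A0 A1 A01 t s) : Module.Free O A1 := by
  obtain ⟨n, a, ha⟩ := H.free1
  exact free_of_coords s a ha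

theorem flat01 (H : CurveHypR O A0 A1 A01 t s) : Module.Flat O A01 := by
  have := free0 H
  have : Module.Flat A0 A01 := IsLocalization.flat A01 (Submonoid.powers t)
  exact Module.Flat.trans O A0 A01

variable {Ω : Type} [Field Ω] [Algebra O Ω] (V : ValuationSubring Ω) [Algebra O V]
  [IsScalarTower O V Ω]

/-! ### A section of `N` from a trivialisation of the generic fibre -/

/-- If the generic fibre `NΩ` of `N` is trivial, `N` has a nonzero global section. -/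
theorem exists_section (H : CurveHypR O A0 A1 A01 t s)
    (N : LineDiag ((1 : V) ⊗ₜ[O] t) ((1 : V) ⊗ₜ[O] s) (V ⊗[O] A01))
    (NΩ : LineDiag ((1 : Ω) ⊗ₜ[O] t) ((1 : Ω) ⊗ₜ[O] s) (Ω ⊗[O] A01))
    (cΩ : LineDiag.CartHom (familyHom (ιV O V) t s) N NΩ) (hΩ : cls NΩ = 1) :
    ∃ (σ0 : N.M0) (σ1 : N.M1), N.rho0 σ0 = N.rho1 σ1 ∧ σ0 ≠ 0 := by
  have hfl01 := flat01 H
  have hfr0 := free0 H
  -- the trivialisation
  rw [cls_one, eq_comm, cls_eq_iff] at hΩ
  obtain ⟨ε⟩ := hΩ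
  have hdom : IsDomain (Ω ⊗[O] A0) := (H.dedekind0 Ω).toIsDomain
  set ω0 : NΩ.M0 := ε.e0 (1 : Ω ⊗[O] A0) with hω0
  set ω1 : NΩ.M1 := ε.e1 (1 : Ω ⊗[O] A1) with hω1
  have hω : NΩ.rho0 ω0 = NΩ.rho1 ω1 := by
    have h0 := ε.comm0 (1 : Ω ⊗[O] A0)
    have h1 := ε.comm1 (1 : Ω ⊗[O] A1)
    have e0 : (LineDiag.unit ((1 : Ω) ⊗ₜ[O] t) ((1 : Ω) ⊗ₜ[O] s) (Ω ⊗[O] A01)).rho0
        (1 : Ω ⊗[O] A0) = (1 : Ω ⊗[O] A01) := map_one (algebraMap (Ω ⊗[O] A0) (Ω ⊗[O] A01))
    have e1 : (LineDiag.unit ((1 : Ω) ⊗ₜ[O] t) ((1 : Ω) ⊗ₜ[O] s) (Ω ⊗[O] A01)).rho1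
        (1 : Ω ⊗[O] A1) = (1 : Ω ⊗[O] A01) := map_one (algebraMap (Ω ⊗[O] A1) (Ω ⊗[O] A01))
    rw [e0] at h0
    rw [e1] at h1
    exact h0.symm.trans h1
  have hω0ne : ω0 ≠ 0 := by
    intro h
    have : (1 : Ω ⊗[O] A0) = 0 := ε.e0.injective (h.trans (map_zero _).symm)
    exact one_ne_zero this
  -- denominators
  obtain ⟨v0, hv0, x0, hx0⟩ := exists_denominator_module (O := O) (V := V) (A := A0) cΩ.cart0 ω0
  obtain ⟨v1, hv1, x1, hx1⟩ := exists_denominator_module (O := O) (V := V) (A := A1) cΩ.cart1 ω1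
  have hx0' : cΩ.f0 x0 = algebraMap Ω (Ω ⊗[O] A0) (v0 : Ω) • ω0 := hx0
  have hx1' : cΩ.f1 x1 = algebraMap Ω (Ω ⊗[O] A1) (v1 : Ω) • ω1 := hx1
  have e0 : (familyHom (A01 := A01) (ιV O V) t s).ψ0 (algebraMap V (V ⊗[O] A0) v1) =
      algebraMap Ω (Ω ⊗[O] A0) (v1 : Ω) := φΩ_algebraMap O V A0 v1
  have e1 : (familyHom (A01 := A01) (ιV O V) t s).ψ1 (algebraMap V (V ⊗[O] A1) v0) =
      algebraMap Ω (Ω ⊗[O] A1) (v0 : Ω) := φΩ_algebraMap O V A1 v0
  have h0 : cΩ.f0 (algebraMap V (V ⊗[O] A0) v1 • x0) =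
      algebraMap Ω (Ω ⊗[O] A0) ((v1 : Ω) * (v0 : Ω)) • ω0 := by
    rw [cΩ.f0.map_smulₛₗ, hx0', e0, ← mul_smul, ← map_mul]
  have h1 : cΩ.f1 (algebraMap V (V ⊗[O] A1) v0 • x1) =
      algebraMap Ω (Ω ⊗[O] A1) ((v1 : Ω) * (v0 : Ω)) • ω1 := by
    rw [cΩ.f1.map_smulₛₗ, hx1', e1, ← mul_smul, ← map_mul, mul_comm]
  refine ⟨algebraMap V (V ⊗[O] A0) v1 • x0, algebraMap V (V ⊗[O] A1) v0 • x1, ?_, ?_⟩
  · -- compare in the generic fibre
    have hinj : Function.Injective cΩ.f01 :=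
      injective_of_flat cΩ.cart01 (φΩ_injective O V A01)
    apply hinj
    rw [cΩ.comm0, cΩ.comm1, h0, h1, map_smul, map_smul, hω,
      ← algebraMap_smul (Ω ⊗[O] A01) (algebraMap Ω (Ω ⊗[O] A0) ((v1 : Ω) * (v0 : Ω))),
      ← algebraMap_smul (Ω ⊗[O] A01) (algebraMap Ω (Ω ⊗[O] A1) ((v1 : Ω) * (v0 : Ω))),
      ← IsScalarTower.algebraMap_apply, ← IsScalarTower.algebraMap_apply]
  · intro h
    have h2 : cΩ.f0 (algebraMap V (V ⊗[O] A0) v1 • x0) = 0 := by rw [h, map_zero]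
    rw [h0] at h2
    have hu : IsUnit (algebraMap Ω (Ω ⊗[O] A0) ((v1 : Ω) * (v0 : Ω))) := by
      have : ((v1 * v0 : V) : Ω) = (v1 : Ω) * (v0 : Ω) := rfl
      rw [← this]
      exact isUnit_algebraMap O V A0 (mul_ne_zero hv1 hv0)
    exact hω0ne ((hu.smul_eq_zero).mp h2)


/-! ### A primitive section -/

/-- If the generic fibre of `N` is trivial, `N` has a global section which does not vanish on the
special fibre. -/
theorem exists_primitive_section (H : CurveHypR O A0 A1 A01 t s)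
    (N : LineDiag ((1 : V) ⊗ₜ[O] t) ((1 : V) ⊗ₜ[O] s) (V ⊗[O] A01))
    (NΩ : LineDiag ((1 : Ω) ⊗ₜ[O] t) ((1 : Ω) ⊗ₜ[O] s) (Ω ⊗[O] A01))
    (cΩ : LineDiag.CartHom (familyHom (ιV O V) t s) N NΩ) (hΩ : cls NΩ = 1)
    (Nκ : LineDiag ((1 : ResidueField V) ⊗ₜ[O] t) ((1 : ResidueField V) ⊗ₜ[O] s)
      (ResidueField V ⊗[O] A01))
    (cκ : LineDiag.CartHom (familyHom (ρV O V) t s) N Nκ) :
    ∃ (τ0 : N.M0) (τ1 : N.M1), N.rho0 τ0 = N.rho1 τ1 ∧ (τ0 ≠ 0 ∨ τ1 ≠ 0) ∧
      (cκ.f0 τ0 ≠ 0 ∨ cκ.f1 τ1 ≠ 0) := by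
  obtain ⟨σ0, σ1, hσ, hσ0⟩ := exists_section V H N NΩ cΩ hΩ
  have hfl01 := flat01 H
  have hfr0 := free0 H
  have hfr1 := free1 H
  letI : Module V N.M0 := Module.compHom N.M0 (algebraMap V (V ⊗[O] A0))
  haveI : IsScalarTower V (V ⊗[O] A0) N.M0 := IsScalarTower.of_algebraMap_smul fun _ _ => rfl
  letI : Module V N.M1 := Module.compHom N.M1 (algebraMap V (V ⊗[O] A1))
  haveI : IsScalarTower V (V ⊗[O] A1) N.M1 := IsScalarTower.of_algebraMap_smul fun _ _ => rfl
  haveI : Module.Projective V N.M0 :=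
    Fermat.Agent.FFJ.Val.Primitive1.projective_of_free_of_projective V (V ⊗[O] A0) N.M0
  haveI : Module.Projective V N.M1 :=
    Fermat.Agent.FFJ.Val.Primitive1.projective_of_free_of_projective V (V ⊗[O] A1) N.M1
  obtain ⟨c, τ, hc, hτ, hprim⟩ := Fermat.Agent.FFJ.Val.Primitive1.exists_primitive (V := V)
    (P := N.M0 × N.M1) (σ0, σ1) (fun h => hσ0 (congrArg Prod.fst h))
  have h0 : σ0 = algebraMap V (V ⊗[O] A0) c • τ.1 := congrArg Prod.fst hτ
  have h1 : σ1 = algebraMap V (V ⊗[O] A1) c • τ.2 := congrArg Prod.snd hτ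
  refine ⟨τ.1, τ.2, ?_, ?_, ?_⟩
  · have hinj : Function.Injective cΩ.f01 :=
      injective_of_flat cΩ.cart01 (φΩ_injective O V A01)
    apply hinj
    have r0 : N.rho0 σ0 = algebraMap V (V ⊗[O] A01) c • N.rho0 τ.1 := by
      rw [h0, N.rho0.map_smul,
        ← algebraMap_smul (V ⊗[O] A01) (algebraMap V (V ⊗[O] A0) c) (N.rho0 τ.1),
        ← IsScalarTower.algebraMap_apply]
    have r1 : N.rho1 σ1 = algebraMap V (V ⊗[O] A01) c • N.rho1 τ.2 := by
      rw [h1, N.rho1.map_smul,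
        ← algebraMap_smul (V ⊗[O] A01) (algebraMap V (V ⊗[O] A1) c) (N.rho1 τ.2),
        ← IsScalarTower.algebraMap_apply]
    have key := congrArg cΩ.f01 hσ
    rw [r0, r1, cΩ.f01.map_smulₛₗ, cΩ.f01.map_smulₛₗ] at key
    have e01 : (familyHom (A01 := A01) (ιV O V) t s).ψ01 (algebraMap V (V ⊗[O] A01) c) =
        algebraMap Ω (Ω ⊗[O] A01) (c : Ω) := φΩ_algebraMap O V A01 c
    rw [e01] at key
    exact (isUnit_algebraMap O V A01 hc).smul_left_cancel.mp key
  · by_contra h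
    push Not at h
    apply hprim
    have : τ = 0 := Prod.ext h.1 h.2
    rw [this]
    exact Submodule.zero_mem _
  · by_contra h
    push Not at h
    apply hprim
    have m0 : τ.1 ∈ (maximalIdeal V) • (⊤ : Submodule V N.M0) := by
      have h2 := mem_ker_smul_top cκ.cart0 (φκ_surjective O V A0) h.1
      have e : RingHom.ker (familyHom (A01 := A01) (ρV O V) t s).ψ0 =
        Ideal.map (algebraMap V (V ⊗[O] A0)) (maximalIdeal V) := ker_φκ O V A0
      rw [e] at h2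
      exact mem_smul_top_of_mem_map_smul_top (maximalIdeal V) h2
    have m1 : τ.2 ∈ (maximalIdeal V) • (⊤ : Submodule V N.M1) := by
      have h2 := mem_ker_smul_top cκ.cart1 (φκ_surjective O V A1) h.2
      have e : RingHom.ker (familyHom (A01 := A01) (ρV O V) t s).ψ1 =
        Ideal.map (algebraMap V (V ⊗[O] A1)) (maximalIdeal V) := ker_φκ O V A1
      rw [e] at h2
      exact mem_smul_top_of_mem_map_smul_top (maximalIdeal V) h2
    have hτ' : τ = LinearMap.inl V N.M0 N.M1 τ.1 + LinearMap.inr V N.M0 N.M1 τ.2 := by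
      ext <;> simp
    rw [hτ']
    refine Submodule.add_mem _ ?_ ?_
    · have := Submodule.mem_map_of_mem (f := LinearMap.inl V N.M0 N.M1) m0
      rw [Submodule.map_smul''] at this
      exact Submodule.smul_mono le_rfl le_top this
    · have := Submodule.mem_map_of_mem (f := LinearMap.inr V N.M0 N.M1) m1
      rw [Submodule.map_smul''] at this
      exact Submodule.smul_mono le_rfl le_top this


/-! ### The key lemma and `ValInj` -/

/-- **Key lemma**: a line diagram over a valuation ring `V` of rank one, of degree zero on the fibres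
and with trivial generic fibre, is trivial. -/
theorem cls_eq_one_of_generic (H : CurveHypR O A0 A1 A01 t s)
    (hrk : ∀ v : V, v ≠ 0 → ∀ μ ∈ maximalIdeal V, ∃ n : ℕ, v ∣ μ ^ n)
    (N : LineDiag ((1 : V) ⊗ₜ[O] t) ((1 : V) ⊗ₜ[O] s) (V ⊗[O] A01))
    (hdeg : IsDegZeroR V (cls N)) (hgen : bcR (ιV O V) (cls N) = 1) : cls N = 1 := by
  have hfl01 := flat01 H
  have hfr0 := free0 H
  have hfr1 := free1 H
  obtain ⟨n0, a0, ha0⟩ := H.free0
  obtain ⟨n1, a1, ha1⟩ := H.free1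
  -- the two fibres
  have hΩ : cls (baseChange (familyHom (ιV O V) t s) N) = 1 := by
    rw [← bcR_cls]; exact hgen
  obtain ⟨τ0, τ1, hτ, hne, hneκ⟩ := exists_primitive_section V H N
    (baseChange (familyHom (ιV O V) t s) N) (cartHomBaseChange (familyHom (ιV O V) t s) N) hΩ
    (baseChange (familyHom (ρV O V) t s) N) (cartHomBaseChange (familyHom (ρV O V) t s) N)
  set NΩ := baseChange (familyHom (ιV O V) t s) N with hNΩ
  set cΩ := cartHomBaseChange (familyHom (ιV O V) t s) N with hcΩ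
  set Nκ := baseChange (familyHom (ρV O V) t s) N with hNκ
  set cκ := cartHomBaseChange (familyHom (ρV O V) t s) N with hcκ
  -- the special fibre
  have hκgen : Submodule.span (ResidueField V ⊗[O] A0) {cκ.f0 τ0} = ⊤ ∧
      Submodule.span (ResidueField V ⊗[O] A1) {cκ.f1 τ1} = ⊤ := by
    have hdegκ : degClass (ResidueField V) (cls Nκ) = 0 := by
      rw [hNκ, ← bcR_cls]
      exact (Fermat.Agent.FFJ.Core.DegFamilyR65.isDegZeroR_field_iff H.ts a0 ha0 a1 ha1 _).mp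
        (isDegZeroR_bcR (ρV O V) _ hdeg)
    haveI := H.dedekind0 (ResidueField V)
    haveI := H.dedekind1 (ResidueField V)
    haveI := H.dedekind01 (ResidueField V)
    haveI := Fermat.Agent.FFJ.Val.FibreR1.isFractionRing₀ (k := O) (A01 := A01) t (ResidueField V)
    haveI := Fermat.Agent.FFJ.Val.FibreR1.isFractionRing₁ (k := O) (A01 := A01) s (ResidueField V)
    obtain ⟨T, -⟩ := Fermat.Agent.FFJ.Val.FibreR1.exists_twoChart t s (ResidueField V) H.ts ha0 ha1
    exact Fermat.Agent.FFJ.Val.SectionGen1.span_eq_top_of_degClass_eq_zero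
      (Fermat.Agent.FFJ.Val.FibreR1.isSettingR t s (ResidueField V) H.ts ha0 ha1) T Nκ hdegκ
      (cκ.f0 τ0) (cκ.f1 τ1) (by rw [← cκ.comm0, ← cκ.comm1, hτ]) hneκ
  -- the generic fibre
  have hΩgen : Submodule.span (Ω ⊗[O] A0) {cΩ.f0 τ0} = ⊤ ∧
      Submodule.span (Ω ⊗[O] A1) {cΩ.f1 τ1} = ⊤ := by
    have hdegΩ : degClass Ω (cls NΩ) = 0 := by
      rw [hΩ]; exact Fermat.Agent.FFJ.Val.PicZeroGrp1.degClass_one H Ω
    have hneΩ : cΩ.f0 τ0 ≠ 0 ∨ cΩ.f1 τ1 ≠ 0 := by
      rcases hne with h | h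
      · left
        intro h0
        exact h (injective_of_flat cΩ.cart0 (φΩ_injective O V A0) (h0.trans (map_zero _).symm))
      · right
        intro h0
        exact h (injective_of_flat cΩ.cart1 (φΩ_injective O V A1) (h0.trans (map_zero _).symm))
    haveI := H.dedekind0 Ω
    haveI := H.dedekind1 Ω
    haveI := H.dedekind01 Ω
    haveI := Fermat.Agent.FFJ.Val.FibreR1.isFractionRing₀ (k := O) (A01 := A01) t Ω
    haveI := Fermat.Agent.FFJ.Val.FibreR1.isFractionRing₁ (k := O) (A01 := A01) s Ω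
    obtain ⟨T, -⟩ := Fermat.Agent.FFJ.Val.FibreR1.exists_twoChart t s Ω H.ts ha0 ha1
    exact Fermat.Agent.FFJ.Val.SectionGen1.span_eq_top_of_degClass_eq_zero
      (Fermat.Agent.FFJ.Val.FibreR1.isSettingR t s Ω H.ts ha0 ha1) T NΩ hdegΩ
      (cΩ.f0 τ0) (cΩ.f1 τ1) (by rw [← cΩ.comm0, ← cΩ.comm1, hτ]) hneΩ
  -- Nakayama on the two charts
  have g0 : Submodule.span (V ⊗[O] A0) {τ0} = ⊤ :=
    span_eq_top_of_fibres (A := A0) cΩ.cart0 cκ.cart0 hrk τ0 hΩgen.1 hκgen.1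
  have g1 : Submodule.span (V ⊗[O] A1) {τ1} = ⊤ :=
    span_eq_top_of_fibres (A := A1) cΩ.cart1 cκ.cart1 hrk τ1 hΩgen.2 hκgen.2
  exact Fermat.Agent.FFJ.Val.TrivOfGen1.cls_eq_one_of_span_eq_top N τ0 τ1 hτ g0 g1

/-- The rank-one condition on a valuation subring. -/
def RankOne (V : ValuationSubring Ω) : Prop :=
  ∀ v : V, v ≠ 0 → ∀ μ ∈ maximalIdeal V, ∃ n : ℕ, v ∣ μ ^ n

/-- **`ValInj`** for valuation subrings of rank one. -/
theorem valInj_of_rankOne (H : CurveHypR O A0 A1 A01 t s) (e : A01 →ₐ[O] O)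
    (hrk : ∀ V : ValuationSubring Ω, (∀ a : O, algebraMap O Ω a ∈ V) → RankOne V) :
    ValInj O A0 A1 A01 t s e Ω := by
  intro V _ _ ξ ξ' hξ hξ' h
  have hOV : ∀ a : O, algebraMap O Ω a ∈ V := by
    intro a
    rw [IsScalarTower.algebraMap_apply O V Ω]
    exact (algebraMap O V a).2
  have hmem : ξ * ξ'⁻¹ ∈ PicZeroR e V :=
    Fermat.Agent.FFJ.Val.PicZeroGrp1.mul_mem e H V hξ
      (Fermat.Agent.FFJ.Val.PicZeroGrp1.inv_mem e H V hξ')
  have hgen : bcR (IsScalarTower.toAlgHom O V Ω) (ξ * ξ'⁻¹) = 1 := by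
    rw [map_mul, map_inv, h, mul_inv_cancel]
  have key : ξ * ξ'⁻¹ = 1 := by
    revert hmem hgen
    generalize ξ * ξ'⁻¹ = η
    intro hmem hgen
    induction η using Quotient.inductionOn with
    | _ N => exact cls_eq_one_of_generic V H (hrk V hOV) N hmem.2 hgen
  exact mul_inv_eq_one.mp key

/-- **`ValInj`** (chapter VAL, uniqueness): `O` a discrete valuation ring embedded in a field `Ω`
algebraic over it (`Ω = ℚ̄`, `O = A ∩ K`). -/
theorem valInj (H : CurveHypR O A0 A1 A01 t s) (e : A01 →ₐ[O] O) [IsDomain O]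
    [IsDiscreteValuationRing O] [Algebra.IsAlgebraic O Ω]
    (hinj : Function.Injective (algebraMap O Ω)) : ValInj O A0 A1 A01 t s e Ω :=
  valInj_of_rankOne H e fun V hV v hv μ hμ =>
    Fermat.Agent.FFJ.Val.RankOne87.exists_dvd_pow_of_isAlgebraic hinj V hV v μ hv hμ

end Fermat.Agent.FFJ.Val.ValInj1
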