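/-
FFJ / VAL brick (VS3) `ExtendPoint` (helper87; offered by helper67 in #1453).

Valuative criterion for the two-chart curve, at the level of points:
an `Ω`-point `φ : A0 →ₐ[O] Ω` of the chart `U0` either extends to a `V`-point of `U0`
(when `φ t ∈ V`, because `A0` is integral over `O[t]` and `V` is integrally closed), or it lies on the
overlap and, seen in the chart `U1`, extends to a `V`-point of `U1` (when `φ t ∉ V`, because then
`φ` factors through `A01 = A0[1/t]` and `s ↦ (φ t)⁻¹ ∈ V`).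

Mathlib only.
-/
import Mathlib

namespace Fermat.Agent.FFJ.Val.ExtendPoint87

open Polynomial

section General

variable {O : Type*} [CommRing O] {Ω : Type*} [Field Ω] [Algebra O Ω] (V : ValuationSubring Ω)

section Integral

variable {A : Type*} [CommRing A] [Algebra O A] {t : A}

/-- The image of `O[t] = Algebra.adjoin O {t}` under `φ` lies in `V` as soon as `φ t ∈ V`. -/
theorem mem_of_mem_adjoin (hOV : ∀ c : O, algebraMap O Ω c ∈ V) (φ : A →ₐ[O] Ω) (h : φ t ∈ V)
    {x : A} (hx : x ∈ Algebra.adjoin O {t}) : φ x ∈ V := by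
  induction hx using Algebra.adjoin_induction with
  | mem y hy =>
    rw [Set.mem_singleton_iff] at hy
    rw [hy]
    exact h
  | algebraMap c =>
    rw [AlgHom.commutes]
    exact hOV c
  | add x y _ _ hx hy =>
    rw [map_add]
    exact V.add_mem _ _ hx hy
  | mul x y _ _ hx hy =>
    rw [map_mul]
    exact V.mul_mem _ _ hx hy

/-- **(VS3)(a)** If `A` is integral over `O[t]` and `φ t ∈ V`, then the whole point `φ` is
`V`-valued (`V` is integrally closed in `Ω`). -/
theorem forall_mem_of_coord_mem (hint : ∀ a : A, IsIntegral (Algebra.adjoin O {t}) a)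
    (hOV : ∀ c : O, algebraMap O Ω c ∈ V) (φ : A →ₐ[O] Ω) (h : φ t ∈ V) : ∀ a, φ a ∈ V := by
  intro a
  -- the restriction of `φ` to `O[t]`, with values in `V`
  let ψ : Algebra.adjoin O {t} →+* V :=
    ((φ : A →+* Ω).comp (Algebra.adjoin O {t}).val.toRingHom).codRestrict V.toSubring
      (fun x => mem_of_mem_adjoin V hOV φ h x.2)
  have hcomp : (algebraMap V Ω).comp ψ =
      (φ : A →+* Ω).comp (algebraMap (Algebra.adjoin O {t}) A) := by
    ext x
    rfl
  have hI : IsIntegral V (φ a) :=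
    IsIntegral.map_of_comp_eq ψ (φ : A →+* Ω) hcomp (hint a)
  obtain ⟨y, hy⟩ := IsIntegrallyClosed.algebraMap_eq_of_integral hI
  rw [← hy]
  exact y.2

/-- Coordinate-form freeness over `O[t]` (the shape of `CurveHypR.free0`; only surjectivity is
used) implies integrality over `O[t]`. -/
theorem isIntegral_adjoin_of_coords {n : ℕ} (b : Fin n → A)
    (hb : Function.Surjective (fun p : Fin n → O[X] => ∑ j, Polynomial.aeval t (p j) * b j)) :
    ∀ a : A, IsIntegral (Algebra.adjoin O {t}) a := by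
  have hspan : Submodule.span (Algebra.adjoin O {t}) (Set.range b) = ⊤ := by
    rw [eq_top_iff]
    intro a _
    obtain ⟨p, rfl⟩ := hb a
    refine Submodule.sum_mem _ (fun j _ => ?_)
    have hmem : Polynomial.aeval t (p j) ∈ Algebra.adjoin O {t} :=
      Polynomial.aeval_mem_adjoin_singleton O t
    have : Polynomial.aeval t (p j) * b j =
        (⟨Polynomial.aeval t (p j), hmem⟩ : Algebra.adjoin O {t}) • b j := rfl
    rw [this]
    exact Submodule.smul_mem _ _ (Submodule.subset_span ⟨j, rfl⟩)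
  have hfin : Module.Finite (Algebra.adjoin O {t}) A :=
    ⟨by rw [← hspan]; exact Submodule.fg_span (Set.finite_range b)⟩
  have : Algebra.IsIntegral (Algebra.adjoin O {t}) A := Algebra.IsIntegral.of_finite _ _
  exact fun a => Algebra.IsIntegral.isIntegral a

/-- (VS3)(a) in coordinate form. -/
theorem forall_mem_of_coord_mem_of_coords {n : ℕ} (b : Fin n → A)
    (hb : Function.Bijective (fun p : Fin n → O[X] => ∑ j, Polynomial.aeval t (p j) * b j))
    (hOV : ∀ c : O, algebraMap O Ω c ∈ V) (φ : A →ₐ[O] Ω) (h : φ t ∈ V) : ∀ a, φ a ∈ V :=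
  forall_mem_of_coord_mem V (isIntegral_adjoin_of_coords b hb.2) hOV φ h

/-- A `V`-valued `Ω`-point is a `V`-point (Mathlib-only twin of `ChartMap75.codRestrictVal`). -/
theorem exists_algHom_valuationSubring [Algebra O V] [IsScalarTower O V Ω] (φ : A →ₐ[O] Ω)
    (h : ∀ a, φ a ∈ V) : ∃ φV : A →ₐ[O] V, (IsScalarTower.toAlgHom O V Ω).comp φV = φ := by
  refine ⟨{ (φ : A →+* Ω).codRestrict V.toSubring h with
    commutes' := fun c => Subtype.ext ?_ }, ?_⟩
  · change φ (algebraMap O A c) = ((algebraMap O V c : V) : Ω)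
    rw [AlgHom.commutes]
    exact IsScalarTower.algebraMap_apply O V Ω c
  · ext a
    rfl

end Integral

section Switch

variable {A A' A01 : Type*} [CommRing A] [CommRing A'] [CommRing A01] [Algebra O A] [Algebra O A']
  [Algebra O A01] [Algebra A A01] [Algebra A' A01] [IsScalarTower O A A01] [IsScalarTower O A' A01]
  {t : A} {s : A'} [IsLocalization.Away t A01]

/-- **(VS3)(b)** A point `φ` of the chart `Spec A` with `φ t ∉ V` lies on the overlap
`Spec A01 = Spec A[1/t]`, and its coordinate `s` in the other chart is in `V`. -/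
theorem exists_switch (hts : algebraMap A A01 t * algebraMap A' A01 s = 1) (φ : A →ₐ[O] Ω)
    (h : φ t ∉ V) :
    ∃ φ01 : A01 →ₐ[O] Ω, φ01.comp (IsScalarTower.toAlgHom O A A01) = φ ∧
      (φ01.comp (IsScalarTower.toAlgHom O A' A01)) s ∈ V := by
  have ht0 : φ t ≠ 0 := by
    intro h0
    exact h (h0 ▸ V.zero_mem)
  have hinv : (φ t)⁻¹ ∈ V := (V.mem_or_inv_mem (φ t)).resolve_left h
  have hunit : ∀ y : Submonoid.powers t, IsUnit (φ y) := by
    rintro ⟨y, n, rfl⟩
    rw [map_pow]
    exact (IsUnit.mk0 _ ht0).pow n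
  let φ01 : A01 →ₐ[O] Ω := IsLocalization.liftAlgHom (M := Submonoid.powers t) (f := φ) hunit
  have hφ01 : ∀ a : A, φ01 (algebraMap A A01 a) = φ a := fun a =>
    IsLocalization.lift_eq (M := Submonoid.powers t) (g := (φ : A →+* Ω)) hunit a
  refine ⟨φ01, ?_, ?_⟩
  · ext a
    exact hφ01 a
  · change φ01 (algebraMap A' A01 s) ∈ V
    have h1 : φ t * φ01 (algebraMap A' A01 s) = 1 := by
      rw [← hφ01 t, ← map_mul, hts, map_one]
    have h2 : φ01 (algebraMap A' A01 s) = (φ t)⁻¹ := eq_inv_of_mul_eq_one_right h1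
    rw [h2]
    exact hinv

end Switch

end General

section TwoCharts

variable {O : Type*} [CommRing O] {Ω : Type*} [Field Ω] [Algebra O Ω] (V : ValuationSubring Ω)
  {A0 A1 A01 : Type*} [CommRing A0] [CommRing A1] [CommRing A01] [Algebra O A0] [Algebra O A1]
  [Algebra O A01] [Algebra A0 A01] [Algebra A1 A01] [IsScalarTower O A0 A01]
  [IsScalarTower O A1 A01] {t : A0} {s : A1} [IsLocalization.Away t A01]
  [IsLocalization.Away s A01]

omit [IsLocalization.Away t A01] in
/-- (VS3)(b'), the mirror statement: a point `φ` of `U1` with `φ s ∉ V` lies on the overlap and its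
coordinate `t` in `U0` is in `V`. -/
theorem exists_switch' (hts : algebraMap A0 A01 t * algebraMap A1 A01 s = 1) (φ : A1 →ₐ[O] Ω)
    (h : φ s ∉ V) :
    ∃ φ01 : A01 →ₐ[O] Ω, φ01.comp (IsScalarTower.toAlgHom O A1 A01) = φ ∧
      (φ01.comp (IsScalarTower.toAlgHom O A0 A01)) t ∈ V :=
  exists_switch V (A := A1) (A' := A0) (A01 := A01) (t := s) (s := t)
    (by rw [mul_comm]; exact hts) φ h

omit [IsLocalization.Away s A01] in
/-- **(VS3)(c)** Every `Ω`-point of `U0` is `V`-valued, or lies on the overlap and is `V`-valued as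
a point of `U1`. -/
theorem forall_mem_or_exists_switch (hts : algebraMap A0 A01 t * algebraMap A1 A01 s = 1)
    (hint0 : ∀ a : A0, IsIntegral (Algebra.adjoin O {t}) a)
    (hint1 : ∀ a : A1, IsIntegral (Algebra.adjoin O {s}) a)
    (hOV : ∀ c : O, algebraMap O Ω c ∈ V) (φ : A0 →ₐ[O] Ω) :
    (∀ a, φ a ∈ V) ∨ ∃ φ01 : A01 →ₐ[O] Ω, φ01.comp (IsScalarTower.toAlgHom O A0 A01) = φ ∧
      ∀ a1 : A1, (φ01.comp (IsScalarTower.toAlgHom O A1 A01)) a1 ∈ V := by
  by_cases h : φ t ∈ V
  · exact Or.inl (forall_mem_of_coord_mem V hint0 hOV φ h)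
  · obtain ⟨φ01, h1, h2⟩ := exists_switch V (A' := A1) (s := s) hts φ h
    exact Or.inr ⟨φ01, h1, forall_mem_of_coord_mem V hint1 hOV _ h2⟩

omit [IsLocalization.Away t A01] in
/-- (VS3)(c'), the mirror statement for points of `U1`. -/
theorem forall_mem_or_exists_switch' (hts : algebraMap A0 A01 t * algebraMap A1 A01 s = 1)
    (hint0 : ∀ a : A0, IsIntegral (Algebra.adjoin O {t}) a)
    (hint1 : ∀ a : A1, IsIntegral (Algebra.adjoin O {s}) a)
    (hOV : ∀ c : O, algebraMap O Ω c ∈ V) (φ : A1 →ₐ[O] Ω) :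
    (∀ a, φ a ∈ V) ∨ ∃ φ01 : A01 →ₐ[O] Ω, φ01.comp (IsScalarTower.toAlgHom O A1 A01) = φ ∧
      ∀ a0 : A0, (φ01.comp (IsScalarTower.toAlgHom O A0 A01)) a0 ∈ V := by
  by_cases h : φ s ∈ V
  · exact Or.inl (forall_mem_of_coord_mem V hint1 hOV φ h)
  · obtain ⟨φ01, h1, h2⟩ := exists_switch' V hts φ h
    exact Or.inr ⟨φ01, h1, forall_mem_of_coord_mem V hint0 hOV _ h2⟩

end TwoCharts

end Fermat.Agent.FFJ.Val.ExtendPoint87
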