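/-
Programme FFJ (S19), chapter VAL: **ValSurj** (the existence half of the valuative property).
Owner: helper67.

For two-chart curve data `(A0 → A01 ← A1; t, s)` over a base ring `O` with coordinates and Dedekind
fibres, an ALGEBRAICALLY CLOSED field `Ω` over `O` and a valuation subring `V ⊆ Ω` containing the image
of `O`:
* `bcR_surjective`: every class of line diagrams over `Ω` extends over `V`
  (the group `ClR .. Ω` is generated by the classes `[O(-Γ_φ)]` of the `Ω`-points `φ` of the two charts,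
  `PointDictR67.closure_cls_pointDiagR_eq_top`; an `Ω`-point of a chart is `V`-valued or lies on the
  overlap with `V`-valued restriction to the other chart, `ExtendPoint87`; `[O(-Γ_φ)]` is compatible with
  base change, `PointDiagR67.bc_cls_pointDiag0R`);
* `isRigidClR_of_isLocalRing`: over a local ring every class is rigid;
* `valSurj_of_coords`, `valSurj` (for `Spec35.CurveHypR`), `valSurj'` (for `ChartDefR35.CurveHypR`):
  `Spec35.ValSurj O A0 A1 A01 t s e Ω` (an extension is rigid because `V` is local and has degree zero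
  because `Spec V` is connected, `DegFamilyR65.isDegZeroR_iff_of_preconnected`).
-/
import Mathlib
import Fermat.Agent.FFJ.Spec.Spec35
import Fermat.Agent.FFJ.Pic.ChartDefR35
import Fermat.Agent.FFJ.Core.DegFamilyR65
import Fermat.Agent.FFJ.Val.FibreR1
import Fermat.Agent.FFJ.Val.ExtendPoint87
import Fermat.Agent.FFJ.Val.PointDictR67
import Fermat.Agent.FFJ.Val.ChartHypR67

set_option autoImplicit false
set_option linter.unusedSectionVars false

open TensorProduct Polynomial

namespace Fermat.Agent.FFJ.Val.ValSurj67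

open Fermat.Agent.JAC.Core.Defs36 Fermat.Agent.JAC.Grp.Diag33
  Fermat.Agent.FFJ.Core.ClR35 Fermat.Agent.FFJ.Core.ClRBc35 Fermat.Agent.FFJ.Core.DegFamilyR65
  Fermat.Agent.FFJ.Spec.Spec35
  Fermat.Agent.FFJ.Val.FibreR1 Fermat.Agent.FFJ.Val.ExtendPoint87
  Fermat.Agent.FFJ.Val.PointDiagR67 Fermat.Agent.FFJ.Val.PointDictR67
  Fermat.Agent.FFJ.Val.ChartHypR67

open scoped Fermat.Agent.JAC.Core.ConstFamily36

/-! ### Rigidity over a local ring -/

section Rigid

universe u

open Fermat.Agent.JAC.Core.ConstFamily36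

variable {k : Type u} [CommRing k] {A0 A1 A01 : Type u} [CommRing A0] [CommRing A1] [CommRing A01]
  [Algebra k A0] [Algebra k A1] [Algebra k A01] [Algebra A0 A01] [Algebra A1 A01]
  [IsScalarTower k A0 A01] [IsScalarTower k A1 A01] {t : A0} {s : A1}
  [IsLocalization.Away t A01] [IsLocalization.Away s A01] (e : A01 →ₐ[k] k)

/-- Over a local ring every class is rigid (`Pic B = 1`); base-ring port of
`RigidLocal33.isRigidCl_of_isLocalRing'`. -/
theorem isRigidClR_of_isLocalRing (B : Type u) [CommRing B] [Algebra k B] [IsLocalRing B]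
    (ξ : ClR k A0 A1 A01 t s B) : IsRigidClR e B ξ := by
  letI := rigAlgebra B e
  change ξ ∈ rigidSubgroup (t := (1 : B) ⊗ₜ[k] t) (s := (1 : B) ⊗ₜ[k] s) B
  rw [rigidSubgroup, MonoidHom.mem_ker]
  exact Subsingleton.elim _ _

end Rigid

/-! ### Extension of classes over a valuation subring -/

section Main

variable {O : Type} [CommRing O] {A0 A1 A01 : Type} [CommRing A0] [CommRing A1] [CommRing A01]
  [Algebra O A0] [Algebra O A1] [Algebra O A01] [Algebra A0 A01] [Algebra A1 A01]
  [IsScalarTower O A0 A01] [IsScalarTower O A1 A01] {t : A0} {s : A1}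
  [IsLocalization.Away t A01] [IsLocalization.Away s A01]

/-- The image of `O` lies in a valuation subring `V` which is an `O`-algebra compatibly. -/
theorem algebraMap_mem_valuationSubring {Ω : Type} [Field Ω] [Algebra O Ω] (V : ValuationSubring Ω)
    [Algebra O V] [IsScalarTower O V Ω] (c : O) : algebraMap O Ω c ∈ V := by
  rw [IsScalarTower.algebraMap_apply O V Ω]
  exact (algebraMap O V c).2

variable (hts : algebraMap A0 A01 t * algebraMap A1 A01 s = 1)
  {n0 n1 : ℕ} {a0 : Fin n0 → A0} {a1 : Fin n1 → A1}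
  (ha0 : Function.Bijective (fun p : Fin n0 → O[X] => ∑ j, aeval t (p j) * a0 j))
  (ha1 : Function.Bijective (fun p : Fin n1 → O[X] => ∑ j, aeval s (p j) * a1 j))
  (hded0 : ∀ (K : Type) [Field K] [Algebra O K], IsDedekindDomain (K ⊗[O] A0))
  (hded1 : ∀ (K : Type) [Field K] [Algebra O K], IsDedekindDomain (K ⊗[O] A1))
  (hded01 : ∀ (K : Type) [Field K] [Algebra O K], IsDedekindDomain (K ⊗[O] A01))

include hts ha0 ha1 hded0 hded1 hded01 in
/-- **Every class over an algebraically closed field `Ω` extends over every valuation subring `V`**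
(valuative criterion for the two-chart curve + generation of `Pic` by points). -/
theorem bcR_surjective (Ω : Type) [Field Ω] [IsAlgClosed Ω] [Algebra O Ω]
    (V : ValuationSubring Ω) [Algebra O V] [IsScalarTower O V Ω] :
    Function.Surjective
      (bcR (IsScalarTower.toAlgHom O V Ω) :
        ClR O A0 A1 A01 t s V →* ClR O A0 A1 A01 t s Ω) := by
  have h0 : ChartHypR O A0 := chartHypR_of_coords ⟨n0, a0, ha0⟩ hded0
  have h1 : ChartHypR O A1 := chartHypR_of_coords ⟨n1, a1, ha1⟩ hded1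
  haveI := hded0 Ω
  haveI := hded1 Ω
  haveI := hded01 Ω
  haveI := isFractionRing₀ (k := O) (A01 := A01) t Ω
  haveI := isFractionRing₁ (k := O) (A01 := A01) s Ω
  have S := isSettingR t s Ω hts ha0 ha1
  have hgen := closure_cls_pointDiagR_eq_top t s Ω h0 h1 hts S
  have hint0 : ∀ a : A0, IsIntegral (Algebra.adjoin O {t}) a :=
    isIntegral_adjoin_of_coords a0 ha0.2
  have hint1 : ∀ a : A1, IsIntegral (Algebra.adjoin O {s}) a :=
    isIntegral_adjoin_of_coords a1 ha1.2
  have hOV : ∀ c : O, algebraMap O Ω c ∈ V := algebraMap_mem_valuationSubring V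
  rw [← MonoidHom.range_eq_top, eq_top_iff, ← hgen, Subgroup.closure_le]
  rintro _ (⟨φ, rfl⟩ | ⟨φ, rfl⟩)
  · rcases forall_mem_or_exists_switch V hts hint0 hint1 hOV φ with h | ⟨φ01, rfl, h⟩
    · obtain ⟨φV, rfl⟩ := exists_algHom_valuationSubring V φ h
      exact ⟨cls (pointDiag0R t s h0 hts φV),
        bc_cls_pointDiag0R t s (IsScalarTower.toAlgHom O V Ω) h0 hts φV⟩
    · obtain ⟨ψV, hψ⟩ := exists_algHom_valuationSubring V _ h
      refine ⟨cls (pointDiag1R t s h1 hts ψV), ?_⟩
      show bcR (IsScalarTower.toAlgHom O V Ω) (cls (pointDiag1R t s h1 hts ψV)) = _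
      rw [bc_cls_pointDiag1R, hψ]
      exact (cls_pointDiag0_eq_cls_pointDiag1R t s h0 h1 hts φ01).symm
  · rcases forall_mem_or_exists_switch' V hts hint0 hint1 hOV φ with h | ⟨φ01, rfl, h⟩
    · obtain ⟨φV, rfl⟩ := exists_algHom_valuationSubring V φ h
      exact ⟨cls (pointDiag1R t s h1 hts φV),
        bc_cls_pointDiag1R t s (IsScalarTower.toAlgHom O V Ω) h1 hts φV⟩
    · obtain ⟨ψV, hψ⟩ := exists_algHom_valuationSubring V _ h
      refine ⟨cls (pointDiag0R t s h0 hts ψV), ?_⟩
      show bcR (IsScalarTower.toAlgHom O V Ω) (cls (pointDiag0R t s h0 hts ψV)) = _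
      rw [bc_cls_pointDiag0R, hψ]
      exact cls_pointDiag0_eq_cls_pointDiag1R t s h0 h1 hts φ01

include hts ha0 ha1 hded0 hded1 hded01 in
/-- **ValSurj** from coordinates and Dedekind fibres. -/
theorem valSurj_of_coords (e : A01 →ₐ[O] O) (Ω : Type) [Field Ω] [IsAlgClosed Ω] [Algebra O Ω] :
    ValSurj O A0 A1 A01 t s e Ω := by
  intro V _ _ η hη
  obtain ⟨ξ, rfl⟩ := bcR_surjective hts ha0 ha1 hded0 hded1 hded01 Ω V η
  refine ⟨ξ, ⟨isRigidClR_of_isLocalRing e V ξ, ?_⟩, rfl⟩
  haveI : PreconnectedSpace (PrimeSpectrum V) := inferInstance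
  rw [isDegZeroR_iff_of_preconnected hts a0 ha0 a1 ha1 ξ
      ⟨RingHom.ker (IsScalarTower.toAlgHom O V Ω), RingHom.ker_isPrime _⟩,
    ← degClass_bcR_eq_degFunR hts a0 ha0 a1 ha1 ξ Ω (IsScalarTower.toAlgHom O V Ω)]
  exact (isDegZeroR_field_iff hts a0 ha0 a1 ha1 _).mp hη.2

/-- **ValSurj** for the curve hypotheses of `Spec35`. -/
theorem valSurj (H : Fermat.Agent.FFJ.Spec.Spec35.CurveHypR O A0 A1 A01 t s) (e : A01 →ₐ[O] O) (Ω : Type) [Field Ω]
    [IsAlgClosed Ω] [Algebra O Ω] : ValSurj O A0 A1 A01 t s e Ω := by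
  obtain ⟨n0, a0, ha0⟩ := H.free0
  obtain ⟨n1, a1, ha1⟩ := H.free1
  exact valSurj_of_coords H.ts ha0 ha1 H.dedekind0 H.dedekind1 H.dedekind01 e Ω

/-- **ValSurj** for the canonical curve hypotheses `ChartDefR35.CurveHypR`. -/
theorem valSurj' (H : Fermat.Agent.FFJ.Pic.ChartDefR35.CurveHypR O A0 A1 A01 t s)
    (e : A01 →ₐ[O] O) (Ω : Type) [Field Ω] [IsAlgClosed Ω] [Algebra O Ω] :
    ValSurj O A0 A1 A01 t s e Ω := by
  obtain ⟨n0, a0, ha0⟩ := H.coords0
  obtain ⟨n1, a1, ha1⟩ := H.coords1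
  exact valSurj_of_coords H.hts ha0 ha1 H.dedekind0 H.dedekind1 H.dedekind01 e Ω

end Main

end Fermat.Agent.FFJ.Val.ValSurj67
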