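/-
# FFJ / VAL : `ValInj` (and the `PicZero` group laws) for the canonical curve hypotheses
  `ChartDefR35.CurveHypR`   (helper1)

`Spec35.CurveHypR` (v0) has been superseded by `FFJ/Pic/ChartDefR35.CurveHypR` (same fields up to names,
plus `finiteType0/1`).  This file converts the canonical hypotheses (at universe `0`) into the v0 ones
and restates the consumers' entry points of chapter VAL for them:

* `curveHypR_v0`     : `ChartDefR35.CurveHypR O A0 A1 A01 t s → Spec35.CurveHypR O A0 A1 A01 t s`;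
* `valInj'`          : `Spec35.ValInj O A0 A1 A01 t s e Ω` over a discrete valuation ring `O`;
* `valInj_of_rankOne'`;
* `degZeroMul'`, `picZeroMul'`, `picZeroRSubgroup'` : `Order77.DegZeroMul`, `Order77.PicZeroMul`;
* `existsUnique_extension` : ValInj + ValSurj in one statement: over a DVR `O`, with `Ω` an algebraic
  closure-like field (algebraically closed and algebraic over `O`), every `η ∈ PicZeroR e Ω` has, for
  every valuation subring `V ⊇ O` of `Ω`, EXACTLY ONE extension `ξ ∈ PicZeroR e V`;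
* `finite_extensions` : for `T` finite the set of `ξ ∈ PicZeroR e V` with generic fibre in `T` is finite.
-/
import Mathlib
import Fermat.Agent.FFJ.Val.ValInj1
import Fermat.Agent.FFJ.Val.ValSurj67
import Fermat.Agent.FFJ.Val.PicZeroGrp1
import Fermat.Agent.FFJ.Pic.ChartDefR35

set_option autoImplicit false
set_option linter.unusedSectionVars false

open TensorProduct Polynomial

namespace Fermat.Agent.FFJ.Val.ValInjR1

open Fermat.Agent.FFJ.Spec.Spec35 Fermat.Agent.FFJ.Core.ClR35 Fermat.Agent.FFJ.Core.ClRBc35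

variable {O : Type} [CommRing O]
variable {A0 A1 A01 : Type} [CommRing A0] [CommRing A1] [CommRing A01]
variable [Algebra O A0] [Algebra O A1] [Algebra O A01] [Algebra A0 A01] [Algebra A1 A01]
variable [IsScalarTower O A0 A01] [IsScalarTower O A1 A01]
variable {t : A0} {s : A1} [IsLocalization.Away t A01] [IsLocalization.Away s A01]

/-- The canonical curve hypotheses give the (superseded) v0 ones. -/
theorem curveHypR_v0 (H : Fermat.Agent.FFJ.Pic.ChartDefR35.CurveHypR O A0 A1 A01 t s) :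
    CurveHypR O A0 A1 A01 t s where
  ts := H.hts
  free0 := H.coords0
  free1 := H.coords1
  dedekind0 := H.dedekind0
  dedekind1 := H.dedekind1
  dedekind01 := H.dedekind01
  h0 := fun x y hxy => by
    obtain ⟨c, hx, hy⟩ := H.h0 x y hxy
    exact ⟨c, hx.symm, hy.symm⟩

variable (e : A01 →ₐ[O] O)

/-- **`DegZeroMul` of chapter ORDER** from the canonical curve hypotheses. -/
theorem degZeroMul' (H : Fermat.Agent.FFJ.Pic.ChartDefR35.CurveHypR O A0 A1 A01 t s) :
    Fermat.Agent.FFJ.Order.Order77.DegZeroMul O A0 A1 A01 t s :=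
  Fermat.Agent.FFJ.Val.PicZeroGrp1.degZeroMul (curveHypR_v0 H)

/-- **`PicZeroMul` of chapter ORDER** from the canonical curve hypotheses. -/
theorem picZeroMul' (H : Fermat.Agent.FFJ.Pic.ChartDefR35.CurveHypR O A0 A1 A01 t s) :
    Fermat.Agent.FFJ.Order.Order77.PicZeroMul O A0 A1 A01 t s e :=
  Fermat.Agent.FFJ.Val.PicZeroGrp1.picZeroMul e (curveHypR_v0 H)

/-- **`PicZeroR e B` as a subgroup**, from the canonical curve hypotheses. -/
def picZeroRSubgroup' (H : Fermat.Agent.FFJ.Pic.ChartDefR35.CurveHypR O A0 A1 A01 t s)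
    (B : Type) [CommRing B] [Algebra O B] : Subgroup (ClR O A0 A1 A01 t s B) :=
  Fermat.Agent.FFJ.Val.PicZeroGrp1.picZeroRSubgroup e (curveHypR_v0 H) B

@[simp] theorem mem_picZeroRSubgroup'
    (H : Fermat.Agent.FFJ.Pic.ChartDefR35.CurveHypR O A0 A1 A01 t s)
    (B : Type) [CommRing B] [Algebra O B] (x : ClR O A0 A1 A01 t s B) :
    x ∈ picZeroRSubgroup' e H B ↔ x ∈ PicZeroR e B := Iff.rfl

variable {Ω : Type} [Field Ω] [Algebra O Ω]

/-- **`ValInj`** for valuation subrings of rank one, canonical curve hypotheses. -/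
theorem valInj_of_rankOne' (H : Fermat.Agent.FFJ.Pic.ChartDefR35.CurveHypR O A0 A1 A01 t s)
    (hrk : ∀ V : ValuationSubring Ω, (∀ a : O, algebraMap O Ω a ∈ V) →
      Fermat.Agent.FFJ.Val.ValInj1.RankOne V) :
    ValInj O A0 A1 A01 t s e Ω :=
  Fermat.Agent.FFJ.Val.ValInj1.valInj_of_rankOne (curveHypR_v0 H) e hrk

/-- **`ValInj`** over a discrete valuation ring `O` with `Ω ⊇ O` algebraic, canonical curve
hypotheses. -/
theorem valInj' (H : Fermat.Agent.FFJ.Pic.ChartDefR35.CurveHypR O A0 A1 A01 t s) [IsDomain O]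
    [IsDiscreteValuationRing O] [Algebra.IsAlgebraic O Ω]
    (hinj : Function.Injective (algebraMap O Ω)) : ValInj O A0 A1 A01 t s e Ω :=
  Fermat.Agent.FFJ.Val.ValInj1.valInj (curveHypR_v0 H) e hinj

/-- **VAL in one statement**: over a discrete valuation ring `O`, with `Ω` algebraically closed and
algebraic over `O`, every `η ∈ PicZeroR e Ω` has EXACTLY ONE extension in `PicZeroR e V`, for every
valuation subring `V ⊇ O` of `Ω`. -/
theorem existsUnique_extension
    (H : Fermat.Agent.FFJ.Pic.ChartDefR35.CurveHypR O A0 A1 A01 t s) [IsDomain O]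
    [IsDiscreteValuationRing O] [IsAlgClosed Ω] [Algebra.IsAlgebraic O Ω]
    (hinj : Function.Injective (algebraMap O Ω))
    (V : ValuationSubring Ω) [Algebra O V] [IsScalarTower O V Ω]
    (η : ClR O A0 A1 A01 t s Ω) (hη : η ∈ PicZeroR e Ω) :
    ∃! ξ : ClR O A0 A1 A01 t s V,
      ξ ∈ PicZeroR e V ∧ bcR (IsScalarTower.toAlgHom O V Ω) ξ = η := by
  obtain ⟨ξ, hξ, hξη⟩ := Fermat.Agent.FFJ.Val.ValSurj67.valSurj' H e Ω V η hη
  refine ⟨ξ, ⟨hξ, hξη⟩, fun ξ' hξ' => ?_⟩
  exact valInj' e H hinj V ξ' ξ hξ'.1 hξ (hξ'.2.trans hξη.symm)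

/-- The set of specialisations of a finite set of generic classes is finite: for `T` finite, the
set of `ξ ∈ PicZeroR e V` with generic fibre in `T` is finite. -/
theorem finite_extensions
    (H : Fermat.Agent.FFJ.Pic.ChartDefR35.CurveHypR O A0 A1 A01 t s) [IsDomain O]
    [IsDiscreteValuationRing O] [Algebra.IsAlgebraic O Ω]
    (hinj : Function.Injective (algebraMap O Ω))
    (V : ValuationSubring Ω) [Algebra O V] [IsScalarTower O V Ω]
    (T : Set (ClR O A0 A1 A01 t s Ω)) (hT : T.Finite) :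
    {ξ : ClR O A0 A1 A01 t s V |
      ξ ∈ PicZeroR e V ∧ bcR (IsScalarTower.toAlgHom O V Ω) ξ ∈ T}.Finite := by
  refine Set.Finite.of_finite_image (f := bcR (IsScalarTower.toAlgHom O V Ω))
    (hT.subset ?_) ?_
  · rintro _ ⟨ξ, hξ, rfl⟩
    exact hξ.2
  · intro ξ hξ ξ' hξ' h
    exact valInj' e H hinj V ξ ξ' hξ.1 hξ'.1 h

end Fermat.Agent.FFJ.Val.ValInjR1
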