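/-
FFJ (S19), chapter VAL, brick (V6) (helper82; interfaces of helper1, report #1388).  Mathlib only.

**Nakayama over a rank-one valuation ring.**  `V` a valuation ring (local domain), `R` a
`V`-algebra, `Q` a finitely generated `R`-module killed by some `v ≠ 0` of `V`, with `Q = 𝔪_V Q`;
if every `μ ∈ 𝔪_V` has a power divisible by `v` (rank one), then `Q = 0`.

* `exists_eq_mul_of_mem_map` : every element of `𝔪_V R` is `μ r'` for ONE `μ ∈ 𝔪_V`
  (the finitely many coefficients are multiples of one of them since `V` is a valuation ring);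
* `eq_zero_of_rankOne_nakayama`, `eq_zero_of_rankOne_nakayama'`, `subsingleton_of_rankOne_nakayama`.
-/
import Mathlib

set_option autoImplicit false

namespace Fermat.Agent.FFJ.Val.NakRank82

open IsLocalRing

variable {V R Q : Type*} [CommRing V] [IsDomain V] [ValuationRing V] [CommRing R] [Algebra V R]

/-- Every element of the extension `𝔪_V R` of the maximal ideal of a valuation ring is of the form
`μ r'` with ONE `μ ∈ 𝔪_V`. -/
theorem exists_eq_mul_of_mem_map {x : R}
    (hx : x ∈ (maximalIdeal V).map (algebraMap V R)) :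
    ∃ μ ∈ maximalIdeal V, ∃ r' : R, x = algebraMap V R μ * r' := by
  unfold Ideal.map at hx
  induction hx using Submodule.span_induction with
  | mem x hx =>
    obtain ⟨a, ha, rfl⟩ := hx
    exact ⟨a, ha, 1, (mul_one _).symm⟩
  | zero => exact ⟨0, (maximalIdeal V).zero_mem, 0, by simp⟩
  | add x y _ _ hx hy =>
    obtain ⟨μ₁, hμ₁, r₁, rfl⟩ := hx
    obtain ⟨μ₂, hμ₂, r₂, rfl⟩ := hy
    rcases ValuationRing.dvd_total μ₁ μ₂ with ⟨c, rfl⟩ | ⟨c, rfl⟩
    · exact ⟨μ₁, hμ₁, r₁ + algebraMap V R c * r₂, by rw [map_mul]; ring⟩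
    · exact ⟨μ₂, hμ₂, algebraMap V R c * r₁ + r₂, by rw [map_mul]; ring⟩
  | smul a x _ hx =>
    obtain ⟨μ, hμ, r', rfl⟩ := hx
    exact ⟨μ, hμ, a * r', by rw [smul_eq_mul]; ring⟩

variable [AddCommGroup Q] [Module R Q] [Module V Q] [IsScalarTower V R Q]

/-- **(V6) Nakayama over a rank-one valuation ring.** -/
theorem eq_zero_of_rankOne_nakayama [Module.Finite R Q] (v : V)
    (hvQ : ∀ q : Q, v • q = 0)
    (hQ : (⊤ : Submodule R Q) ≤ (maximalIdeal V).map (algebraMap V R) • ⊤)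
    (hrk : ∀ μ ∈ maximalIdeal V, ∃ n : ℕ, v ∣ μ ^ n) : ∀ q : Q, q = 0 := by
  obtain ⟨r, hr, hrQ⟩ := Submodule.exists_sub_one_mem_and_smul_eq_zero_of_fg_of_le_smul
    ((maximalIdeal V).map (algebraMap V R)) (⊤ : Submodule R Q) Module.Finite.fg_top hQ
  obtain ⟨μ, hμ, r', hr'⟩ := exists_eq_mul_of_mem_map hr
  obtain ⟨n, w, hw⟩ := hrk μ hμ
  intro q
  set s : R := -(algebraMap V R μ * r') with hs
  have hstep : ∀ q : Q, q = s • q := by
    intro q
    have h1 := hrQ q Submodule.mem_top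
    have h2 : r = 1 - s := by rw [hs, sub_neg_eq_add, ← hr']; ring
    rw [h2, sub_smul, one_smul, sub_eq_zero] at h1
    exact h1
  have hpow : ∀ k : ℕ, q = s ^ k • q := by
    intro k
    induction k with
    | zero => rw [pow_zero, one_smul]
    | succ k ih =>
      rw [pow_succ, mul_smul, ← hstep q]
      exact ih
  rw [hpow n, hs, neg_pow, mul_pow, ← map_pow, hw, map_mul]
  have h3 : (-1) ^ n * (algebraMap V R v * algebraMap V R w * r' ^ n) =
      ((-1) ^ n * algebraMap V R w * r' ^ n) * algebraMap V R v := by ring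
  rw [h3, mul_smul, algebraMap_smul, hvQ, smul_zero]

/-- Variant with the hypothesis `Q = 𝔪_V Q` stated over `V`. -/
theorem eq_zero_of_rankOne_nakayama' [Module.Finite R Q] (v : V)
    (hvQ : ∀ q : Q, v • q = 0)
    (hQ : ∀ q : Q, q ∈ (maximalIdeal V • ⊤ : Submodule V Q))
    (hrk : ∀ μ ∈ maximalIdeal V, ∃ n : ℕ, v ∣ μ ^ n) : ∀ q : Q, q = 0 := by
  refine eq_zero_of_rankOne_nakayama (R := R) v hvQ ?_ hrk
  intro q _
  have hq := hQ q
  refine Submodule.smul_induction_on hq ?_ ?_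
  · intro a ha q' _
    rw [← algebraMap_smul R a q']
    exact Submodule.smul_mem_smul (Ideal.mem_map_of_mem _ ha) Submodule.mem_top
  · intro x y hx hy
    exact Submodule.add_mem _ hx hy

theorem subsingleton_of_rankOne_nakayama [Module.Finite R Q] (v : V)
    (hvQ : ∀ q : Q, v • q = 0)
    (hQ : (⊤ : Submodule R Q) ≤ (maximalIdeal V).map (algebraMap V R) • ⊤)
    (hrk : ∀ μ ∈ maximalIdeal V, ∃ n : ℕ, v ∣ μ ^ n) : Subsingleton Q :=
  ⟨fun a b => by
    rw [eq_zero_of_rankOne_nakayama (R := R) v hvQ hQ hrk a,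
      eq_zero_of_rankOne_nakayama (R := R) v hvQ hQ hrk b]⟩

end Fermat.Agent.FFJ.Val.NakRank82
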