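/-
FFJ (S19), chapter VAL, brick (V5) (helper82; interfaces of helper1, report #1388).  Mathlib only.

* `exists_dvd_all` : finitely many elements of a valuation ring, not all zero: one of them is
  nonzero and divides all the others;
* `exists_primitive` : **(V5a)** in a projective module `P` over a valuation ring `V` (a domain),
  every `x ≠ 0` is `c • τ` with `c ≠ 0` and `τ` PRIMITIVE (`τ ∉ 𝔪_V P`);
* `projective_of_free_tower` : **(V5b)** restriction of scalars: a projective module over a
  `V`-algebra `R` which is free as a `V`-module is projective over `V`.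
-/
import Mathlib

set_option autoImplicit false

namespace Fermat.Agent.FFJ.Val.Primitive82

open IsLocalRing

section Primitive

variable {V : Type*} [CommRing V] [IsDomain V] [ValuationRing V]

/-- In a valuation ring, a finitely supported family which is not zero has a nonzero member
dividing all the others. -/
theorem exists_dvd_all {ι : Type*} (y : ι →₀ V) (hy : y ≠ 0) :
    ∃ i, y i ≠ 0 ∧ ∀ j, y i ∣ y j := by
  classical
  have key : ∀ s : Finset ι, s.Nonempty → ∃ i ∈ s, ∀ j ∈ s, y i ∣ y j := by
    intro s hs
    induction hs using Finset.Nonempty.cons_induction with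
    | singleton a => exact ⟨a, Finset.mem_singleton_self a, fun j hj => by
        rw [Finset.mem_singleton.mp hj]⟩
    | cons a s ha hs ih =>
      obtain ⟨i, his, hi⟩ := ih
      rcases ValuationRing.dvd_total (y a) (y i) with h | h
      · refine ⟨a, Finset.mem_cons_self a s, fun j hj => ?_⟩
        rcases Finset.mem_cons.mp hj with rfl | hj
        · exact dvd_rfl
        · exact h.trans (hi j hj)
      · refine ⟨i, Finset.mem_cons.mpr (Or.inr his), fun j hj => ?_⟩
        rcases Finset.mem_cons.mp hj with rfl | hj
        · exact h
        · exact hi j hj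
  have hne : y.support.Nonempty := Finsupp.support_nonempty_iff.mpr hy
  obtain ⟨i, hi, hdiv⟩ := key y.support hne
  refine ⟨i, Finsupp.mem_support_iff.mp hi, fun j => ?_⟩
  by_cases hj : j ∈ y.support
  · exact hdiv j hj
  · rw [Finsupp.notMem_support_iff.mp hj]
    exact dvd_zero _

omit [IsDomain V] [ValuationRing V] in
/-- The coordinates of an element of `𝔪 • ⊤` in a module of finitely supported functions lie in
`𝔪`. -/
theorem apply_mem_of_mem_smul_top {ι : Type*} (I : Ideal V) {z : ι →₀ V}
    (hz : z ∈ (I • ⊤ : Submodule V (ι →₀ V))) (i : ι) : z i ∈ I := by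
  refine Submodule.smul_induction_on hz ?_ ?_
  · intro a ha w _
    rw [Finsupp.smul_apply, smul_eq_mul]
    exact I.mul_mem_right _ ha
  · intro u w hu hw
    rw [Finsupp.add_apply]
    exact I.add_mem hu hw

variable {P : Type*} [AddCommGroup P] [Module V P] [Module.Projective V P]

/-- **(V5a)** Every nonzero element of a projective module over a valuation ring is a nonzero
multiple of a primitive element. -/
theorem exists_primitive (x : P) (hx : x ≠ 0) :
    ∃ c : V, c ≠ 0 ∧ ∃ τ : P, x = c • τ ∧ τ ∉ (maximalIdeal V • ⊤ : Submodule V P) := by
  classical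
  obtain ⟨s, hs⟩ := Module.Projective.out (R := V) (P := P)
  set y : P →₀ V := s x with hy
  have hy0 : y ≠ 0 := by
    intro h0
    apply hx
    have := hs x
    rw [← hy, h0, map_zero] at this
    exact this.symm
  obtain ⟨i₀, hc0, hdiv⟩ := exists_dvd_all y hy0
  set c : V := y i₀ with hc
  -- the quotient by `c`
  let q : V → V := fun a => if h : c ∣ a then h.choose else 0
  have hq : ∀ a, c ∣ a → c * q a = a := by
    intro a h
    simp only [q, dif_pos h]
    exact h.choose_spec.symm
  have hq0 : q 0 = 0 := by
    have := hq 0 (dvd_zero c)
    exact (mul_eq_zero.mp this).resolve_left hc0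
  have hqc : q c = 1 := by
    have := hq c dvd_rfl
    exact mul_left_cancel₀ hc0 (this.trans (mul_one c).symm)
  set τ' : P →₀ V := y.mapRange q hq0 with hτ'
  have hcτ' : c • τ' = y := by
    ext j
    rw [Finsupp.smul_apply, smul_eq_mul, hτ', Finsupp.mapRange_apply]
    exact hq (y j) (hdiv j)
  refine ⟨c, hc0, Finsupp.linearCombination V id τ', ?_, ?_⟩
  · rw [← map_smul, hcτ']
    exact (hs x).symm
  · intro hmem
    set τ : P := Finsupp.linearCombination V id τ' with hτ
    have hsτ : s τ = τ' := by
      have h1 : c • s τ = c • τ' := by
        rw [← map_smul, hτ, ← map_smul, hcτ', hs x]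
      exact smul_right_injective _ hc0 h1
    have h2 : s τ ∈ (maximalIdeal V • ⊤ : Submodule V (P →₀ V)) := by
      refine Submodule.smul_induction_on hmem ?_ ?_
      · intro a ha w _
        rw [map_smul]
        exact Submodule.smul_mem_smul ha Submodule.mem_top
      · intro u w hu hw
        rw [map_add]
        exact Submodule.add_mem _ hu hw
    have h3 := apply_mem_of_mem_smul_top (maximalIdeal V) h2 i₀
    rw [hsτ, hτ', Finsupp.mapRange_apply, ← hc, hqc] at h3
    exact (maximalIdeal V).ne_top_iff_one.mp (Ideal.IsMaximal.ne_top inferInstance) h3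

end Primitive

section Tower

/-- **(V5b)** A projective module over a `V`-algebra `R` which is free over `V` is projective over
`V`. -/
theorem projective_of_free_tower {V R P : Type*} [CommRing V] [CommRing R] [Algebra V R]
    [Module.Free V R] [AddCommGroup P] [Module R P] [Module V P] [IsScalarTower V R P]
    [Module.Projective R P] : Module.Projective V P := by
  obtain ⟨s, hs⟩ := Module.Projective.out (R := R) (P := P)
  refine Module.Projective.of_split (R := V) (M := P →₀ R) (s.restrictScalars V)
    ((Finsupp.linearCombination R id).restrictScalars V) ?_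
  ext p
  exact hs p

end Tower

end Fermat.Agent.FFJ.Val.Primitive82
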