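/-
FFJ (S19), chapter VAL, brick (V4) (helper82; interfaces of helper1, report #1388).
Mathlib + JAC/Core/Defs36 + JAC/Grp/Diag33.

**A line diagram with a section generating both charts is trivial.**  For a line diagram
`N = (M0 → M01 ← M1)` over a two-chart family `(R0 → R01 ← R1; t, s)` and a compatible pair of
sections `x ∈ M0`, `y ∈ M1` (`rho0 x = rho1 y`) with `R0 x = M0`, `R1 y = M1`: `cls N = 1`.

* `isoUnitOfGen` : the isomorphism `unit ≅ N`, `1 ↦ (x, rho0 x, y)`;
* `cls_eq_one_of_span_eq_top`.
-/
import Mathlib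
import Fermat.Agent.JAC.Core.Defs36
import Fermat.Agent.JAC.Grp.Diag33

set_option autoImplicit false

universe u

namespace Fermat.Agent.FFJ.Val.TrivOfGen82

open Fermat.Agent.JAC.Core.Defs36 Fermat.Agent.JAC.Grp.Diag33

variable {R0 R1 R01 : Type u} [CommRing R0] [CommRing R1] [CommRing R01]
  [Algebra R0 R01] [Algebra R1 R01] {t : R0} {s : R1}
  [IsLocalization.Away t R01] [IsLocalization.Away s R01]

/-- A generator of an invertible module gives an isomorphism with the ring. -/
noncomputable def equivOfGen {R M : Type*} [CommRing R] [AddCommGroup M] [Module R M]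
    [Module.Invertible R M] (x : M) (hx : Submodule.span R {x} = ⊤) : R ≃ₗ[R] M :=
  LinearEquiv.ofBijective (LinearMap.toSpanSingleton R M x)
    (Module.Invertible.bijective_of_surjective (by
      intro m
      have hm : m ∈ Submodule.span R {x} := by rw [hx]; exact Submodule.mem_top
      obtain ⟨r, rfl⟩ := Submodule.mem_span_singleton.mp hm
      exact ⟨r, rfl⟩))

@[simp] theorem equivOfGen_apply {R M : Type*} [CommRing R] [AddCommGroup M] [Module R M]
    [Module.Invertible R M] (x : M) (hx : Submodule.span R {x} = ⊤) (r : R) :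
    equivOfGen x hx r = r • x := rfl

omit [IsLocalization.Away s R01] in
/-- The image of a generator of `M0` generates `M01`. -/
theorem span_rho0_eq_top (N : LineDiag t s R01) (x : N.M0)
    (hx : Submodule.span R0 {x} = ⊤) : Submodule.span R01 {N.rho0 x} = ⊤ := by
  rw [eq_top_iff]
  intro m _
  obtain ⟨⟨m0, ⟨_, n, rfl⟩⟩, hm⟩ := IsLocalizedModule.surj (Submonoid.powers t) N.rho0 m
  have hm0 : m0 ∈ Submodule.span R0 {x} := by rw [hx]; exact Submodule.mem_top
  obtain ⟨r, rfl⟩ := Submodule.mem_span_singleton.mp hm0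
  have hunit : IsUnit (algebraMap R0 R01 (t ^ n)) :=
    IsLocalization.map_units R01 (⟨t ^ n, n, rfl⟩ : Submonoid.powers t)
  obtain ⟨u, hu⟩ := hunit
  have h1 : (u : R01) • m = algebraMap R0 R01 r • N.rho0 x := by
    rw [hu, algebraMap_smul, algebraMap_smul, ← map_smul]
    exact hm
  have h2 : m = ((u⁻¹ : R01ˣ) : R01) • (algebraMap R0 R01 r • N.rho0 x) := by
    rw [← h1, smul_smul, Units.inv_mul, one_smul]
  rw [h2, smul_smul]
  exact Submodule.smul_mem _ _ (Submodule.mem_span_singleton_self _)

/-- The isomorphism `unit ≅ N` attached to a compatible pair of generating sections. -/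
noncomputable def isoUnitOfGen (N : LineDiag t s R01) (x : N.M0) (y : N.M1)
    (hxy : N.rho0 x = N.rho1 y) (hx : Submodule.span R0 {x} = ⊤)
    (hy : Submodule.span R1 {y} = ⊤) : LineDiag.Iso (LineDiag.unit t s R01) N where
  e0 := equivOfGen x hx
  e1 := equivOfGen y hy
  e01 := equivOfGen (N.rho0 x) (span_rho0_eq_top N x hx)
  comm0 r := by
    show equivOfGen (N.rho0 x) _ (algebraMap R0 R01 r) = N.rho0 (equivOfGen x hx r)
    rw [equivOfGen_apply, equivOfGen_apply, algebraMap_smul, map_smul]
  comm1 r := by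
    show equivOfGen (N.rho0 x) _ (algebraMap R1 R01 r) = N.rho1 (equivOfGen y hy r)
    rw [equivOfGen_apply, equivOfGen_apply, algebraMap_smul, map_smul, hxy]

/-- **(V4)** A line diagram with a compatible pair of sections generating both charts is
trivial. -/
theorem cls_eq_one_of_span_eq_top (N : LineDiag t s R01) (x : N.M0) (y : N.M1)
    (hxy : N.rho0 x = N.rho1 y) (hx : Submodule.span R0 {x} = ⊤)
    (hy : Submodule.span R1 {y} = ⊤) : cls N = 1 := by
  rw [cls_one]
  exact (cls_eq_iff.mpr ⟨isoUnitOfGen N x y hxy hx hy⟩).symm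

end Fermat.Agent.FFJ.Val.TrivOfGen82
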